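import Fermat.Agent.S53.Core

/-!
# S53: residual data from absolute irreducibility
-/

set_option autoImplicit false

open IsLocalRing

namespace Fermat.Agent.S53

/-- Absolute irreducibility, restated on the tensor product. -/
theorem absirr_habs {k : Type} [Field k] (ρbar : ResidualGaloisRep k)
    (habs : ρbar.IsAbsolutelyIrreducible)
    (W : Submodule (AlgebraicClosure k) (TensorProduct k (AlgebraicClosure k) ρbar.V))
    (hW : ∀ σ : GQ, ∀ x ∈ W, (ρbar.ρ σ).baseChange (AlgebraicClosure k) x ∈ W) :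
    W = ⊥ ∨ W = ⊤ :=
  habs W hW

theorem absirr_finrank {k : Type} [Field k] (ρbar : ResidualGaloisRep k) :
    Module.finrank (AlgebraicClosure k) (TensorProduct k (AlgebraicClosure k) ρbar.V) = 2 := by
  rw [Module.finrank_baseChange, ρbar.finrank_eq]

theorem absirr_nontrivial {k : Type} [Field k] (ρbar : ResidualGaloisRep k) :
    Nontrivial (TensorProduct k (AlgebraicClosure k) ρbar.V) :=
  Module.nontrivial_of_finrank_pos (R := AlgebraicClosure k)
    (by rw [absirr_finrank ρbar]; norm_num)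

/-- Step 1: some `ρbar g₀` is not a scalar. -/
theorem absirr_exists_not_scalar {k : Type} [Field k] (ρbar : ResidualGaloisRep k)
    (habs : ρbar.IsAbsolutelyIrreducible) :
    ∃ g₀ : GQ, ∀ a : k, ρbar.ρ g₀ ≠ a • (1 : Module.End k ρbar.V) := by
  by_contra! hcon
  have hnt := absirr_nontrivial ρbar
  obtain ⟨w, hw⟩ := exists_ne (0 : TensorProduct k (AlgebraicClosure k) ρbar.V)
  have hstable : ∀ σ : GQ, ∀ x ∈ Submodule.span (AlgebraicClosure k) {w},
      (ρbar.ρ σ).baseChange (AlgebraicClosure k) x ∈ Submodule.span (AlgebraicClosure k) {w} := by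
    intro σ x hx
    obtain ⟨a, ha⟩ := hcon σ
    rw [ha, LinearMap.baseChange_smul, LinearMap.baseChange_one, LinearMap.smul_apply,
      Module.End.one_apply]
    exact Submodule.smul_of_tower_mem _ a hx
  rcases absirr_habs ρbar habs _ hstable with h | h
  · rw [Submodule.span_singleton_eq_bot] at h
    exact hw h
  · have h1 : Module.finrank (AlgebraicClosure k) (Submodule.span (AlgebraicClosure k) {w}) = 1 :=
      finrank_span_singleton hw
    rw [h, finrank_top, absirr_finrank ρbar] at h1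
    norm_num at h1

/-- Step 3: a non-scalar endomorphism of a two-dimensional space has a cyclic vector. -/
theorem absirr_exists_cyclic {k : Type} [Field k] (ρbar : ResidualGaloisRep k)
    (f : Module.End k ρbar.V) (hf : ∀ a : k, f ≠ a • (1 : Module.End k ρbar.V)) :
    ∃ v : ρbar.V, LinearIndependent k ![v, f v] := by
  by_contra! hcon
  have key : ∀ v : ρbar.V, ∃ a : k, a • v = f v := by
    intro v
    by_cases hv : v = 0
    · exact ⟨0, by simp [hv]⟩
    · by_contra! h
      exact hcon v ((LinearIndependent.pair_iff' hv).mpr h)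
  let e := Module.finBasisOfFinrankEq k ρbar.V ρbar.finrank_eq
  obtain ⟨a0, h0⟩ := key (e 0)
  obtain ⟨a1, h1⟩ := key (e 1)
  obtain ⟨a, ha⟩ := key (e 0 + e 1)
  have h2 : a • e 0 + a • e 1 = a0 • e 0 + a1 • e 1 := by
    rw [← smul_add, ha, map_add, h0, h1]
  have h3 := congrArg e.repr h2
  have h30 := DFunLike.congr_fun h3 0
  have h31 := DFunLike.congr_fun h3 1
  simp at h30 h31
  apply hf a
  apply e.ext
  intro i
  fin_cases i
  · simp [← h0, h30]
  · simp [← h1, h31]

/-- Step 2: some `ρbar g₁` does not commute with `ρbar g₀`. -/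
theorem absirr_exists_not_commute {k : Type} [Field k] (ρbar : ResidualGaloisRep k)
    (habs : ρbar.IsAbsolutelyIrreducible) (g₀ : GQ) (v : ρbar.V)
    (hv : LinearIndependent k ![v, ρbar.ρ g₀ v]) :
    ∃ g₁ : GQ, ρbar.ρ g₀ * ρbar.ρ g₁ ≠ ρbar.ρ g₁ * ρbar.ρ g₀ := by
  by_contra! hcon
  have hnt := absirr_nontrivial ρbar
  obtain ⟨μ, hμ⟩ := Module.End.exists_eigenvalue ((ρbar.ρ g₀).baseChange (AlgebraicClosure k))
  have hstable : ∀ σ : GQ,
      ∀ x ∈ Module.End.eigenspace ((ρbar.ρ g₀).baseChange (AlgebraicClosure k)) μ,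
      (ρbar.ρ σ).baseChange (AlgebraicClosure k) x ∈
        Module.End.eigenspace ((ρbar.ρ g₀).baseChange (AlgebraicClosure k)) μ := by
    intro σ x hx
    rw [Module.End.mem_eigenspace_iff] at hx ⊢
    have h1 : (ρbar.ρ g₀).baseChange (AlgebraicClosure k) *
        (ρbar.ρ σ).baseChange (AlgebraicClosure k) =
        (ρbar.ρ σ).baseChange (AlgebraicClosure k) *
        (ρbar.ρ g₀).baseChange (AlgebraicClosure k) := by
      rw [← LinearMap.baseChange_mul, ← LinearMap.baseChange_mul, hcon σ]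
    have h2 := LinearMap.congr_fun h1 x
    rw [Module.End.mul_apply, Module.End.mul_apply, hx, map_smul] at h2
    exact h2
  rcases absirr_habs ρbar habs _ hstable with h | h
  · exact hμ h
  · have h1 : (1 : AlgebraicClosure k) ⊗ₜ[k] v ∈
        Module.End.eigenspace ((ρbar.ρ g₀).baseChange (AlgebraicClosure k)) μ := by
      rw [h]; trivial
    rw [Module.End.mem_eigenspace_iff, LinearMap.baseChange_tmul] at h1
    let b : Module.Basis (Fin 2) k ρbar.V :=
      basisOfLinearIndependentOfCardEqFinrank hv (by simp [ρbar.finrank_eq])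
    have hb0 : b 0 = v := by simp [b]
    have hb1 : b 1 = ρbar.ρ g₀ v := by simp [b]
    let B := Algebra.TensorProduct.basis (AlgebraicClosure k) b
    have hB : B 1 = μ • B 0 := by
      simp only [B, Algebra.TensorProduct.basis_apply, hb0, hb1]
      exact h1
    have h3 := DFunLike.congr_fun (congrArg B.repr hB) 1
    simp at h3

/-- Step 5: entrywise lifts of the residual matrices, normalised at the first column of `g₀`. -/
theorem absirr_exists_lift (𝒪 : Type) [CommRing 𝒪] [IsLocalRing 𝒪]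
    (r : GQ → M2 (ResidueField 𝒪)) (g₀ : GQ) (h00 : r g₀ 0 0 = 0) (h10 : r g₀ 1 0 = 1) :
    ∃ C : GQ → M2 𝒪, (∀ σ i j, residue 𝒪 (C σ i j) = r σ i j) ∧ C g₀ 0 0 = 0 ∧ C g₀ 1 0 = 1 := by
  have hex : ∀ (σ : GQ) (i j : Fin 2), ∃ x : 𝒪, residue 𝒪 x = r σ i j ∧
      (σ = g₀ → i = 0 → j = 0 → x = 0) ∧ (σ = g₀ → i = 1 → j = 0 → x = 1) := by
    intro σ i j
    by_cases h : σ = g₀ ∧ j = 0
    · obtain ⟨rfl, rfl⟩ := h
      fin_cases i
      · exact ⟨0, by rw [map_zero]; exact h00.symm, fun _ _ _ => rfl,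
          fun _ h _ => absurd h (by decide)⟩
      · exact ⟨1, by rw [map_one]; exact h10.symm, fun _ h _ => absurd h (by decide),
          fun _ _ _ => rfl⟩
    · obtain ⟨x, hx⟩ := residue_surjective (r σ i j)
      exact ⟨x, hx, fun h1 _ h3 => absurd ⟨h1, h3⟩ h, fun h1 _ h3 => absurd ⟨h1, h3⟩ h⟩
  choose c hc hc0 hc1 using hex
  exact ⟨fun σ => Matrix.of (c σ), hc, hc0 g₀ 0 0 rfl rfl rfl, hc1 g₀ 1 0 rfl rfl rfl⟩

/-- An element whose residue is nonzero is a unit. -/
theorem absirr_isUnit_of_residue_ne_zero {𝒪 : Type} [CommRing 𝒪] [IsLocalRing 𝒪] (x : 𝒪)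
    (hx : residue 𝒪 x ≠ 0) : IsUnit x := by
  rw [← IsLocalRing.notMem_maximalIdeal, ← IsLocalRing.residue_eq_zero_iff]
  exact hx

theorem nonempty_resData (𝒪 : Type) [CommRing 𝒪] [IsLocalRing 𝒪]
    (ρbar : ResidualGaloisRep (ResidueField 𝒪)) (habs : ρbar.IsAbsolutelyIrreducible) :
    Nonempty (ResData 𝒪 ρbar) := by
  obtain ⟨g₀, hg₀⟩ := absirr_exists_not_scalar ρbar habs
  obtain ⟨v, hv⟩ := absirr_exists_cyclic ρbar (ρbar.ρ g₀) hg₀
  obtain ⟨g₁, hg₁⟩ := absirr_exists_not_commute ρbar habs g₀ v hv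
  let b : Module.Basis (Fin 2) (ResidueField 𝒪) ρbar.V :=
    basisOfLinearIndependentOfCardEqFinrank hv (by simp [ρbar.finrank_eq])
  have hb0 : b 0 = v := by simp [b]
  have hb1 : b 1 = ρbar.ρ g₀ v := by simp [b]
  have h00 : resMat ρbar b g₀ 0 0 = 0 := by
    rw [resMat_apply, LinearMap.toMatrix_apply, hb0, ← hb1]
    simp
  have h10 : resMat ρbar b g₀ 1 0 = 1 := by
    rw [resMat_apply, LinearMap.toMatrix_apply, hb0, ← hb1]
    simp
  have hne : resMat ρbar b g₀ * resMat ρbar b g₁ ≠ resMat ρbar b g₁ * resMat ρbar b g₀ := by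
    intro h
    apply hg₁
    apply (LinearMap.toMatrix b b).injective
    rw [LinearMap.toMatrix_mul, LinearMap.toMatrix_mul]
    exact h
  obtain ⟨i₀, j₀, hij⟩ : ∃ i₀ j₀ : Fin 2, (resMat ρbar b g₀ * resMat ρbar b g₁) i₀ j₀ ≠
      (resMat ρbar b g₁ * resMat ρbar b g₀) i₀ j₀ := by
    by_contra! hcon
    exact hne (Matrix.ext hcon)
  obtain ⟨C, hC, hC0, hC1⟩ := absirr_exists_lift 𝒪 (resMat ρbar b) g₀ h00 h10
  have hmap : ∀ σ, (residue 𝒪).mapMatrix (C σ) = resMat ρbar b σ :=
    fun σ => Matrix.ext (hC σ)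
  have hres : residue 𝒪 ((C g₀ * C g₁ - C g₁ * C g₀) i₀ j₀) =
      (resMat ρbar b g₀ * resMat ρbar b g₁ - resMat ρbar b g₁ * resMat ρbar b g₀) i₀ j₀ := by
    rw [← hmap, ← hmap, ← map_mul, ← map_mul, ← map_sub]
    rfl
  refine ⟨⟨b, C, g₀, g₁, i₀, j₀, hC, hC0, hC1, ?_⟩⟩
  apply absirr_isUnit_of_residue_ne_zero
  rw [hres, Matrix.sub_apply]
  exact fun h => hij (sub_eq_zero.mp h)

end Fermat.Agent.S53
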