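import Fermat.Agent.S53.Good

/-!
# S53: constructions of good ideals
-/

set_option autoImplicit false

open IsLocalRing GaloisRep MvPolynomial

namespace Fermat.Agent.S53

variable {𝒪 : Type} [CommRing 𝒪] [IsLocalRing 𝒪] {ρbar : ResidualGaloisRep (ResidueField 𝒪)}
  {D : ResData 𝒪 ρbar}
  {𝒟 : ∀ ⦃A : Type⦄ [CommRing A] [IsLocalRing A] [Algebra 𝒪 A], GaloisRepAdic A → Prop}

omit [IsLocalRing 𝒪] in
/-- Transport of the type condition along an equality of matrix representations. -/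
theorem gooda_type_congr {A : Type} [CommRing A] [IsLocalRing A] [Algebra 𝒪 A]
    {r r' : GQ →* M2 A} (hrr : r = r') (hc : MatCont r) (hc' : MatCont r')
    (h : 𝒟 (ofMat r hc)) : 𝒟 (ofMat r' hc') := by
  subst hrr
  exact h

variable (D) in
/-- There is an `𝒪`-algebra map from the residue field of `𝒪` to the residue ring of the
polynomial ring at the residual point. -/
theorem gooda_exists_kappa : Nonempty (ResidueField 𝒪 →ₐ[𝒪] PolyRing 𝒪 ⧸ maxId D) := by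
  have h : ∀ a : 𝒪, a ∈ maximalIdeal 𝒪 → algebraMap 𝒪 (PolyRing 𝒪 ⧸ maxId D) a = 0 := by
    intro a ha
    rw [algebraMap_quot, Ideal.Quotient.eq_zero_iff_mem, mem_maxId, resPt_C, residue_eq_zero_iff]
    exact ha
  exact ⟨{ toRingHom := Ideal.Quotient.lift (maximalIdeal 𝒪)
             (algebraMap 𝒪 (PolyRing 𝒪 ⧸ maxId D)) h
           commutes' := fun a => rfl }⟩

/-- The kernel of the evaluation map at a rigid strict lift of type `𝒟` over a test algebra of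
level `n` is a good ideal of level `n`. -/
theorem isGood_ker_evRep (h𝒟 : IsDeformationCondition 𝒪 𝒟) {A : Type} [CommRing A]
    [IsLocalRing A] [Algebra 𝒪 A] (hA : IsTestAlg 𝒪 A) {n : ℕ} (hn : maximalIdeal A ^ n = ⊥)
    {r : GQ →* M2 A} (hr : IsDef D 𝒟 r) :
    IsGood D 𝒟 n (RingHom.ker (evRep (𝒪 := 𝒪) r : PolyRing 𝒪 →+* A)) := by
  have := hA.isLocalHom
  have := hA.fin
  have hmap : (maxId D).map (evRep (𝒪 := 𝒪) r : PolyRing 𝒪 →+* A) ≤ maximalIdeal A := by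
    rw [Ideal.map_le_iff_le_comap]
    intro p hp
    exact (evRep_mem_maximalIdeal_iff D hr.strict p).mpr hp
  have h1 : maxId D ^ n ≤ RingHom.ker (evRep (𝒪 := 𝒪) r : PolyRing 𝒪 →+* A) := by
    intro p hp
    rw [RingHom.mem_ker]
    have h3 := Ideal.mem_map_of_mem (evRep (𝒪 := 𝒪) r : PolyRing 𝒪 →+* A) hp
    rw [Ideal.map_pow] at h3
    have h4 := Ideal.pow_right_mono hmap n h3
    rwa [hn, Ideal.mem_bot] at h4
  have h2 : RingHom.ker (evRep (𝒪 := 𝒪) r : PolyRing 𝒪 →+* A) ≤ maxId D := by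
    intro p hp
    rw [RingHom.mem_ker, RingHom.coe_coe] at hp
    rw [← evRep_mem_maximalIdeal_iff D hr.strict p, hp]
    exact Ideal.zero_mem _
  have hfin : Finite (PolyRing 𝒪 ⧸ RingHom.ker (evRep (𝒪 := 𝒪) r : PolyRing 𝒪 →+* A)) :=
    Finite.of_injective _ (RingHom.kerLift_injective (evRep (𝒪 := 𝒪) r : PolyRing 𝒪 →+* A))
  have hrel := relIdeal_le_ker_evRep D r hr.rigid
  refine ⟨h1, h2, hfin, finiteLevel_ker_evRep r hr.cont hn, hrel, ?_⟩
  intro _ hc
  let ι : (PolyRing 𝒪 ⧸ RingHom.ker (evRep (𝒪 := 𝒪) r : PolyRing 𝒪 →+* A)) →ₐ[𝒪] A :=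
    Ideal.Quotient.liftₐ _ (evRep (𝒪 := 𝒪) r) (fun a ha => ha)
  have hι : ∀ p : PolyRing 𝒪, ι (Ideal.Quotient.mk _ p) = evRep (𝒪 := 𝒪) r p := fun p => rfl
  have hinj : Function.Injective ι := by
    rw [injective_iff_map_eq_zero]
    intro x hx
    obtain ⟨p, rfl⟩ := Ideal.Quotient.mk_surjective x
    rw [hι] at hx
    rw [Ideal.Quotient.eq_zero_iff_mem, RingHom.mem_ker, RingHom.coe_coe]
    exact hx
  have hmapRep : mapRep (ι : _ →+* A) (tautRep D _ hrel) = r := by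
    ext σ i j
    rw [mapRep_apply_apply, tautRep_apply]
    exact (hι _).trans (evRep_X r σ i j)
  have hloc : IsLocalHom (ι : _ →+* A) :=
    isLocalHom_of_nilpotent _ n (maximalIdeal_quot_pow (maxId D) h1)
  have hdef : IsDef D 𝒟 (mapRep (ι : _ →+* A) (tautRep D _ hrel)) := by
    rw [hmapRep]; exact hr
  exact (IsDef.of_map_injective D h𝒟 (isTestAlg_quot D h1 h2) hA ι hloc hinj hc hdef).type

/-- Good ideals of level `n` are closed under intersection. -/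
theorem IsGood.inf (h𝒟 : IsDeformationCondition 𝒪 𝒟) {n : ℕ} {I J : Ideal (PolyRing 𝒪)}
    (hI : IsGood D 𝒟 n I) (hJ : IsGood D 𝒟 n J) : IsGood D 𝒟 n (I ⊓ J) := by
  have hK1 : maxId D ^ n ≤ I ⊓ J := le_inf hI.pow_le hJ.pow_le
  have hK2 : I ⊓ J ≤ maxId D := inf_le_left.trans hI.le
  have hS1 : maxId D ^ n ≤ I ⊔ J := hI.pow_le.trans le_sup_left
  have hS2 : I ⊔ J ≤ maxId D := sup_le hI.le hJ.le
  have := hI.isLocalRing
  have := hJ.isLocalRing
  have := hI.finite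
  have := hJ.finite
  have : IsLocalRing (PolyRing 𝒪 ⧸ (I ⊔ J)) := isLocalRing_quot (maxId D) hS1 hS2
  have : Finite (PolyRing 𝒪 ⧸ (I ⊔ J)) :=
    Finite.of_surjective _ (Ideal.Quotient.factor_surjective (le_sup_left : I ≤ I ⊔ J))
  have hinj : Function.Injective (fun x : PolyRing 𝒪 ⧸ (I ⊓ J) =>
      (Ideal.Quotient.factorₐ 𝒪 (inf_le_left : I ⊓ J ≤ I) x,
        Ideal.Quotient.factorₐ 𝒪 (inf_le_right : I ⊓ J ≤ J) x)) := by
    intro x y hxy
    obtain ⟨p, rfl⟩ := Ideal.Quotient.mk_surjective x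
    obtain ⟨q, rfl⟩ := Ideal.Quotient.mk_surjective y
    have h1 : Ideal.Quotient.mk I p = Ideal.Quotient.mk I q := congrArg Prod.fst hxy
    have h2 : Ideal.Quotient.mk J p = Ideal.Quotient.mk J q := congrArg Prod.snd hxy
    rw [Ideal.Quotient.eq] at h1 h2 ⊢
    exact ⟨h1, h2⟩
  have hfin : Finite (PolyRing 𝒪 ⧸ (I ⊓ J)) := Finite.of_injective _ hinj
  have hrel : relIdeal D ≤ I ⊓ J := le_inf hI.rel hJ.rel
  refine ⟨hK1, hK2, hfin, hI.finiteLevel.inf hJ.finiteLevel, hrel, ?_⟩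
  intro _ hc
  have hlocA : IsLocalHom (Ideal.Quotient.factorₐ 𝒪 (inf_le_left : I ⊓ J ≤ I) :
      (PolyRing 𝒪 ⧸ (I ⊓ J)) →+* (PolyRing 𝒪 ⧸ I)) :=
    isLocalHom_of_nilpotent _ n (maximalIdeal_quot_pow (maxId D) hK1)
  have hlocB : IsLocalHom (Ideal.Quotient.factorₐ 𝒪 (inf_le_right : I ⊓ J ≤ J) :
      (PolyRing 𝒪 ⧸ (I ⊓ J)) →+* (PolyRing 𝒪 ⧸ J)) :=
    isLocalHom_of_nilpotent _ n (maximalIdeal_quot_pow (maxId D) hK1)
  refine h𝒟.of_fibreProduct (A := PolyRing 𝒪 ⧸ I) (B := PolyRing 𝒪 ⧸ J)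
    (C := PolyRing 𝒪 ⧸ (I ⊔ J)) (P := PolyRing 𝒪 ⧸ (I ⊓ J))
    hI.isTestAlg.isArtinianTestAlgebra hJ.isTestAlg.isArtinianTestAlgebra
    (isTestAlg_quot D hS1 hS2).isArtinianTestAlgebra
    (isTestAlg_quot D hK1 hK2).isArtinianTestAlgebra
    (Ideal.Quotient.factorₐ 𝒪 (le_sup_left : I ≤ I ⊔ J))
    (Ideal.Quotient.factorₐ 𝒪 (le_sup_right : J ≤ I ⊔ J))
    (Ideal.Quotient.factorₐ 𝒪 (inf_le_left : I ⊓ J ≤ I))
    (Ideal.Quotient.factorₐ 𝒪 (inf_le_right : I ⊓ J ≤ J)) hlocA hlocB ?_ hinj ?_ ?_ ?_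
  · exact quot_algHom_ext fun σ i j => rfl
  · intro a b hab
    obtain ⟨p, rfl⟩ := Ideal.Quotient.mk_surjective a
    obtain ⟨q, rfl⟩ := Ideal.Quotient.mk_surjective b
    have hpq : Ideal.Quotient.mk (I ⊔ J) p = Ideal.Quotient.mk (I ⊔ J) q := hab
    rw [Ideal.Quotient.eq] at hpq
    obtain ⟨i, hi, j, hj, hij⟩ := Submodule.mem_sup.mp hpq
    refine ⟨Ideal.Quotient.mk (I ⊓ J) (p - i), ?_, ?_⟩
    · show Ideal.Quotient.mk I (p - i) = Ideal.Quotient.mk I p
      rw [Ideal.Quotient.eq]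
      have h3 : p - i - p = -i := by ring
      rw [h3]
      exact I.neg_mem hi
    · show Ideal.Quotient.mk J (p - i) = Ideal.Quotient.mk J q
      rw [Ideal.Quotient.eq]
      have h3 : p - i - q = j := by rw [sub_right_comm, ← hij]; ring
      rw [h3]
      exact hj
  · have hcA := matCont_mapRep _ hlocA hc
    refine h𝒟.of_isEquiv hI.isTestAlg.isArtinianTestAlgebra
      (isEquiv_symm (ofMat_baseChangeAlong_isEquiv _ hlocA _ hc hcA)) ?_
    exact gooda_type_congr (mapRep_factor_tautRep D hrel inf_le_left).symm hI.isDef.cont hcA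
      hI.isDef.type
  · have hcB := matCont_mapRep _ hlocB hc
    refine h𝒟.of_isEquiv hJ.isTestAlg.isArtinianTestAlgebra
      (isEquiv_symm (ofMat_baseChangeAlong_isEquiv _ hlocB _ hc hcB)) ?_
    exact gooda_type_congr (mapRep_factor_tautRep D hrel inf_le_right).symm hJ.isDef.cont hcB
      hJ.isDef.type

/-- A proper ideal above a good ideal is good (of any level it has). -/
theorem IsGood.of_le (h𝒟 : IsDeformationCondition 𝒪 𝒟) {m n : ℕ} {I J : Ideal (PolyRing 𝒪)}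
    (hI : IsGood D 𝒟 m I) (hIJ : I ≤ J) (hJ : J ≤ maxId D) (hn : maxId D ^ n ≤ J) :
    IsGood D 𝒟 n J := by
  have := hI.isLocalRing
  have := hI.finite
  have hfin : Finite (PolyRing 𝒪 ⧸ J) :=
    Finite.of_surjective _ (Ideal.Quotient.factor_surjective hIJ)
  refine ⟨hn, hJ, hfin, hI.finiteLevel.mono hIJ, hI.rel.trans hIJ, ?_⟩
  intro _ hc
  have hloc : IsLocalHom (Ideal.Quotient.factorₐ 𝒪 hIJ : (PolyRing 𝒪 ⧸ I) →+* (PolyRing 𝒪 ⧸ J)) :=
    isLocalHom_of_nilpotent _ m hI.maximalIdeal_pow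
  have hdef := IsDef.map D h𝒟 hI.isTestAlg (isTestAlg_quot D hn hJ)
    (Ideal.Quotient.factorₐ 𝒪 hIJ) hloc hI.isDef
  exact gooda_type_congr (mapRep_factor_tautRep D hI.rel hIJ) hdef.cont hc hdef.type

/-- The maximal ideal at the residual point is good of level `1`. -/
theorem isGood_maxId (h𝒟 : IsDeformationCondition 𝒪 𝒟) [Finite (ResidueField 𝒪)]
    (hbar : 𝒟 (GaloisRepAdic.ofResidualGaloisRep ρbar)) : IsGood D 𝒟 1 (maxId D) := by
  have h1 : maxId D ^ 1 ≤ maxId D := by rw [pow_one]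
  have h2 : maxId D ≤ maxId D := le_refl _
  have hfin : Finite (PolyRing 𝒪 ⧸ maxId D) :=
    Finite.of_injective _
      (RingHom.kerLift_injective (resPt D : PolyRing 𝒪 →+* ResidueField 𝒪))
  have hlevel : FiniteLevel (maxId D) := by
    obtain ⟨L, hL, hσ⟩ := ρbar.factorsThroughFiniteLevel
    refine ⟨L, hL, fun σ hσL i j => ?_⟩
    rw [mem_maxId, map_sub, resPt_X, resPt_C, resMat_apply, hσ σ hσL, LinearMap.toMatrix_one,
      Matrix.one_apply]
    split_ifs <;> simp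
  have hrel : relIdeal D ≤ maxId D := by
    rw [relIdeal, Ideal.span_le]
    rintro p (⟨i, j, rfl⟩ | ⟨σ, τ, i, j, rfl⟩ | rfl | rfl | rfl)
    · rw [SetLike.mem_coe, mem_maxId, map_sub, resPt_X, resPt_C, map_one, Matrix.one_apply]
      split_ifs <;> simp
    · rw [SetLike.mem_coe, mem_maxId, map_sub, resPt_X, map_mul, Matrix.mul_apply, map_sum,
        sub_eq_zero]
      exact Finset.sum_congr rfl fun l _ => by rw [map_mul, resPt_X, resPt_X]
    · rw [SetLike.mem_coe, mem_maxId, resPt_X, ← D.hc, D.hc00, map_zero]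
    · rw [SetLike.mem_coe, mem_maxId, map_sub, resPt_X, ← D.hc, D.hc10, map_one, map_one,
        sub_self]
    · exact X_sub_C_mem_maxId D _ _ _
  refine ⟨h1, h2, hfin, hlevel, hrel, ?_⟩
  intro _ hc
  obtain ⟨κ⟩ := gooda_exists_kappa D
  have hκ : IsLocalHom (κ : ResidueField 𝒪 →+* PolyRing 𝒪 ⧸ maxId D) :=
    isLocalHom_of_nilpotent _ 1 (by rw [pow_one]; exact maximalIdeal_eq_bot)
  have hk : IsArtinianTestAlgebra 𝒪 (ResidueField 𝒪) :=
    ⟨(inferInstance : IsLocalHom (residue 𝒪)),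
      (residue_surjective (R := ResidueField 𝒪)).comp (residue_surjective (R := 𝒪)),
      inferInstance⟩
  have hB := (isTestAlg_quot D h1 h2).isArtinianTestAlgebra
  have hcres := matCont_resMat ρbar D.b
  have hcmap := matCont_mapRep _ hκ hcres
  have e1 := ofResidualGaloisRep_isEquiv_ofMat ρbar D.b hcres
  have e2 := isEquiv_baseChangeAlong _ hκ e1
  have e3 := ofMat_baseChangeAlong_isEquiv _ hκ (resMat ρbar D.b) hcres hcmap
  have hT := h𝒟.of_isEquiv hB (isEquiv_trans e2 e3) (h𝒟.baseChangeAlong hk hB κ hκ hbar)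
  refine gooda_type_congr ?_ hcmap hc hT
  ext σ i j
  rw [mapRep_apply_apply, tautRep_apply, ← D.hc σ i j, ← ResidueField.algebraMap_eq,
    AlgHom.coe_toRingHom, AlgHom.commutes, algebraMap_quot, eq_comm, Ideal.Quotient.eq]
  exact X_sub_C_mem_maxId D σ i j

end Fermat.Agent.S53
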