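import Fermat.Agent.S53.Core

/-!
# S53: facts about power series rings `MvPowerSeries σ 𝒪` over a local ring, and a
Nakayama-type surjectivity criterion
-/

set_option autoImplicit false

open IsLocalRing

namespace Fermat.Agent.S53

section General

variable {𝒪 σ : Type} [CommRing 𝒪] [Finite σ]

/-- A power series all of whose coefficients of total degree `< n` vanish lies in the `n`-th
power of the ideal generated by the variables. -/
theorem ps_mem_span_X_pow (n : ℕ) (s : MvPowerSeries σ 𝒪)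
    (hs : ∀ x : σ →₀ ℕ, x.degree < n → MvPowerSeries.coeff x s = 0) :
    s ∈ Ideal.span (Set.range (MvPowerSeries.X : σ → MvPowerSeries σ 𝒪)) ^ n := by
  set e := (MvPowerSeries.toAdicCompletionAlgEquiv σ 𝒪).toRingEquiv with he
  have h1 : Ideal.map e (Ideal.span (Set.range (MvPowerSeries.X : σ → MvPowerSeries σ 𝒪))) =
      (MvPolynomial.idealOfVars σ 𝒪).map (algebraMap _ _) := by
    simp_rw [Ideal.map_span, ← Set.range_comp]
    congr 2; ext1
    simp [e, AdicCompletion.algebraMap_apply, ← MvPolynomial.coe_X,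
      MvPowerSeries.toAdicCompletion_coe]
  have h2 : MvPowerSeries.truncTotal n s = 0 := by
    ext x
    by_cases hx : x.degree < n
    · rw [MvPowerSeries.coeff_truncTotal _ hx, hs x hx]; simp
    · rw [MvPowerSeries.coeff_truncTotal_eq_zero _ (not_lt.mp hx)]; simp
  have h3 : e s ∈
      (AdicCompletion.eval (MvPolynomial.idealOfVars σ 𝒪) (MvPolynomial σ 𝒪) n).ker := by
    rw [LinearMap.mem_ker, AdicCompletion.eval_apply]
    show (MvPowerSeries.toAdicCompletion σ 𝒪 s).val n = 0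
    rw [MvPowerSeries.toAdicCompletion_apply_eq_mk_truncTotal, h2]; simp
  rw [← AdicCompletion.pow_smul_top_eq_ker_eval (MvPolynomial.idealOfVars_fg σ 𝒪),
    Ideal.smul_top_eq_map] at h3
  have h4 : e s ∈ Ideal.map e (Ideal.span (Set.range MvPowerSeries.X) ^ n) := by
    rw [Ideal.map_pow, h1, ← Ideal.map_pow]
    exact h3
  obtain ⟨t, ht, hts⟩ := (Ideal.mem_map_of_equiv e _).mp h4
  rwa [← e.injective hts]

/-- A power series differs from its truncation at total degree `n` by an element of the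
`n`-th power of the ideal generated by the variables. -/
theorem ps_sub_truncTotal_mem (n : ℕ) (s : MvPowerSeries σ 𝒪) :
    s - ((MvPowerSeries.truncTotal n s : MvPolynomial σ 𝒪) : MvPowerSeries σ 𝒪) ∈
      Ideal.span (Set.range (MvPowerSeries.X : σ → MvPowerSeries σ 𝒪)) ^ n := by
  apply ps_mem_span_X_pow
  intro x hx
  rw [map_sub, MvPolynomial.coeff_coe, MvPowerSeries.coeff_truncTotal _ hx, sub_self]

omit [Finite σ] in
/-- An algebra map sending the variables into a nilpotent ideal kills a high power of the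
ideal generated by the variables. -/
theorem ps_algHom_eq_zero_of_mem_pow {A : Type} [CommRing A] [Algebra 𝒪 A]
    (f : MvPowerSeries σ 𝒪 →ₐ[𝒪] A) (𝔫 : Ideal A) (n : ℕ) (h𝔫 : 𝔫 ^ n = ⊥)
    (hf : ∀ i, f (MvPowerSeries.X i) ∈ 𝔫) (s : MvPowerSeries σ 𝒪)
    (hs : s ∈ Ideal.span (Set.range (MvPowerSeries.X : σ → MvPowerSeries σ 𝒪)) ^ n) :
    f s = 0 := by
  have h1 : Ideal.map f
      (Ideal.span (Set.range (MvPowerSeries.X : σ → MvPowerSeries σ 𝒪))) ≤ 𝔫 := by
    rw [Ideal.map_span, Ideal.span_le]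
    rintro _ ⟨_, ⟨i, rfl⟩, rfl⟩
    exact hf i
  have h2 : f s ∈ 𝔫 ^ n := by
    refine Ideal.pow_right_mono h1 n ?_
    rw [← Ideal.map_pow]
    exact Ideal.mem_map_of_mem _ hs
  rw [h𝔫] at h2
  simpa using h2

/-- Existence of `𝒪`-algebra maps out of a power series ring with prescribed nilpotent values
on the variables. -/
theorem exists_algHom_X {A : Type} [CommRing A] [Algebra 𝒪 A] (a : σ → A) (𝔫 : Ideal A) (n : ℕ)
    (h𝔫 : 𝔫 ^ n = ⊥) (ha : ∀ i, a i ∈ 𝔫) :
    ∃ f : MvPowerSeries σ 𝒪 →ₐ[𝒪] A, ∀ i, f (MvPowerSeries.X i) = a i := by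
  have hker : ∀ p ∈ MvPolynomial.idealOfVars σ 𝒪 ^ n,
      (MvPolynomial.aeval a : MvPolynomial σ 𝒪 →ₐ[𝒪] A) p = 0 := by
    intro p hp
    have h1 : Ideal.map (MvPolynomial.aeval a : MvPolynomial σ 𝒪 →ₐ[𝒪] A)
        (MvPolynomial.idealOfVars σ 𝒪) ≤ 𝔫 := by
      rw [Ideal.map_span, Ideal.span_le]
      rintro _ ⟨_, ⟨i, rfl⟩, rfl⟩
      simpa using ha i
    have h2 : (MvPolynomial.aeval a : MvPolynomial σ 𝒪 →ₐ[𝒪] A) p ∈ 𝔫 ^ n := by
      refine Ideal.pow_right_mono h1 n ?_
      rw [← Ideal.map_pow]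
      exact Ideal.mem_map_of_mem _ hp
    rw [h𝔫] at h2
    simpa using h2
  let q : (MvPolynomial σ 𝒪 ⧸ MvPolynomial.idealOfVars σ 𝒪 ^ n) →ₐ[𝒪] A :=
    Ideal.Quotient.liftₐ (MvPolynomial.idealOfVars σ 𝒪 ^ n) (MvPolynomial.aeval a) hker
  refine ⟨q.comp ((MvPowerSeries.truncTotalAlgHom σ 𝒪 n).restrictScalars 𝒪), fun i => ?_⟩
  have h3 : (MvPowerSeries.X i : MvPowerSeries σ 𝒪) =
      algebraMap (MvPolynomial σ 𝒪) (MvPowerSeries σ 𝒪) (MvPolynomial.X i) := by
    rw [MvPowerSeries.algebraMap_apply']; simp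
  simp only [AlgHom.comp_apply, AlgHom.restrictScalars_apply]
  rw [h3, AlgHom.commutes, Ideal.Quotient.algebraMap_eq]
  show Ideal.Quotient.lift (MvPolynomial.idealOfVars σ 𝒪 ^ n)
    (MvPolynomial.aeval a : MvPolynomial σ 𝒪 →ₐ[𝒪] A).toRingHom hker
    (Ideal.Quotient.mk (MvPolynomial.idealOfVars σ 𝒪 ^ n) (MvPolynomial.X i)) = a i
  rw [Ideal.Quotient.lift_mk]
  simp

/-- Two `𝒪`-algebra maps out of a power series ring that agree on the variables, with values
in a nilpotent ideal, are equal. -/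
theorem algHom_ext_of_X {A : Type} [CommRing A] [Algebra 𝒪 A]
    (f g : MvPowerSeries σ 𝒪 →ₐ[𝒪] A) (𝔫 : Ideal A) (n : ℕ) (h𝔫 : 𝔫 ^ n = ⊥)
    (hf : ∀ i, f (MvPowerSeries.X i) ∈ 𝔫)
    (hfg : ∀ i, f (MvPowerSeries.X i) = g (MvPowerSeries.X i)) : f = g := by
  have hg : ∀ i, g (MvPowerSeries.X i) ∈ 𝔫 := fun i => hfg i ▸ hf i
  have hpoly : f.comp (MvPolynomial.coeToMvPowerSeries.algHom 𝒪) =
      g.comp (MvPolynomial.coeToMvPowerSeries.algHom 𝒪) := by
    apply MvPolynomial.algHom_ext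
    intro i
    simp [hfg i]
  refine AlgHom.ext fun s => ?_
  have ht : f ((MvPowerSeries.truncTotal n s : MvPolynomial σ 𝒪) : MvPowerSeries σ 𝒪) =
      g ((MvPowerSeries.truncTotal n s : MvPolynomial σ 𝒪) : MvPowerSeries σ 𝒪) := by
    have := DFunLike.congr_fun hpoly (MvPowerSeries.truncTotal n s)
    simpa using this
  have h0 := ps_sub_truncTotal_mem n s
  have hf0 := ps_algHom_eq_zero_of_mem_pow f 𝔫 n h𝔫 hf _ h0
  have hg0 := ps_algHom_eq_zero_of_mem_pow g 𝔫 n h𝔫 hg _ h0
  rw [map_sub, sub_eq_zero] at hf0 hg0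
  rw [hf0, hg0, ht]

/-- A power series with zero constant coefficient lies in the ideal generated by the variables. -/
theorem mem_span_X_of_constantCoeff_eq_zero (s : MvPowerSeries σ 𝒪)
    (hs : MvPowerSeries.constantCoeff s = 0) :
    s ∈ Ideal.span (Set.range (MvPowerSeries.X : σ → MvPowerSeries σ 𝒪)) := by
  have h := ps_mem_span_X_pow 1 s (fun x hx => by
    have hx0 : x = 0 := by
      rw [← Finsupp.degree_eq_zero_iff]
      omega
    subst hx0
    rwa [MvPowerSeries.coeff_zero_eq_constantCoeff_apply])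
  simpa using h

end General

section Local

variable {𝒪 σ : Type} [CommRing 𝒪] [IsLocalRing 𝒪] [Finite σ]

omit [Finite σ] in
/-- Membership in the maximal ideal of a power series ring over a local ring is detected on the
constant coefficient. -/
theorem ps_mem_maximalIdeal_iff (s : MvPowerSeries σ 𝒪) :
    s ∈ maximalIdeal (MvPowerSeries σ 𝒪) ↔ MvPowerSeries.constantCoeff s ∈ maximalIdeal 𝒪 := by
  rw [mem_maximalIdeal, mem_maximalIdeal, mem_nonunits_iff, mem_nonunits_iff,
    MvPowerSeries.isUnit_iff_constantCoeff]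

theorem maximalIdeal_mvPowerSeries_eq (ϖ : 𝒪) (hϖ : maximalIdeal 𝒪 = Ideal.span {ϖ}) :
    maximalIdeal (MvPowerSeries σ 𝒪) =
      Ideal.span (Set.range (MvPowerSeries.X : σ → MvPowerSeries σ 𝒪)) ⊔
        Ideal.span {(MvPowerSeries.C ϖ : MvPowerSeries σ 𝒪)} := by
  apply le_antisymm
  · intro s hs
    rw [ps_mem_maximalIdeal_iff, hϖ, Ideal.mem_span_singleton'] at hs
    obtain ⟨a, ha⟩ := hs
    have h1 : s - MvPowerSeries.C (MvPowerSeries.constantCoeff s) ∈
        Ideal.span (Set.range (MvPowerSeries.X : σ → MvPowerSeries σ 𝒪)) :=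
      mem_span_X_of_constantCoeff_eq_zero _ (by simp)
    have h2 : (MvPowerSeries.C (MvPowerSeries.constantCoeff s) : MvPowerSeries σ 𝒪) ∈
        Ideal.span {(MvPowerSeries.C ϖ : MvPowerSeries σ 𝒪)} := by
      rw [← ha, map_mul]
      exact Ideal.mul_mem_left _ _ (Ideal.mem_span_singleton_self _)
    have h3 : s = (s - MvPowerSeries.C (MvPowerSeries.constantCoeff s)) +
        MvPowerSeries.C (MvPowerSeries.constantCoeff s) := by ring
    rw [h3]
    exact Ideal.add_mem _ (Ideal.mem_sup_left h1) (Ideal.mem_sup_right h2)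
  · rw [sup_le_iff, Ideal.span_le, Ideal.span_le]
    constructor
    · rintro _ ⟨i, rfl⟩
      rw [SetLike.mem_coe, ps_mem_maximalIdeal_iff]
      simp
    · rintro _ rfl
      rw [SetLike.mem_coe, ps_mem_maximalIdeal_iff, MvPowerSeries.constantCoeff_C, hϖ]
      exact Ideal.mem_span_singleton_self _

set_option linter.unusedSectionVars false in
theorem isLocalHom_algebraMap_mvPowerSeries :
    IsLocalHom (algebraMap 𝒪 (MvPowerSeries σ 𝒪)) := by
  constructor
  intro x hx
  rw [MvPowerSeries.isUnit_iff_constantCoeff, MvPowerSeries.algebraMap_apply] at hx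
  simpa using hx

set_option linter.unusedSectionVars false in
theorem residue_algebraMap_mvPowerSeries_surjective :
    Function.Surjective (residue (MvPowerSeries σ 𝒪) ∘ algebraMap 𝒪 (MvPowerSeries σ 𝒪)) := by
  intro y
  obtain ⟨s, rfl⟩ := residue_surjective y
  refine ⟨MvPowerSeries.constantCoeff s, ?_⟩
  rw [Function.comp_apply, ← sub_eq_zero, ← map_sub, residue_eq_zero_iff,
    ps_mem_maximalIdeal_iff, MvPowerSeries.algebraMap_apply]
  simp

theorem finite_mvPowerSeries_quotient_maximalIdeal_pow [IsNoetherianRing 𝒪]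
    [Finite (ResidueField 𝒪)] (n : ℕ) :
    Finite (MvPowerSeries σ 𝒪 ⧸ maximalIdeal (MvPowerSeries σ 𝒪) ^ n) := by
  have : Finite (ResidueField (MvPowerSeries σ 𝒪)) := by
    have := isLocalHom_algebraMap_mvPowerSeries (𝒪 := 𝒪) (σ := σ)
    refine Finite.of_surjective (ResidueField.map (algebraMap 𝒪 (MvPowerSeries σ 𝒪))) ?_
    intro y
    obtain ⟨x, hx⟩ := residue_algebraMap_mvPowerSeries_surjective y
    exact ⟨residue 𝒪 x, by rw [ResidueField.map_residue]; exact hx⟩
  exact IsLocalRing.finite_quotient_iff.mpr ⟨n, le_rfl⟩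

end Local

/-- Nakayama-type criterion: a subalgebra of a local ring with nilpotent maximal ideal which
surjects onto the residue field and onto the cotangent space is everything. -/
theorem subalgebra_eq_top_of_nilpotent {𝒪 A : Type} [CommRing 𝒪] [CommRing A] [Algebra 𝒪 A]
    [IsLocalRing A] (B : Subalgebra 𝒪 A) (n : ℕ) (hnil : maximalIdeal A ^ n = ⊥)
    (hres : ∀ x : A, ∃ b ∈ B, x - b ∈ maximalIdeal A)
    (hcot : ∀ x ∈ maximalIdeal A, ∃ b ∈ B, b ∈ maximalIdeal A ∧ x - b ∈ maximalIdeal A ^ 2) :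
    B = ⊤ := by
  have step : ∀ j : ℕ, ∀ x ∈ maximalIdeal A ^ j,
      ∃ b ∈ B, x - b ∈ maximalIdeal A ^ (j + 1) := by
    intro j
    induction j with
    | zero =>
      intro x _
      obtain ⟨b, hb, hxb⟩ := hres x
      exact ⟨b, hb, by simpa using hxb⟩
    | succ j ih =>
      intro x hx
      rw [pow_succ'] at hx
      refine Submodule.mul_induction_on hx ?_ ?_
      · intro u hu v hv
        obtain ⟨b₁, hb₁, hb₁m, hu'⟩ := hcot u hu
        obtain ⟨b₂, hb₂, hv'⟩ := ih v hv
        refine ⟨b₁ * b₂, B.mul_mem hb₁ hb₂, ?_⟩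
        have h1 : u * v - b₁ * b₂ = b₁ * (v - b₂) + (u - b₁) * v := by ring
        rw [h1]
        refine Ideal.add_mem _ ?_ ?_
        · rw [pow_succ' _ (j + 1)]
          exact Ideal.mul_mem_mul hb₁m hv'
        · have h2 : j + 1 + 1 = 2 + j := by ring
          rw [h2, pow_add]
          exact Ideal.mul_mem_mul hu' hv
      · rintro x y ⟨b, hb, hxb⟩ ⟨b', hb', hyb'⟩
        refine ⟨b + b', B.add_mem hb hb', ?_⟩
        have h1 : x + y - (b + b') = (x - b) + (y - b') := by ring
        rw [h1]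
        exact Ideal.add_mem _ hxb hyb'
  have down : ∀ k j : ℕ, j + k = n → ∀ x ∈ maximalIdeal A ^ j, x ∈ B := by
    intro k
    induction k with
    | zero =>
      intro j hj x hx
      rw [add_zero] at hj
      rw [hj, hnil, Ideal.mem_bot] at hx
      rw [hx]
      exact B.zero_mem
    | succ k ih =>
      intro j hj x hx
      obtain ⟨b, hb, hxb⟩ := step j x hx
      have h1 := ih (j + 1) (by omega) (x - b) hxb
      have h2 : x = b + (x - b) := by ring
      rw [h2]
      exact B.add_mem hb h1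
  rw [eq_top_iff]
  intro x _
  exact down n 0 (by simp) x (by simp)

end Fermat.Agent.S53
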