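import Fermat.Agent.S53.Core

set_option autoImplicit false

open IsLocalRing GaloisRep

namespace Fermat.Agent.S53

theorem tangent_bound_aux {T : Type 1} (P : T → Prop) (E : T → T → Prop)
    (S : Setoid {ρ : T // P ρ}) (hS : ∀ a b, S.r a b ↔ E a.1 b.1) (hfin : Finite (Quotient S)) :
    ∃ N₀ : ℕ, ∀ (ι : Type) [Finite ι] (F : ι → T), (∀ i, P (F i)) →
      (∀ i j, E (F i) (F j) → i = j) → Nat.card ι ≤ N₀ := by
  refine ⟨Nat.card (Quotient S), fun ι _ F hF hinj => ?_⟩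
  refine Nat.card_le_card_of_injective (fun i => (Quotient.mk S ⟨F i, hF i⟩ : Quotient S)) ?_
  intro i j hij
  exact hinj i j ((hS _ _).mp (Quotient.exact hij))

/-- `N₀` bounds the number of pairwise inequivalent deformations of type `𝒟` of `ρbar` to the
dual numbers. -/
def TangentBound (𝒪 : Type) [CommRing 𝒪] [IsLocalRing 𝒪]
    (ρbar : ResidualGaloisRep (ResidueField 𝒪))
    (𝒟 : ∀ ⦃A : Type⦄ [CommRing A] [IsLocalRing A] [Algebra 𝒪 A], GaloisRepAdic A → Prop)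
    (N₀ : ℕ) : Prop :=
  ∀ (ι : Type) [Finite ι] (F : ι → GaloisRepAdic (DualNumber (ResidueField 𝒪))),
    (∀ i, @𝒟 (DualNumber (ResidueField 𝒪)) _ _ (dualAlgebra 𝒪) (F i) ∧
      (F i).residual.IsEquiv (ρbar.baseChangeAlong
        ((residue (DualNumber (ResidueField 𝒪))).comp
          (algebraMap (ResidueField 𝒪) (DualNumber (ResidueField 𝒪)))))) →
    (∀ i j, (F i).IsEquiv (F j) → i = j) → Nat.card ι ≤ N₀

theorem tangent_bound (𝒪 : Type) [CommRing 𝒪] [IsLocalRing 𝒪]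
    (ρbar : ResidualGaloisRep (ResidueField 𝒪))
    (𝒟 : ∀ ⦃A : Type⦄ [CommRing A] [IsLocalRing A] [Algebra 𝒪 A], GaloisRepAdic A → Prop)
    (hfin : GaloisRep.TangentFinite 𝒪 ρbar 𝒟) : ∃ N₀ : ℕ, TangentBound 𝒪 ρbar 𝒟 N₀ := by
  unfold GaloisRep.TangentFinite at hfin
  exact tangent_bound_aux _ _ _ (fun _ _ => Iff.rfl) hfin

end Fermat.Agent.S53
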