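import Fermat.Agent.S53.Core
import Fermat.Agent.S53.PowerSeries

/-!
# S53: a finite local `𝒪`-algebra with few maps to the dual numbers is a quotient of a power
series ring in boundedly many variables
-/

set_option autoImplicit false

open IsLocalRing

namespace Fermat.Agent.S53

/-- Nilpotency of the maximal ideal of a finite local ring. -/
theorem tsurj_exists_pow_eq_bot (A : Type) [CommRing A] [IsLocalRing A] [Finite A] :
    ∃ n : ℕ, maximalIdeal A ^ n = ⊥ := by
  have : IsArtinianRing A := isArtinian_of_finite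
  have h := IsArtinianRing.isNilpotent_jacobson_bot (R := A)
  rw [IsLocalRing.jacobson_eq_maximalIdeal _ bot_ne_top] at h
  obtain ⟨n, hn⟩ := h
  exact ⟨n, hn⟩

theorem tsurj_exists_sub_mem {𝒪 A : Type} [CommRing 𝒪] [IsLocalRing 𝒪] [CommRing A] [IsLocalRing A]
    [Algebra 𝒪 A] (hres : Function.Surjective (residue A ∘ algebraMap 𝒪 A)) (x : A) :
    ∃ c : 𝒪, x - algebraMap 𝒪 A c ∈ maximalIdeal A := by
  obtain ⟨c, hc⟩ := hres (residue A x)
  refine ⟨c, ?_⟩
  rw [← residue_eq_zero_iff, map_sub, sub_eq_zero]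
  exact hc.symm

/-- The cotangent criterion from a spanning set. -/
theorem tsurj_hcot {𝒪 A : Type} [CommRing 𝒪] [IsLocalRing 𝒪] [CommRing A] [IsLocalRing A]
    [Algebra 𝒪 A] (hres : Function.Surjective (residue A ∘ algebraMap 𝒪 A))
    (B : Subalgebra 𝒪 A) (s : Set A) (hsB : ∀ x ∈ s, x ∈ B) (hsm : ∀ x ∈ s, x ∈ maximalIdeal A)
    (hs : maximalIdeal A ≤ Ideal.span s ⊔ maximalIdeal A ^ 2) :
    ∀ x ∈ maximalIdeal A, ∃ b ∈ B, b ∈ maximalIdeal A ∧ x - b ∈ maximalIdeal A ^ 2 := by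
  have key : ∀ u ∈ Ideal.span s, ∃ b ∈ B, b ∈ maximalIdeal A ∧ u - b ∈ maximalIdeal A ^ 2 := by
    intro u hu
    induction hu using Submodule.span_induction with
    | mem u hu => exact ⟨u, hsB u hu, hsm u hu, by simp⟩
    | zero => exact ⟨0, zero_mem _, zero_mem _, by simp⟩
    | add u v _ _ hu hv =>
      obtain ⟨b, hb, hbm, hub⟩ := hu
      obtain ⟨b', hb', hbm', hub'⟩ := hv
      refine ⟨b + b', add_mem hb hb', add_mem hbm hbm', ?_⟩
      have : u + v - (b + b') = (u - b) + (v - b') := by ring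
      rw [this]
      exact add_mem hub hub'
    | smul t u _ hu =>
      obtain ⟨b, hb, hbm, hub⟩ := hu
      obtain ⟨c, hc⟩ := tsurj_exists_sub_mem hres t
      refine ⟨algebraMap 𝒪 A c * b, mul_mem (Subalgebra.algebraMap_mem B c) hb,
        Ideal.mul_mem_left _ _ hbm, ?_⟩
      have : t • u - algebraMap 𝒪 A c * b = t * (u - b) + (t - algebraMap 𝒪 A c) * b := by
        rw [smul_eq_mul]; ring
      rw [this]
      refine add_mem (Ideal.mul_mem_left _ _ hub) ?_
      rw [pow_two]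
      exact Ideal.mul_mem_mul hc hbm
  intro x hx
  obtain ⟨u, hu, z, hz, rfl⟩ := Submodule.mem_sup.1 (hs hx)
  obtain ⟨b, hb, hbm, hub⟩ := key u hu
  refine ⟨b, hb, hbm, ?_⟩
  have : u + z - b = (u - b) + z := by ring
  rw [this]
  exact add_mem hub hz

/-- The residue fields of `𝒪` and `A` are identified. -/
theorem tsurj_map_bijective {𝒪 A : Type} [CommRing 𝒪] [IsLocalRing 𝒪] [CommRing A] [IsLocalRing A]
    [Algebra 𝒪 A] [IsLocalHom (algebraMap 𝒪 A)]
    (hres : Function.Surjective (residue A ∘ algebraMap 𝒪 A)) :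
    Function.Bijective (ResidueField.map (algebraMap 𝒪 A)) := by
  refine ⟨(ResidueField.map (algebraMap 𝒪 A)).injective, fun y => ?_⟩
  obtain ⟨c, hc⟩ := hres y
  exact ⟨residue 𝒪 c, hc⟩

/-- A linear functional on the maximal ideal which kills the image of the maximal ideal of `𝒪`
kills every element of the form `algebraMap c`. -/
theorem tsurj_ell_algebraMap {𝒪 A : Type} [CommRing 𝒪] [IsLocalRing 𝒪] [CommRing A] [IsLocalRing A]
    [Algebra 𝒪 A] [IsLocalHom (algebraMap 𝒪 A)]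
    (ϖ : 𝒪) (hϖ : maximalIdeal 𝒪 = Ideal.span {ϖ})
    (ℓ : maximalIdeal A →ₗ[A] ResidueField A)
    (hℓ : ∀ h : algebraMap 𝒪 A ϖ ∈ maximalIdeal A, ℓ ⟨algebraMap 𝒪 A ϖ, h⟩ = 0)
    (c : 𝒪) (h : algebraMap 𝒪 A c ∈ maximalIdeal A) : ℓ ⟨algebraMap 𝒪 A c, h⟩ = 0 := by
  have hc : c ∈ maximalIdeal 𝒪 := by
    by_contra hc
    have hu : IsUnit c := by
      by_contra hu
      exact hc ((mem_maximalIdeal c).2 hu)
    exact (mem_maximalIdeal _).1 h (hu.map (algebraMap 𝒪 A))
  rw [hϖ, Ideal.mem_span_singleton'] at hc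
  obtain ⟨t, rfl⟩ := hc
  have hϖm : algebraMap 𝒪 A ϖ ∈ maximalIdeal A :=
    map_nonunit (algebraMap 𝒪 A) ϖ (hϖ ▸ Ideal.subset_span rfl)
  have : (⟨algebraMap 𝒪 A (t * ϖ), h⟩ : maximalIdeal A)
      = algebraMap 𝒪 A t • ⟨algebraMap 𝒪 A ϖ, hϖm⟩ := by
    apply Subtype.ext
    exact map_mul _ _ _
  rw [this, map_smul, hℓ hϖm, smul_zero]


theorem tsurj_exists_algHom {𝒪 A : Type} [CommRing 𝒪] [IsLocalRing 𝒪] [CommRing A] [IsLocalRing A]
    [Algebra 𝒪 A] [IsLocalHom (algebraMap 𝒪 A)]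
    (ϖ : 𝒪) (hϖ : maximalIdeal 𝒪 = Ideal.span {ϖ})
    (hres : Function.Surjective (residue A ∘ algebraMap 𝒪 A))
    (ℓ : maximalIdeal A →ₗ[A] ResidueField A)
    (hℓ : ∀ h : algebraMap 𝒪 A ϖ ∈ maximalIdeal A, ℓ ⟨algebraMap 𝒪 A ϖ, h⟩ = 0) :
    ∃ φ : @AlgHom 𝒪 A (DualNumber (ResidueField 𝒪)) _ _ _ _ (dualAlgebra 𝒪),
      ∀ μ : maximalIdeal A,
        ResidueField.map (algebraMap 𝒪 A) (TrivSqZeroExt.snd (φ (μ : A))) = ℓ μ := by
  let _ := dualAlgebra 𝒪
  let e : ResidueField 𝒪 ≃+* ResidueField A :=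
    RingEquiv.ofBijective (ResidueField.map (algebraMap 𝒪 A)) (tsurj_map_bijective hres)
  choose c hc using tsurj_exists_sub_mem hres
  let μ : A → maximalIdeal A := fun x => ⟨x - algebraMap 𝒪 A (c x), hc x⟩
  let D : A → ResidueField A := fun x => ℓ (μ x)
  have hD : ∀ (c' : 𝒪) (ν : maximalIdeal A), D (algebraMap 𝒪 A c' + ν) = ℓ ν := by
    intro c' ν
    have h1 : algebraMap 𝒪 A (c' - c (algebraMap 𝒪 A c' + ν)) ∈ maximalIdeal A := by
      have := sub_mem (hc (algebraMap 𝒪 A c' + ν)) ν.2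
      convert this using 1
      rw [map_sub]; ring
    have h2 : μ (algebraMap 𝒪 A c' + ν) = ν + ⟨_, h1⟩ := by
      apply Subtype.ext
      simp only [μ, map_sub, Submodule.coe_add]
      ring
    show ℓ (μ _) = ℓ ν
    rw [h2, map_add, tsurj_ell_algebraMap ϖ hϖ ℓ hℓ _ h1, add_zero]
  have hDadd : ∀ x y, D (x + y) = D x + D y := by
    intro x y
    have : x + y = algebraMap 𝒪 A (c x + c y) + ((μ x + μ y : maximalIdeal A) : A) := by
      simp only [μ, map_add, Submodule.coe_add]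
      ring
    rw [this, hD, map_add]
  have hres_eq : ∀ x, residue A (algebraMap 𝒪 A (c x)) = residue A x := by
    intro x
    have := hc x
    rw [← residue_eq_zero_iff, map_sub, sub_eq_zero] at this
    exact this.symm
  have hDmul : ∀ x y, D (x * y) = residue A x * D y + residue A y * D x := by
    intro x y
    have : x * y = algebraMap 𝒪 A (c x * c y) + ((algebraMap 𝒪 A (c x) • μ y
        + algebraMap 𝒪 A (c y) • μ x + (μ x : A) • μ y : maximalIdeal A) : A) := by
      simp only [μ, map_mul, Submodule.coe_add, Submodule.coe_smul, smul_eq_mul]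
      ring
    rw [this, hD, map_add, map_add, map_smul, map_smul, map_smul]
    have h0 : residue A (μ x : A) = 0 := (residue_eq_zero_iff _).2 (μ x).2
    simp only [Algebra.smul_def, ResidueField.algebraMap_eq, hres_eq, h0, zero_mul, add_zero]
    rfl
  have hDalg : ∀ c' : 𝒪, D (algebraMap 𝒪 A c') = 0 := by
    intro c'
    have := hD c' 0
    simpa using this
  have hDone : D 1 = 0 := by
    have := hDalg 1
    simpa using this
  let φ : @AlgHom 𝒪 A (DualNumber (ResidueField 𝒪)) _ _ _ _ (dualAlgebra 𝒪) :=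
    { toFun := fun x => TrivSqZeroExt.inl (e.symm (residue A x)) + TrivSqZeroExt.inr (e.symm (D x))
      map_one' := by
        apply TrivSqZeroExt.ext
        · simp
        · simp [hDone]
      map_mul' := fun x y => by
        apply TrivSqZeroExt.ext
        · simp
        · simp [hDmul, mul_comm]
      map_zero' := by
        have h0 : D 0 = 0 := by
          have := hDalg 0
          simpa using this
        apply TrivSqZeroExt.ext
        · simp
        · simp [h0]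
      map_add' := fun x y => by
        apply TrivSqZeroExt.ext
        · simp
        · simp [hDadd]
      commutes' := fun c' => by
        have h1 : e.symm (residue A (algebraMap 𝒪 A c')) = residue 𝒪 c' := by
          rw [RingEquiv.symm_apply_eq]
          rfl
        show TrivSqZeroExt.inl (e.symm (residue A (algebraMap 𝒪 A c')))
          + TrivSqZeroExt.inr (e.symm (D (algebraMap 𝒪 A c'))) = TrivSqZeroExt.inl (residue 𝒪 c')
        rw [h1, hDalg, map_zero, TrivSqZeroExt.inr_zero, add_zero] }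
  refine ⟨φ, fun ν => ?_⟩
  have h1 : D (ν : A) = ℓ ν := by
    have := hD 0 ν
    simpa using this
  show ResidueField.map (algebraMap 𝒪 A) (TrivSqZeroExt.snd
    (TrivSqZeroExt.inl (e.symm (residue A (ν : A))) + TrivSqZeroExt.inr (e.symm (D (ν : A))))) = ℓ ν
  rw [TrivSqZeroExt.snd_add, TrivSqZeroExt.snd_inl, TrivSqZeroExt.snd_inr, zero_add, h1]
  exact e.apply_symm_apply _


theorem tsurj_finite_algHom (𝒪 : Type) [CommRing 𝒪] [IsLocalRing 𝒪]
    (A : Type) [CommRing A] [IsLocalRing A] [Algebra 𝒪 A] [Finite A]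
    [IsLocalHom (algebraMap 𝒪 A)] :
    Finite (@AlgHom 𝒪 A (DualNumber (ResidueField 𝒪)) _ _ _ _ (dualAlgebra 𝒪)) := by
  let _ := dualAlgebra 𝒪
  have h1 : Finite (ResidueField A) := Finite.of_surjective (residue A) residue_surjective
  have h2 : Finite (ResidueField 𝒪) :=
    Finite.of_injective (ResidueField.map (algebraMap 𝒪 A)) (RingHom.injective _)
  have h3 : Finite (DualNumber (ResidueField 𝒪)) :=
    inferInstanceAs (Finite (ResidueField 𝒪 × ResidueField 𝒪))
  exact Finite.of_injective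
    (fun f : @AlgHom 𝒪 A (DualNumber (ResidueField 𝒪)) _ _ _ _ (dualAlgebra 𝒪) =>
      (f : A → DualNumber (ResidueField 𝒪))) DFunLike.coe_injective

theorem tsurj_exists_family (𝒪 : Type) [CommRing 𝒪] [IsLocalRing 𝒪]
    (ϖ : 𝒪) (hϖ : maximalIdeal 𝒪 = Ideal.span {ϖ})
    (A : Type) [CommRing A] [IsLocalRing A] [Algebra 𝒪 A] [Finite A]
    [IsLocalHom (algebraMap 𝒪 A)]
    (hres : Function.Surjective (residue A ∘ algebraMap 𝒪 A))
    (N₀ : ℕ)
    (hN : Nat.card (@AlgHom 𝒪 A (DualNumber (ResidueField 𝒪)) _ _ _ _ (dualAlgebra 𝒪)) ≤ N₀) :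
    ∃ a : Fin N₀ → A, (∀ i, a i ∈ maximalIdeal A) ∧
      maximalIdeal A ≤
        Ideal.span (insert (algebraMap 𝒪 A ϖ) (Set.range a)) ⊔ maximalIdeal A ^ 2 := by
  have hϖm : algebraMap 𝒪 A ϖ ∈ maximalIdeal A :=
    map_nonunit (algebraMap 𝒪 A) ϖ (hϖ ▸ Ideal.subset_span rfl)
  let v₀ : CotangentSpace A := (maximalIdeal A).toCotangent ⟨algebraMap 𝒪 A ϖ, hϖm⟩
  let p : Submodule (ResidueField A) (CotangentSpace A) := Submodule.span (ResidueField A) {v₀}
  let b := Module.finBasis (ResidueField A) (CotangentSpace A ⧸ p)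
  let π : maximalIdeal A →ₗ[A] (CotangentSpace A ⧸ p) :=
    (p.mkQ.restrictScalars A) ∘ₗ (maximalIdeal A).toCotangent
  have hπ : Function.Surjective π :=
    (Submodule.mkQ_surjective p).comp (Ideal.toCotangent_surjective _)
  let ℓ : Fin (Module.finrank (ResidueField A) (CotangentSpace A ⧸ p)) →
      (maximalIdeal A →ₗ[A] ResidueField A) := fun i => ((b.coord i).restrictScalars A) ∘ₗ π
  have hπϖ : π ⟨algebraMap 𝒪 A ϖ, hϖm⟩ = 0 :=
    (Submodule.Quotient.mk_eq_zero p).2 (Submodule.mem_span_singleton_self v₀)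
  have hℓ : ∀ i, ∀ h : algebraMap 𝒪 A ϖ ∈ maximalIdeal A, ℓ i ⟨algebraMap 𝒪 A ϖ, h⟩ = 0 := by
    intro i h
    show b.coord i (π ⟨algebraMap 𝒪 A ϖ, hϖm⟩) = 0
    rw [hπϖ, map_zero]
  choose φ hφ using fun i => tsurj_exists_algHom ϖ hϖ hres (ℓ i) (hℓ i)
  have hinj : Function.Injective φ := by
    intro i j hij
    obtain ⟨y, hy⟩ := hπ (b i)
    have h1 := hφ i y
    have h2 := hφ j y
    rw [hij] at h1
    have h3 : ℓ i y = ℓ j y := h1.symm.trans h2
    have h4 : ℓ i y = 1 := by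
      show b.coord i (π y) = 1
      rw [hy]; simp
    have h5 : ℓ j y = if i = j then 1 else 0 := by
      show b.coord j (π y) = _
      rw [hy]; simp [Finsupp.single_apply]
    by_contra hne
    rw [h4, h5, if_neg hne] at h3
    exact one_ne_zero h3
  have hfin := tsurj_finite_algHom 𝒪 A
  have hd : Module.finrank (ResidueField A) (CotangentSpace A ⧸ p) ≤ N₀ := by
    have := Nat.card_le_card_of_injective φ hinj
    simpa using this.trans hN
  choose a' ha' using fun i => hπ (b i)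
  have hker : ∀ y : maximalIdeal A, π y = 0 →
      ∃ s : A, (y : A) - s * algebraMap 𝒪 A ϖ ∈ maximalIdeal A ^ 2 := by
    intro y hy
    have h1 : (maximalIdeal A).toCotangent y ∈ p := (Submodule.Quotient.mk_eq_zero p).1 hy
    obtain ⟨r, hr⟩ := Submodule.mem_span_singleton.1 h1
    obtain ⟨s, rfl⟩ := residue_surjective r
    refine ⟨s, ?_⟩
    have h2 : (maximalIdeal A).toCotangent y
        = (maximalIdeal A).toCotangent (s • ⟨algebraMap 𝒪 A ϖ, hϖm⟩) := by
      rw [← hr, map_smul]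
      exact algebraMap_smul (ResidueField A) s v₀
    exact (Ideal.toCotangent_eq _).1 h2
  refine ⟨fun j => if h : (j : ℕ) < Module.finrank (ResidueField A) (CotangentSpace A ⧸ p)
    then (a' ⟨j, h⟩ : A) else 0, fun j => ?_, fun x hx => ?_⟩
  · dsimp only
    split_ifs with h
    · exact (a' ⟨j, h⟩).2
    · exact zero_mem _
  · choose t ht using fun i => residue_surjective (b.repr (π ⟨x, hx⟩) i)
    have h1 : π (⟨x, hx⟩ - ∑ i, t i • a' i) = 0 := by
      rw [map_sub, map_sum, sub_eq_zero]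
      conv_lhs => rw [← b.sum_repr (π ⟨x, hx⟩)]
      refine Finset.sum_congr rfl fun i _ => ?_
      rw [map_smul, ha', ← ht i]
      exact algebraMap_smul (ResidueField A) (t i) (b i)
    obtain ⟨s, hs⟩ := hker _ h1
    refine Submodule.mem_sup.2 ⟨∑ i, t i * (a' i : A) + s * algebraMap 𝒪 A ϖ, ?_, _, hs, ?_⟩
    · refine Ideal.add_mem _ (Ideal.sum_mem _ fun i _ => Ideal.mul_mem_left _ _
        (Ideal.subset_span (Or.inr ⟨Fin.castLE hd i, ?_⟩)))
        (Ideal.mul_mem_left _ _ (Ideal.subset_span (Or.inl rfl)))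
      simp
    · simp

theorem exists_surjective_of_card_algHom_dual_le (𝒪 : Type) [CommRing 𝒪] [IsLocalRing 𝒪]
    (ϖ : 𝒪) (hϖ : maximalIdeal 𝒪 = Ideal.span {ϖ})
    (A : Type) [CommRing A] [IsLocalRing A] [Algebra 𝒪 A] [Finite A]
    (hloc : IsLocalHom (algebraMap 𝒪 A))
    (hres : Function.Surjective (residue A ∘ algebraMap 𝒪 A))
    (N₀ : ℕ)
    (hN : Nat.card (@AlgHom 𝒪 A (DualNumber (ResidueField 𝒪)) _ _ _ _ (dualAlgebra 𝒪)) ≤ N₀) :
    ∃ f : MvPowerSeries (Fin (N₀ + 1)) 𝒪 →ₐ[𝒪] A,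
      Function.Surjective f ∧ f (MvPowerSeries.X 0) = algebraMap 𝒪 A ϖ := by
  have := hloc
  obtain ⟨n, hn⟩ := tsurj_exists_pow_eq_bot A
  obtain ⟨a, ham, hspan⟩ := tsurj_exists_family 𝒪 ϖ hϖ A hres N₀ hN
  have hϖm : algebraMap 𝒪 A ϖ ∈ maximalIdeal A :=
    map_nonunit (algebraMap 𝒪 A) ϖ (hϖ ▸ Ideal.subset_span rfl)
  obtain ⟨f, hf⟩ := exists_algHom_X (𝒪 := 𝒪)
    (Fin.cons (algebraMap 𝒪 A ϖ) a : Fin (N₀ + 1) → A) (maximalIdeal A) n hn (by
      intro i
      refine Fin.cases ?_ ?_ i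
      · simpa using hϖm
      · intro j
        simpa using ham j)
  have hf0 : f (MvPowerSeries.X 0) = algebraMap 𝒪 A ϖ := by
    rw [hf]; rfl
  have hfs : ∀ j : Fin N₀, f (MvPowerSeries.X j.succ) = a j := fun j => by
    rw [hf]; simp
  refine ⟨f, ?_, hf0⟩
  have htop : f.range = ⊤ := by
    refine subalgebra_eq_top_of_nilpotent f.range n hn ?_ ?_
    · intro x
      obtain ⟨c, hc⟩ := tsurj_exists_sub_mem hres x
      exact ⟨algebraMap 𝒪 A c, Subalgebra.algebraMap_mem _ c, hc⟩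
    · refine tsurj_hcot hres f.range (insert (algebraMap 𝒪 A ϖ) (Set.range a)) ?_ ?_ hspan
      · rintro x (rfl | ⟨j, rfl⟩)
        · exact ⟨_, hf0⟩
        · exact ⟨_, hfs j⟩
      · rintro x (rfl | ⟨j, rfl⟩)
        · exact hϖm
        · exact ham j
  exact (AlgHom.range_eq_top f).1 htop

end Fermat.Agent.S53
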