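import Fermat.Agent.S53.Good
import Fermat.Agent.S53.GoodA
import Fermat.Agent.S53.TangentBound
import Fermat.Agent.S53.TangentSurj
import Fermat.Agent.S53.PowerSeries

/-!
# S53: boundedness of good ideals and existence of a minimal good ideal of each level
-/

set_option autoImplicit false

open IsLocalRing GaloisRep MvPolynomial

namespace Fermat.Agent.S53

variable {𝒪 : Type} [CommRing 𝒪] [IsLocalRing 𝒪] {ρbar : ResidualGaloisRep (ResidueField 𝒪)}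
  {D : ResData 𝒪 ρbar}
  {𝒟 : ∀ ⦃A : Type⦄ [CommRing A] [IsLocalRing A] [Algebra 𝒪 A], GaloisRepAdic A → Prop}

/-- The dual numbers over a finite field are finite. -/
theorem goodb_finite_dual (k : Type) [Field k] [Finite k] : Finite (DualNumber k) :=
  inferInstanceAs (Finite (k × k))

/-- The structure map of the `𝒪`-algebra `dualAlgebra 𝒪`. -/
theorem goodb_algebraMap_dual (𝒪 : Type) [CommRing 𝒪] [IsLocalRing 𝒪] (a : 𝒪) :
    @algebraMap 𝒪 (DualNumber (ResidueField 𝒪)) _ _ (dualAlgebra 𝒪) a =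
      TrivSqZeroExt.inl (residue 𝒪 a) := rfl

/-- The dual numbers over the residue field, with the algebra structure `dualAlgebra 𝒪`, form a
test algebra. -/
theorem goodb_isTestAlg_dual (𝒪 : Type) [CommRing 𝒪] [IsLocalRing 𝒪] [Finite (ResidueField 𝒪)] :
    @IsTestAlg 𝒪 _ (DualNumber (ResidueField 𝒪)) _ _ (dualAlgebra 𝒪) := by
  let _ := dualAlgebra 𝒪
  refine ⟨goodb_finite_dual _, ⟨fun a ha => ?_⟩, fun y => ?_⟩
  · rw [goodb_algebraMap_dual, TrivSqZeroExt.isUnit_iff_isUnit_fst, TrivSqZeroExt.fst_inl] at ha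
    exact isUnit_of_map_unit (residue 𝒪) a ha
  · obtain ⟨x, rfl⟩ := residue_surjective y
    obtain ⟨a, ha⟩ := residue_surjective x.fst
    refine ⟨a, ?_⟩
    rw [Function.comp_apply, goodb_algebraMap_dual, ha, ← sub_eq_zero, ← map_sub,
      residue_eq_zero_iff]
    have h1 : TrivSqZeroExt.inl x.fst - x = TrivSqZeroExt.inr (-x.snd) := by
      ext <;> simp
    rw [h1, mem_maximalIdeal, mem_nonunits_iff]
    intro hu
    have h2 : IsNilpotent (TrivSqZeroExt.inr (-x.snd) : DualNumber (ResidueField 𝒪)) :=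
      TrivSqZeroExt.isNilpotent_inr _
    exact h2.not_isUnit hu

/-- A good quotient has at most `N₀` algebra maps to the dual numbers. -/
theorem IsGood.card_algHom_dual_le (h𝒟 : IsDeformationCondition 𝒪 𝒟) [Finite (ResidueField 𝒪)]
    {N₀ : ℕ} (hN₀ : TangentBound 𝒪 ρbar 𝒟 N₀) {n : ℕ} {I : Ideal (PolyRing 𝒪)}
    (hI : IsGood D 𝒟 n I) :
    Nat.card (@AlgHom 𝒪 (PolyRing 𝒪 ⧸ I) (DualNumber (ResidueField 𝒪)) _ _ _ _ (dualAlgebra 𝒪))
      ≤ N₀ := by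
  let _ := dualAlgebra 𝒪
  have hloc := hI.isLocalRing
  have hfin := hI.finite
  have hfinD : Finite (DualNumber (ResidueField 𝒪)) := goodb_finite_dual _
  have hTD : IsTestAlg 𝒪 (DualNumber (ResidueField 𝒪)) := goodb_isTestAlg_dual 𝒪
  have hφloc : ∀ φ : (PolyRing 𝒪 ⧸ I) →ₐ[𝒪] DualNumber (ResidueField 𝒪),
      IsLocalHom (φ : (PolyRing 𝒪 ⧸ I) →+* DualNumber (ResidueField 𝒪)) :=
    fun φ => isLocalHom_of_nilpotent _ n hI.maximalIdeal_pow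
  have hdef : ∀ φ : (PolyRing 𝒪 ⧸ I) →ₐ[𝒪] DualNumber (ResidueField 𝒪),
      IsDef D 𝒟 (mapRep (φ : (PolyRing 𝒪 ⧸ I) →+* DualNumber (ResidueField 𝒪))
        (tautRep D I hI.rel)) :=
    fun φ => IsDef.map D h𝒟 hI.isTestAlg hTD φ (hφloc φ) hI.isDef
  have hfinι : Finite ((PolyRing 𝒪 ⧸ I) →ₐ[𝒪] DualNumber (ResidueField 𝒪)) :=
    Finite.of_injective (fun f => (f : (PolyRing 𝒪 ⧸ I) → DualNumber (ResidueField 𝒪)))
      DFunLike.coe_injective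
  refine hN₀ ((PolyRing 𝒪 ⧸ I) →ₐ[𝒪] DualNumber (ResidueField 𝒪))
    (fun φ => ofMat _ (hdef φ).cont) (fun φ => ⟨(hdef φ).type, ?_⟩) (fun φ φ' e => ?_)
  · exact residual_isEquiv_of_strict (A := DualNumber (ResidueField 𝒪)) D
      ((residue (DualNumber (ResidueField 𝒪))).comp
        (algebraMap (ResidueField 𝒪) (DualNumber (ResidueField 𝒪))))
      (fun a => rfl) _ (hdef φ).cont (hdef φ).strict
  · have h1 := rigid_eq_of_isEquiv D _ _ (hdef φ).cont (hdef φ').cont (hdef φ).strict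
      (hdef φ').strict (hdef φ).rigid (hdef φ').rigid e
    apply quot_algHom_ext
    intro σ i j
    have h2 := congrFun (congrFun (DFunLike.congr_fun h1 σ) i) j
    rw [mapRep_apply_apply, mapRep_apply_apply, tautRep_apply] at h2
    exact h2

/-- A good quotient is a quotient of the power series ring in `N₀ + 1` variables. -/
theorem IsGood.exists_surjective (h𝒟 : IsDeformationCondition 𝒪 𝒟) [Finite (ResidueField 𝒪)]
    (ϖ : 𝒪) (hϖ : maximalIdeal 𝒪 = Ideal.span {ϖ})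
    {N₀ : ℕ} (hN₀ : TangentBound 𝒪 ρbar 𝒟 N₀) {n : ℕ} {I : Ideal (PolyRing 𝒪)}
    (hI : IsGood D 𝒟 n I) :
    ∃ f : MvPowerSeries (Fin (N₀ + 1)) 𝒪 →ₐ[𝒪] PolyRing 𝒪 ⧸ I,
      Function.Surjective f ∧ f (MvPowerSeries.X 0) = algebraMap 𝒪 (PolyRing 𝒪 ⧸ I) ϖ := by
  have hloc := hI.isLocalRing
  have hfin := hI.finite
  exact exists_surjective_of_card_algHom_dual_le 𝒪 ϖ hϖ (PolyRing 𝒪 ⧸ I)
    hI.isTestAlg.isLocalHom hI.isTestAlg.residue_surjective N₀ (hI.card_algHom_dual_le h𝒟 hN₀)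

/-- The cardinality of a good quotient of level `n` is bounded by that of the `n`-th
infinitesimal quotient of the power series ring in `N₀ + 1` variables. -/
theorem goodb_card_le (h𝒟 : IsDeformationCondition 𝒪 𝒟) [IsNoetherianRing 𝒪]
    [Finite (ResidueField 𝒪)] (ϖ : 𝒪) (hϖ : maximalIdeal 𝒪 = Ideal.span {ϖ})
    {N₀ : ℕ} (hN₀ : TangentBound 𝒪 ρbar 𝒟 N₀) {n : ℕ} {I : Ideal (PolyRing 𝒪)}
    (hI : IsGood D 𝒟 n I) :
    Nat.card (PolyRing 𝒪 ⧸ I) ≤ Nat.card (MvPowerSeries (Fin (N₀ + 1)) 𝒪 ⧸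
      maximalIdeal (MvPowerSeries (Fin (N₀ + 1)) 𝒪) ^ n) := by
  have hloc := hI.isLocalRing
  obtain ⟨f, hf, -⟩ := hI.exists_surjective h𝒟 ϖ hϖ hN₀
  have hfl : IsLocalHom (f : MvPowerSeries (Fin (N₀ + 1)) 𝒪 →+* PolyRing 𝒪 ⧸ I) :=
    IsLocalHom.of_surjective _ hf
  have hker : ∀ a ∈ maximalIdeal (MvPowerSeries (Fin (N₀ + 1)) 𝒪) ^ n,
      (f : MvPowerSeries (Fin (N₀ + 1)) 𝒪 →+* PolyRing 𝒪 ⧸ I) a = 0 := by
    intro a ha
    have h1 : (f : MvPowerSeries (Fin (N₀ + 1)) 𝒪 →+* PolyRing 𝒪 ⧸ I) a ∈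
        (maximalIdeal (MvPowerSeries (Fin (N₀ + 1)) 𝒪) ^ n).map
          (f : MvPowerSeries (Fin (N₀ + 1)) 𝒪 →+* PolyRing 𝒪 ⧸ I) :=
      Ideal.mem_map_of_mem _ ha
    rw [Ideal.map_pow] at h1
    have h2 : (maximalIdeal (MvPowerSeries (Fin (N₀ + 1)) 𝒪)).map
        (f : MvPowerSeries (Fin (N₀ + 1)) 𝒪 →+* PolyRing 𝒪 ⧸ I) ≤
        maximalIdeal (PolyRing 𝒪 ⧸ I) := by
      rw [Ideal.map_le_iff_le_comap]
      intro x hx
      exact map_mem_maximalIdeal _ hfl hx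
    have h3 := Ideal.pow_right_mono h2 n h1
    rw [hI.maximalIdeal_pow, Ideal.mem_bot] at h3
    exact h3
  have hfinS := finite_mvPowerSeries_quotient_maximalIdeal_pow (𝒪 := 𝒪) (σ := Fin (N₀ + 1)) n
  exact Nat.card_le_card_of_surjective _
    (Ideal.Quotient.lift_surjective_of_surjective _ hker hf)

/-- There is a smallest good ideal of each level `n ≥ 1`. -/
theorem exists_minimal_isGood (h𝒟 : IsDeformationCondition 𝒪 𝒟) [IsNoetherianRing 𝒪]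
    [Finite (ResidueField 𝒪)] (ϖ : 𝒪) (hϖ : maximalIdeal 𝒪 = Ideal.span {ϖ})
    {N₀ : ℕ} (hN₀ : TangentBound 𝒪 ρbar 𝒟 N₀)
    (hbar : 𝒟 (GaloisRepAdic.ofResidualGaloisRep ρbar)) (n : ℕ) (hn : 1 ≤ n) :
    ∃ I : Ideal (PolyRing 𝒪), IsGood D 𝒟 n I ∧ ∀ J, IsGood D 𝒟 n J → I ≤ J := by
  let S : Set ℕ :=
    {m | ∃ I : Ideal (PolyRing 𝒪), IsGood D 𝒟 n I ∧ Nat.card (PolyRing 𝒪 ⧸ I) = m}
  have hne : S.Nonempty := ⟨_, maxId D, (isGood_maxId h𝒟 hbar).mono hn, rfl⟩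
  have hbdd : BddAbove S :=
    ⟨Nat.card (MvPowerSeries (Fin (N₀ + 1)) 𝒪 ⧸
      maximalIdeal (MvPowerSeries (Fin (N₀ + 1)) 𝒪) ^ n), by
      rintro m ⟨I, hI, rfl⟩
      exact goodb_card_le h𝒟 ϖ hϖ hN₀ hI⟩
  obtain ⟨I, hI, hcard⟩ := Nat.sSup_mem hne hbdd
  refine ⟨I, hI, fun J hJ => ?_⟩
  have hIJ := hI.inf h𝒟 hJ
  have hle : Nat.card (PolyRing 𝒪 ⧸ (I ⊓ J)) ≤ Nat.card (PolyRing 𝒪 ⧸ I) := by
    rw [hcard]
    exact le_csSup hbdd ⟨I ⊓ J, hIJ, rfl⟩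
  have hfin := hIJ.finite
  have hsurj : Function.Surjective (Ideal.Quotient.factor (inf_le_left : I ⊓ J ≤ I)) :=
    Ideal.Quotient.factor_surjective _
  have hbij := hsurj.bijective_of_nat_card_le hle
  intro x hx
  have h1 : Ideal.Quotient.factor (inf_le_left : I ⊓ J ≤ I)
      (Ideal.Quotient.mk (I ⊓ J) x) = 0 := by
    rw [Ideal.Quotient.factor_mk, Ideal.Quotient.eq_zero_iff_mem]
    exact hx
  have h2 : Ideal.Quotient.mk (I ⊓ J) x = 0 := hbij.injective (by rw [h1, map_zero])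
  rw [Ideal.Quotient.eq_zero_iff_mem] at h2
  exact h2.2

end Fermat.Agent.S53
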