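import Fermat.Agent.S53.UnivRep

/-!
# S53: existence of the classifying map from the limit ring
-/

set_option autoImplicit false

open IsLocalRing GaloisRep MvPolynomial

namespace Fermat.Agent.S53

section Quot

variable {𝒪 : Type} [CommRing 𝒪] [IsLocalRing 𝒪] {A : Type} [CommRing A] [IsLocalRing A]

theorem hom_pow_ne_top (n : ℕ) : maximalIdeal A ^ (n + 2) ≠ ⊤ := by
  intro h
  have h1 : maximalIdeal A ^ (n + 2) ≤ maximalIdeal A := Ideal.pow_le_self (Nat.succ_ne_zero _)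
  rw [h] at h1
  exact (maximalIdeal.isMaximal A).ne_top (top_le_iff.mp h1)

theorem hom_quot_isLocalRing (n : ℕ) : IsLocalRing (A ⧸ maximalIdeal A ^ (n + 2)) :=
  haveI : Nontrivial (A ⧸ maximalIdeal A ^ (n + 2)) :=
    Ideal.Quotient.nontrivial_iff.mpr (hom_pow_ne_top n)
  IsLocalRing.of_surjective' (Ideal.Quotient.mk _) Ideal.Quotient.mk_surjective

theorem hom_quot_isLocalHom (n : ℕ) [IsLocalRing (A ⧸ maximalIdeal A ^ (n + 2))] :
    IsLocalHom (Ideal.Quotient.mk (maximalIdeal A ^ (n + 2))) :=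
  IsLocalHom.of_surjective _ Ideal.Quotient.mk_surjective

theorem hom_quot_maximalIdeal_pow (n : ℕ) [IsLocalRing (A ⧸ maximalIdeal A ^ (n + 2))] :
    maximalIdeal (A ⧸ maximalIdeal A ^ (n + 2)) ^ (n + 2) = ⊥ := by
  rw [← IsLocalRing.map_maximalIdeal_of_surjective
    (Ideal.Quotient.mk (maximalIdeal A ^ (n + 2))) Ideal.Quotient.mk_surjective,
    ← Ideal.map_pow, Ideal.map_quotient_self]

theorem hom_finite_residueField [Algebra 𝒪 A] [Finite (ResidueField 𝒪)]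
    (hloc : IsLocalHom (algebraMap 𝒪 A))
    (hres : Function.Surjective (residue A ∘ algebraMap 𝒪 A)) : Finite (ResidueField A) := by
  have := hloc
  refine Finite.of_surjective (ResidueField.map (algebraMap 𝒪 A)) fun x => ?_
  obtain ⟨a, ha⟩ := hres x
  exact ⟨residue 𝒪 a, by rw [ResidueField.map_residue]; exact ha⟩

theorem hom_isTestAlg [Algebra 𝒪 A] [IsNoetherianRing A] [Finite (ResidueField 𝒪)]
    (hloc : IsLocalHom (algebraMap 𝒪 A))
    (hres : Function.Surjective (residue A ∘ algebraMap 𝒪 A))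
    (n : ℕ) [IsLocalRing (A ⧸ maximalIdeal A ^ (n + 2))] :
    IsTestAlg 𝒪 (A ⧸ maximalIdeal A ^ (n + 2)) := by
  have := hom_finite_residueField hloc hres
  have hq := hom_quot_isLocalHom (A := A) n
  have := hloc
  refine ⟨IsLocalRing.finite_quotient_iff.mpr ⟨n + 2, le_rfl⟩, ?_, fun x => ?_⟩
  · exact RingHom.isLocalHom_comp (Ideal.Quotient.mk (maximalIdeal A ^ (n + 2)))
      (algebraMap 𝒪 A)
  · obtain ⟨y, rfl⟩ := residue_surjective x
    obtain ⟨z, rfl⟩ := Ideal.Quotient.mk_surjective y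
    obtain ⟨a, ha⟩ := hres (residue A z)
    refine ⟨a, ?_⟩
    rw [Function.comp_apply] at ha ⊢
    rw [← sub_eq_zero, ← map_sub, residue_eq_zero_iff] at ha ⊢
    exact map_mem_maximalIdeal (Ideal.Quotient.mk (maximalIdeal A ^ (n + 2))) hq ha

end Quot

section Level

variable {𝒪 : Type} [CommRing 𝒪] [IsLocalRing 𝒪] {ρbar : ResidualGaloisRep (ResidueField 𝒪)}
  {𝒟 : ∀ ⦃A : Type⦄ [CommRing A] [IsLocalRing A] [Algebra 𝒪 A], GaloisRepAdic A → Prop}

/-- The reduction of a rigid strict lift of type `𝒟` modulo `𝔪 ^ (n + 2)` is again one. -/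
theorem hom_isDef_quot {D : ResData 𝒪 ρbar} (h𝒟 : IsDeformationCondition 𝒪 𝒟)
    [Finite (ResidueField 𝒪)]
    {A : Type} [CommRing A] [IsLocalRing A] [IsNoetherianRing A]
    [IsAdicComplete (maximalIdeal A) A] [Algebra 𝒪 A]
    (hloc : IsLocalHom (algebraMap 𝒪 A))
    (hres : Function.Surjective (residue A ∘ algebraMap 𝒪 A))
    (r : GQ →* M2 A) (hr : IsDef D 𝒟 r) (n : ℕ) [IsLocalRing (A ⧸ maximalIdeal A ^ (n + 2))] :
    IsDef D 𝒟 (mapRep ((Ideal.Quotient.mkₐ 𝒪 (maximalIdeal A ^ (n + 2)) :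
      A →ₐ[𝒪] A ⧸ maximalIdeal A ^ (n + 2)) : A →+* A ⧸ maximalIdeal A ^ (n + 2)) r) := by
  have hq : IsLocalHom ((Ideal.Quotient.mkₐ 𝒪 (maximalIdeal A ^ (n + 2)) :
      A →ₐ[𝒪] A ⧸ maximalIdeal A ^ (n + 2)) : A →+* A ⧸ maximalIdeal A ^ (n + 2)) :=
    hom_quot_isLocalHom n
  have hT := hom_isTestAlg (𝒪 := 𝒪) hloc hres n
  have hc : MatCont (mapRep ((Ideal.Quotient.mkₐ 𝒪 (maximalIdeal A ^ (n + 2)) :
      A →ₐ[𝒪] A ⧸ maximalIdeal A ^ (n + 2)) : A →+* A ⧸ maximalIdeal A ^ (n + 2)) r) :=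
    matCont_mapRep _ hq hr.cont
  exact
    { cont := hc
      strict := hr.strict.map D _ hq
      rigid := hr.rigid.map D _
      type := h𝒟.of_isEquiv hT.isArtinianTestAlgebra
        (ofMat_baseChangeAlong_isEquiv _ hq r hr.cont hc)
        ((h𝒟.iff_forall_surjective hloc hres (ofMat r hr.cont)).mp hr.type
          hT.isArtinianTestAlgebra _ hq (Ideal.Quotient.mkₐ_surjective 𝒪 _)) }

variable {X : TowerSetup 𝒪 ρbar 𝒟}

/-- The minimal good ideal of level `n + 2` is contained in the kernel of the evaluation at the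
reduction of `r` modulo `𝔪 ^ (n + 2)`. -/
theorem hom_Imin_le (h𝒟 : IsDeformationCondition 𝒪 𝒟) [Finite (ResidueField 𝒪)]
    {A : Type} [CommRing A] [IsLocalRing A] [IsNoetherianRing A]
    [IsAdicComplete (maximalIdeal A) A] [Algebra 𝒪 A]
    (hloc : IsLocalHom (algebraMap 𝒪 A))
    (hres : Function.Surjective (residue A ∘ algebraMap 𝒪 A))
    (r : GQ →* M2 A) (hr : IsDef X.D 𝒟 r) (n : ℕ) :
    X.Imin n ≤ RingHom.ker (evRep (𝒪 := 𝒪) (mapRep ((Ideal.Quotient.mkₐ 𝒪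
      (maximalIdeal A ^ (n + 2)) : A →ₐ[𝒪] A ⧸ maximalIdeal A ^ (n + 2)) :
      A →+* A ⧸ maximalIdeal A ^ (n + 2)) r) : PolyRing 𝒪 →+* A ⧸ maximalIdeal A ^ (n + 2)) := by
  have := hom_quot_isLocalRing (A := A) n
  exact X.min n _ (isGood_ker_evRep h𝒟 (hom_isTestAlg hloc hres n) (hom_quot_maximalIdeal_pow n)
    (hom_isDef_quot h𝒟 hloc hres r hr n))

/-- The classifying map at level `n`. -/
theorem hom_exists_level (h𝒟 : IsDeformationCondition 𝒪 𝒟) [Finite (ResidueField 𝒪)]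
    {rU : GQ →* M2 X.T.R} (hU : X.IsUnivRep rU)
    {A : Type} [CommRing A] [IsLocalRing A] [IsNoetherianRing A]
    [IsAdicComplete (maximalIdeal A) A] [Algebra 𝒪 A]
    (hloc : IsLocalHom (algebraMap 𝒪 A))
    (hres : Function.Surjective (residue A ∘ algebraMap 𝒪 A))
    (r : GQ →* M2 A) (hr : IsDef X.D 𝒟 r) (n : ℕ) :
    ∃ φ' : X.T.R →ₐ[𝒪] A ⧸ maximalIdeal A ^ (n + 2),
      maximalIdeal X.T.R ^ (n + 2) ≤ RingHom.ker (φ' : X.T.R →+* A ⧸ maximalIdeal A ^ (n + 2)) ∧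
      ∀ σ i j, φ' (rU σ i j) = Ideal.Quotient.mk (maximalIdeal A ^ (n + 2)) (r σ i j) := by
  have hle : ∀ a ∈ X.Imin n, evRep (𝒪 := 𝒪) (mapRep ((Ideal.Quotient.mkₐ 𝒪
      (maximalIdeal A ^ (n + 2)) : A →ₐ[𝒪] A ⧸ maximalIdeal A ^ (n + 2)) :
      A →+* A ⧸ maximalIdeal A ^ (n + 2)) r) a = 0 :=
    fun a ha => hom_Imin_le h𝒟 hloc hres r hr n ha
  refine ⟨(Ideal.Quotient.liftₐ (X.Imin n) (evRep (𝒪 := 𝒪) (mapRep ((Ideal.Quotient.mkₐ 𝒪
      (maximalIdeal A ^ (n + 2)) : A →ₐ[𝒪] A ⧸ maximalIdeal A ^ (n + 2)) :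
      A →+* A ⧸ maximalIdeal A ^ (n + 2)) r)) hle).comp (X.T.p n), ?_, ?_⟩
  · intro x hx
    rw [← X.T.ker_p n] at hx
    have hx0 : X.T.p n x = 0 := hx
    rw [RingHom.mem_ker, RingHom.coe_coe, AlgHom.comp_apply, hx0, map_zero]
  · intro σ i j
    have h1 : X.T.p n (rU σ i j) = Ideal.Quotient.mk (X.Imin n) (MvPolynomial.X (σ, i, j)) := by
      have h2 := hU n
      have h3 := congrFun (congrFun (DFunLike.congr_fun h2 σ) i) j
      rw [mapRep_apply_apply, tautRep_apply] at h3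
      exact h3
    rw [AlgHom.comp_apply, h1]
    exact evRep_X (𝒪 := 𝒪) (mapRep ((Ideal.Quotient.mkₐ 𝒪
      (maximalIdeal A ^ (n + 2)) : A →ₐ[𝒪] A ⧸ maximalIdeal A ^ (n + 2)) :
      A →+* A ⧸ maximalIdeal A ^ (n + 2)) r) σ i j


/-- A compatible family of classifying maps `R → A ⧸ 𝔪 ^ n`. -/
theorem hom_exists_family (h𝒟 : IsDeformationCondition 𝒪 𝒟) [Finite (ResidueField 𝒪)]
    {rU : GQ →* M2 X.T.R} (hU : X.IsUnivRep rU)
    {A : Type} [CommRing A] [IsLocalRing A] [IsNoetherianRing A]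
    [IsAdicComplete (maximalIdeal A) A] [Algebra 𝒪 A]
    (hloc : IsLocalHom (algebraMap 𝒪 A))
    (hres : Function.Surjective (residue A ∘ algebraMap 𝒪 A))
    (r : GQ →* M2 A) (hr : IsDef X.D 𝒟 r) :
    ∃ f : ∀ n : ℕ, X.T.R →ₐ[𝒪] A ⧸ maximalIdeal A ^ n,
      (∀ n, maximalIdeal X.T.R ^ (n + 2) ≤
        RingHom.ker (f n : X.T.R →+* A ⧸ maximalIdeal A ^ n)) ∧
      (∀ n σ i j, f n (rU σ i j) = Ideal.Quotient.mk (maximalIdeal A ^ n) (r σ i j)) ∧
      ∀ {m n : ℕ} (hle : m ≤ n),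
        (Ideal.Quotient.factorₐ 𝒪 (Ideal.pow_le_pow_right hle)).comp (f n) = f m := by
  choose φ' hker hent using hom_exists_level h𝒟 hU hloc hres r hr
  have hfker : ∀ n, maximalIdeal X.T.R ^ (n + 2) ≤
      RingHom.ker (((Ideal.Quotient.factorₐ 𝒪 (Ideal.pow_le_pow_right
        (Nat.le_add_right n 2))).comp (φ' n) : X.T.R →ₐ[𝒪] A ⧸ maximalIdeal A ^ n) :
        X.T.R →+* A ⧸ maximalIdeal A ^ n) := by
    intro n x hx
    have hx0 : φ' n x = 0 := hker n hx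
    rw [RingHom.mem_ker, RingHom.coe_coe, AlgHom.comp_apply, hx0, map_zero]
  have hfent : ∀ n σ i j, ((Ideal.Quotient.factorₐ 𝒪 (Ideal.pow_le_pow_right
      (Nat.le_add_right n 2))).comp (φ' n) : X.T.R →ₐ[𝒪] A ⧸ maximalIdeal A ^ n) (rU σ i j) =
      Ideal.Quotient.mk (maximalIdeal A ^ n) (r σ i j) := by
    intro n σ i j
    rw [AlgHom.comp_apply, hent n σ i j]
    rfl
  refine ⟨fun n => (Ideal.Quotient.factorₐ 𝒪 (Ideal.pow_le_pow_right
    (Nat.le_add_right n 2))).comp (φ' n), hfker, hfent, ?_⟩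
  intro m n hle
  refine hU.algHom_ext _ _ n ?_ ?_ ?_
  · intro x hx
    have hx0 := hfker n hx
    rw [RingHom.mem_ker, RingHom.coe_coe] at hx0 ⊢
    rw [AlgHom.comp_apply, hx0, map_zero]
  · exact (Ideal.pow_le_pow_right (Nat.add_le_add_right hle 2)).trans (hfker m)
  · intro σ i j
    rw [AlgHom.comp_apply, hfent n σ i j, hfent m σ i j]
    rfl

end Level

namespace TowerSetup

variable {𝒪 : Type} [CommRing 𝒪] [IsLocalRing 𝒪] {ρbar : ResidualGaloisRep (ResidueField 𝒪)}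
  {𝒟 : ∀ ⦃A : Type⦄ [CommRing A] [IsLocalRing A] [Algebra 𝒪 A], GaloisRepAdic A → Prop}
  {X : TowerSetup 𝒪 ρbar 𝒟}

/-- Every rigid strict lift of type `𝒟` over a complete Noetherian local `𝒪`-algebra `A` is
the push-forward of the universal representation along a local `𝒪`-algebra map. -/
theorem IsUnivRep.exists_algHom (h𝒟 : IsDeformationCondition 𝒪 𝒟) [Finite (ResidueField 𝒪)]
    {rU : GQ →* M2 X.T.R} (hU : X.IsUnivRep rU)
    {A : Type} [CommRing A] [IsLocalRing A] [IsNoetherianRing A]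
    [IsAdicComplete (maximalIdeal A) A] [Algebra 𝒪 A]
    (hloc : IsLocalHom (algebraMap 𝒪 A))
    (hres : Function.Surjective (residue A ∘ algebraMap 𝒪 A))
    (r : GQ →* M2 A) (hr : IsDef X.D 𝒟 r) :
    ∃ φ : X.T.R →ₐ[𝒪] A, IsLocalHom (φ : X.T.R →+* A) ∧ mapRep (φ : X.T.R →+* A) rU = r := by
  obtain ⟨f, hfker, hfent, hcompat⟩ := hom_exists_family h𝒟 hU hloc hres r hr
  have hmk : ∀ (n : ℕ) (x : X.T.R), Ideal.Quotient.mk (maximalIdeal A ^ n)
      (IsAdicComplete.liftAlgHom (maximalIdeal A) f hcompat x) = f n x :=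
    fun n x => IsAdicComplete.mk_liftAlgHom (maximalIdeal A) f hcompat n x
  refine ⟨IsAdicComplete.liftAlgHom (maximalIdeal A) f hcompat, ⟨fun u hu => ?_⟩, ?_⟩
  · by_contra hnu
    have hmem : u ∈ maximalIdeal X.T.R := hnu
    have h3 : u ^ 3 ∈ maximalIdeal X.T.R ^ (1 + 2) := Ideal.pow_mem_pow hmem 3
    have h4 : f 1 (u ^ 3) = 0 := hfker 1 h3
    have h5 := hmk 1 (u ^ 3)
    rw [h4, Ideal.Quotient.eq_zero_iff_mem, pow_one, map_pow] at h5
    exact h5 (hu.pow 3)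
  · refine MonoidHom.ext fun σ => Matrix.ext fun i j => ?_
    rw [mapRep_apply_apply, RingHom.coe_coe, ← sub_eq_zero, ← Ideal.mem_bot,
      ← Ideal.iInf_pow_eq_bot_of_isLocalRing (maximalIdeal A) Ideal.IsPrime.ne_top',
      Ideal.mem_iInf]
    intro n
    rw [← Ideal.Quotient.eq, hmk, hfent]

end TowerSetup

end Fermat.Agent.S53
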