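import Fermat.Agent.S53.Setup
import Fermat.Agent.S53.GoodA

/-!
# S53: the universal representation over the limit ring of the tower
-/

set_option autoImplicit false

open IsLocalRing GaloisRep MvPolynomial

namespace Fermat.Agent.S53

section UnivRepAux

/-- Krull's intersection theorem in the form used below. -/
theorem univrep_eq_zero_of_forall_mem_pow {A : Type} [CommRing A] [IsLocalRing A]
    [IsNoetherianRing A] (a : A) (h : ∀ N : ℕ, a ∈ maximalIdeal A ^ (N + 2)) : a = 0 := by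
  have h1 : a ∈ ⨅ i : ℕ, maximalIdeal A ^ i := by
    rw [Ideal.mem_iInf]
    intro i
    exact Ideal.pow_le_pow_right (Nat.le_add_right i 2) (h i)
  rw [Ideal.iInf_pow_eq_bot_of_isLocalRing _ (maximalIdeal.isMaximal A).ne_top] at h1
  exact h1

/-- A local homomorphism maps powers of the maximal ideal into powers of the maximal ideal. -/
theorem univrep_map_mem_pow {A B : Type} [CommRing A] [IsLocalRing A] [CommRing B]
    [IsLocalRing B] (φ : A →+* B) (hφ : IsLocalHom φ) (n : ℕ) {a : A}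
    (ha : a ∈ maximalIdeal A ^ n) : φ a ∈ maximalIdeal B ^ n := by
  have hmap : (maximalIdeal A ^ n).map φ ≤ maximalIdeal B ^ n := by
    rw [Ideal.map_pow]
    exact Ideal.pow_right_mono (Ideal.map_le_iff_le_comap.mpr fun a ha =>
      Ideal.mem_comap.mpr (map_mem_maximalIdeal φ hφ ha)) n
  exact hmap (Ideal.mem_map_of_mem φ ha)

/-- Entries of the identity matrix are preserved by ring homomorphisms. -/
theorem univrep_map_one_apply {A B : Type} [CommRing A] [CommRing B] (φ : A →+* B)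
    (i j : Fin 2) : φ ((1 : M2 A) i j) = (1 : M2 B) i j := by
  by_cases hij : i = j
  · subst hij
    rw [Matrix.one_apply_eq, Matrix.one_apply_eq, map_one]
  · rw [Matrix.one_apply_ne hij, Matrix.one_apply_ne hij, map_zero]

variable {𝒪 : Type} [CommRing 𝒪] [IsLocalRing 𝒪] {ρbar : ResidualGaloisRep (ResidueField 𝒪)}
  {𝒟 : ∀ ⦃A : Type⦄ [CommRing A] [IsLocalRing A] [Algebra 𝒪 A], GaloisRepAdic A → Prop}
  (X : TowerSetup 𝒪 ρbar 𝒟)

/-- The kernel of the `n`-th projection of the tower. -/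
theorem univrep_mem_pow_iff (n : ℕ) (u : X.T.R) :
    u ∈ maximalIdeal X.T.R ^ (n + 2) ↔ X.T.p n u = 0 := by
  rw [← X.T.ker_p n]
  rfl

/-- Joint injectivity of the projections of the tower. -/
theorem univrep_eq_zero (u : X.T.R) (h : ∀ n, X.T.p n u = 0) : u = 0 :=
  univrep_eq_zero_of_forall_mem_pow u fun N => (univrep_mem_pow_iff X N u).mpr (h N)

/-- Joint injectivity of the projections of the tower, as an extensionality statement. -/
theorem univrep_ext {u v : X.T.R} (h : ∀ n, X.T.p n u = X.T.p n v) : u = v := by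
  rw [← sub_eq_zero]
  exact univrep_eq_zero X _ fun n => by rw [map_sub, h n, sub_self]

/-- The entries of a universal representation project to the classes of the variables. -/
theorem univrep_p_apply {rU : GQ →* M2 X.T.R}
    (h : ∀ n, mapRep (X.T.p n : X.T.R →+* PolyRing 𝒪 ⧸ X.Imin n) rU =
      tautRep X.D (X.Imin n) (X.good n).rel) (n : ℕ) (σ : GQ) (i j : Fin 2) :
    X.T.p n (rU σ i j) = Ideal.Quotient.mk (X.Imin n) (MvPolynomial.X (σ, i, j)) := by
  have h1 := DFunLike.congr_fun (h n) σ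
  have h2 := congrFun (congrFun h1 i) j
  rw [mapRep_apply_apply, tautRep_apply] at h2
  exact h2

/-- Evaluating at a universal representation and projecting is the quotient map. -/
theorem univrep_p_comp_evRep {rU : GQ →* M2 X.T.R}
    (h : ∀ n, mapRep (X.T.p n : X.T.R →+* PolyRing 𝒪 ⧸ X.Imin n) rU =
      tautRep X.D (X.Imin n) (X.good n).rel) (n : ℕ) :
    (X.T.p n).comp (evRep (𝒪 := 𝒪) rU) = Ideal.Quotient.mkₐ 𝒪 (X.Imin n) :=
  polyRing_algHom_ext fun σ i j => by
    rw [AlgHom.comp_apply, evRep_X, univrep_p_apply X h]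
    rfl

end UnivRepAux

namespace TowerSetup

variable {𝒪 : Type} [CommRing 𝒪] [IsLocalRing 𝒪] {ρbar : ResidualGaloisRep (ResidueField 𝒪)}
  {𝒟 : ∀ ⦃A : Type⦄ [CommRing A] [IsLocalRing A] [Algebra 𝒪 A], GaloisRepAdic A → Prop}
  (X : TowerSetup 𝒪 ρbar 𝒟)

/-- `rU` is a universal representation: it reduces to the tautological representation at every
level of the tower. -/
def IsUnivRep (rU : GQ →* M2 X.T.R) : Prop :=
  ∀ n, mapRep (X.T.p n : X.T.R →+* PolyRing 𝒪 ⧸ X.Imin n) rU =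
    tautRep X.D (X.Imin n) (X.good n).rel

theorem exists_isUnivRep : ∃ rU : GQ →* M2 X.T.R, X.IsUnivRep rU := by
  have hex : ∀ (σ : GQ) (i j : Fin 2), ∃ u : X.T.R, ∀ n,
      X.T.p n u = Ideal.Quotient.mk (X.Imin n) (MvPolynomial.X (σ, i, j)) :=
    fun σ i j => X.T.exists_lift
      (fun n => Ideal.Quotient.mk (X.Imin n) (MvPolynomial.X (σ, i, j)))
      (fun n => Ideal.Quotient.factor_mk _ _)
  choose u hu using hex
  have hone : ∀ i j, u 1 i j = (1 : M2 X.T.R) i j := by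
    intro i j
    apply univrep_ext X
    intro n
    rw [hu, ← tautRep_apply X.D (X.Imin n) (X.good n).rel, map_one]
    exact (univrep_map_one_apply (X.T.p n : X.T.R →+* PolyRing 𝒪 ⧸ X.Imin n) i j).symm
  have hmul : ∀ σ τ i j, u (σ * τ) i j = ∑ l, u σ i l * u τ l j := by
    intro σ τ i j
    apply univrep_ext X
    intro n
    rw [hu, ← tautRep_apply X.D (X.Imin n) (X.good n).rel, map_mul, Matrix.mul_apply, map_sum]
    refine Finset.sum_congr rfl fun l _ => ?_
    rw [map_mul, hu, hu]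
    rfl
  refine ⟨{ toFun := fun σ => Matrix.of (u σ), map_one' := ?_, map_mul' := ?_ }, ?_⟩
  · ext i j
    exact hone i j
  · intro σ τ
    ext i j
    rw [Matrix.mul_apply]
    exact hmul σ τ i j
  · intro n
    ext σ i j
    rw [mapRep_apply_apply, tautRep_apply]
    exact hu σ i j n

variable {X}

theorem IsUnivRep.matCont {rU : GQ →* M2 X.T.R} (h : X.IsUnivRep rU) : MatCont rU := by
  intro N
  obtain ⟨L, hL, hσ⟩ := (X.good N).finiteLevel
  refine ⟨L, hL, fun σ hσL i j => ?_⟩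
  have h1 : tautRep X.D (X.Imin N) (X.good N).rel σ = 1 :=
    tautRep_sub_one_eq_zero X.D (X.good N).rel (hσ σ hσL)
  have h2 : X.T.p N ((rU σ - 1) i j) = 0 := by
    rw [Matrix.sub_apply, map_sub, univrep_p_apply X h,
      ← tautRep_apply X.D (X.Imin N) (X.good N).rel, h1, sub_eq_zero]
    exact (univrep_map_one_apply (X.T.p N : X.T.R →+* PolyRing 𝒪 ⧸ X.Imin N) i j).symm
  exact Ideal.pow_le_pow_right (Nat.le_add_right N 2) ((univrep_mem_pow_iff X N _).mpr h2)

theorem IsUnivRep.strict {rU : GQ →* M2 X.T.R} (h : X.IsUnivRep rU) : IsStrictLift X.D rU := by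
  have := (X.good 0).isLocalRing
  intro σ i j
  apply mem_maximalIdeal_of_map_mem (X.T.p 0 : X.T.R →+* PolyRing 𝒪 ⧸ X.Imin 0)
  have h1 := tautRep_strict X.D (X.good 0).rel (X.good 0).pow_le (X.good 0).le σ i j
  rw [tautRep_apply] at h1
  rw [RingHom.coe_coe, map_sub, univrep_p_apply X h, AlgHom.commutes]
  exact h1

theorem IsUnivRep.rigid {rU : GQ →* M2 X.T.R} (h : X.IsUnivRep rU) : IsRigid X.D rU := by
  refine ⟨univrep_ext X fun n => ?_, univrep_ext X fun n => ?_, univrep_ext X fun n => ?_⟩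
  · rw [univrep_p_apply X h, map_zero]
    exact (tautRep_rigid X.D (X.Imin n) (X.good n).rel).1
  · rw [univrep_p_apply X h, map_one]
    exact (tautRep_rigid X.D (X.Imin n) (X.good n).rel).2.1
  · rw [univrep_p_apply X h, AlgHom.commutes]
    exact (tautRep_rigid X.D (X.Imin n) (X.good n).rel).2.2

/-- The universal representation is of type `𝒟`. -/
theorem IsUnivRep.type (h𝒟 : IsDeformationCondition 𝒪 𝒟) {rU : GQ →* M2 X.T.R}
    (h : X.IsUnivRep rU) (hc : MatCont rU) : 𝒟 (ofMat rU hc) := by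
  rw [h𝒟.iff_forall_surjective X.T.isLocalHom X.T.residue_surjective]
  intro B _ _ _ hB q hq _
  have := hB.isArtinian
  obtain ⟨n, hn⟩ := IsArtinianRing.isNilpotent_jacobson_bot (R := B)
  rw [jacobson_eq_maximalIdeal _ bot_ne_top] at hn
  have := (X.good n).isLocalRing
  have hpow : maximalIdeal B ^ (n + 2) = ⊥ := by
    rw [pow_add, hn]
    exact Ideal.bot_mul _
  have hker : ∀ u : X.T.R, X.T.p n u = 0 → q u = 0 := by
    intro u hu
    have h1 := univrep_map_mem_pow (q : X.T.R →+* B) hq (n + 2)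
      ((univrep_mem_pow_iff X n u).mpr hu)
    rw [hpow, Ideal.mem_bot] at h1
    exact h1
  have hle : ∀ a : PolyRing 𝒪, a ∈ X.Imin n → (q.comp (evRep (𝒪 := 𝒪) rU)) a = 0 := by
    intro a ha
    rw [AlgHom.comp_apply]
    apply hker
    have hv : X.T.p n (evRep (𝒪 := 𝒪) rU a) = Ideal.Quotient.mk (X.Imin n) a :=
      DFunLike.congr_fun (univrep_p_comp_evRep X h n) a
    rw [hv, Ideal.Quotient.eq_zero_iff_mem]
    exact ha
  let q' : (PolyRing 𝒪 ⧸ X.Imin n) →ₐ[𝒪] B :=
    Ideal.Quotient.liftₐ (X.Imin n) (q.comp (evRep (𝒪 := 𝒪) rU)) hle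
  have hq' : IsLocalHom (q' : (PolyRing 𝒪 ⧸ X.Imin n) →+* B) :=
    isLocalHom_of_nilpotent _ (n + 2) (X.good n).maximalIdeal_pow
  have hmap : mapRep (q : X.T.R →+* B) rU =
      mapRep (q' : (PolyRing 𝒪 ⧸ X.Imin n) →+* B) (tautRep X.D (X.Imin n) (X.good n).rel) := by
    ext σ i j
    rw [mapRep_apply_apply, mapRep_apply_apply, tautRep_apply]
    show q (rU σ i j) = q' (Ideal.Quotient.mk (X.Imin n) (MvPolynomial.X (σ, i, j)))
    have e1 : q' (Ideal.Quotient.mk (X.Imin n) (MvPolynomial.X (σ, i, j))) =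
        (q.comp (evRep (𝒪 := 𝒪) rU)) (MvPolynomial.X (σ, i, j)) := rfl
    rw [e1, AlgHom.comp_apply, evRep_X]
  have hct : MatCont (tautRep X.D (X.Imin n) (X.good n).rel) := (X.good n).matCont
  have hc1 : MatCont (mapRep (q : X.T.R →+* B) rU) := matCont_mapRep _ hq hc
  have hc2 : MatCont (mapRep (q' : (PolyRing 𝒪 ⧸ X.Imin n) →+* B)
      (tautRep X.D (X.Imin n) (X.good n).rel)) := matCont_mapRep _ hq' hct
  have hA : IsArtinianTestAlgebra 𝒪 (PolyRing 𝒪 ⧸ X.Imin n) :=
    (X.good n).isTestAlg.isArtinianTestAlgebra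
  have h1 : 𝒟 ((ofMat (tautRep X.D (X.Imin n) (X.good n).rel) hct).baseChangeAlong
      (q' : (PolyRing 𝒪 ⧸ X.Imin n) →+* B) hq') :=
    h𝒟.baseChangeAlong hA hB q' hq' (X.good n).isDef.type
  have h2 : 𝒟 (ofMat (mapRep (q' : (PolyRing 𝒪 ⧸ X.Imin n) →+* B)
      (tautRep X.D (X.Imin n) (X.good n).rel)) hc2) :=
    h𝒟.of_isEquiv hB (ofMat_baseChangeAlong_isEquiv _ hq' _ hct hc2) h1
  have h3 : 𝒟 (ofMat (mapRep (q : X.T.R →+* B) rU) hc1) :=
    gooda_type_congr hmap.symm hc2 hc1 h2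
  exact h𝒟.of_isEquiv hB (isEquiv_symm (ofMat_baseChangeAlong_isEquiv _ hq rU hc hc1)) h3

/-- Two algebra maps out of the limit ring that kill a power of the maximal ideal and agree on
the entries of the universal representation are equal. -/
theorem IsUnivRep.algHom_ext {rU : GQ →* M2 X.T.R} (h : X.IsUnivRep rU) {B : Type} [CommRing B]
    [Algebra 𝒪 B] (g g' : X.T.R →ₐ[𝒪] B) (N : ℕ)
    (hg : maximalIdeal X.T.R ^ (N + 2) ≤ RingHom.ker (g : X.T.R →+* B))
    (hg' : maximalIdeal X.T.R ^ (N + 2) ≤ RingHom.ker (g' : X.T.R →+* B))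
    (hgg : ∀ σ i j, g (rU σ i j) = g' (rU σ i j)) : g = g' := by
  have hcomp : g.comp (evRep (𝒪 := 𝒪) rU) = g'.comp (evRep (𝒪 := 𝒪) rU) :=
    polyRing_algHom_ext fun σ i j => by
      rw [AlgHom.comp_apply, AlgHom.comp_apply, evRep_X]
      exact hgg σ i j
  refine AlgHom.ext fun u => ?_
  obtain ⟨q, hq⟩ := Ideal.Quotient.mk_surjective (X.T.p N u)
  have hv : X.T.p N (evRep (𝒪 := 𝒪) rU q) = Ideal.Quotient.mk (X.Imin N) q :=
    DFunLike.congr_fun (univrep_p_comp_evRep X h N) q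
  have hmem : u - evRep (𝒪 := 𝒪) rU q ∈ maximalIdeal X.T.R ^ (N + 2) := by
    rw [univrep_mem_pow_iff, map_sub, hv, hq, sub_self]
  have h1 : g (u - evRep (𝒪 := 𝒪) rU q) = 0 := hg hmem
  have h2 : g' (u - evRep (𝒪 := 𝒪) rU q) = 0 := hg' hmem
  have h3 : g (evRep (𝒪 := 𝒪) rU q) = g' (evRep (𝒪 := 𝒪) rU q) := DFunLike.congr_fun hcomp q
  rw [map_sub, sub_eq_zero] at h1 h2
  rw [h1, h2, h3]

/-- Two local algebra maps from the limit ring to a Noetherian local ring that agree on the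
entries of the universal representation are equal. -/
theorem IsUnivRep.algHom_ext_of_isLocalHom {rU : GQ →* M2 X.T.R} (h : X.IsUnivRep rU)
    {A : Type} [CommRing A] [IsLocalRing A] [IsNoetherianRing A] [Algebra 𝒪 A]
    (φ φ' : X.T.R →ₐ[𝒪] A) (hφ : IsLocalHom (φ : X.T.R →+* A))
    (hφ' : IsLocalHom (φ' : X.T.R →+* A))
    (hgg : ∀ σ i j, φ (rU σ i j) = φ' (rU σ i j)) : φ = φ' := by
  refine AlgHom.ext fun u => ?_
  rw [← sub_eq_zero]
  apply univrep_eq_zero_of_forall_mem_pow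
  intro N
  have key : (Ideal.Quotient.mkₐ 𝒪 (maximalIdeal A ^ (N + 2))).comp φ =
      (Ideal.Quotient.mkₐ 𝒪 (maximalIdeal A ^ (N + 2))).comp φ' := by
    refine h.algHom_ext _ _ N ?_ ?_ ?_
    · intro x hx
      rw [RingHom.mem_ker]
      show Ideal.Quotient.mk (maximalIdeal A ^ (N + 2)) (φ x) = 0
      rw [Ideal.Quotient.eq_zero_iff_mem]
      exact univrep_map_mem_pow (φ : X.T.R →+* A) hφ (N + 2) hx
    · intro x hx
      rw [RingHom.mem_ker]
      show Ideal.Quotient.mk (maximalIdeal A ^ (N + 2)) (φ' x) = 0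
      rw [Ideal.Quotient.eq_zero_iff_mem]
      exact univrep_map_mem_pow (φ' : X.T.R →+* A) hφ' (N + 2) hx
    · intro σ i j
      rw [AlgHom.comp_apply, AlgHom.comp_apply, hgg]
  have h1 : Ideal.Quotient.mk (maximalIdeal A ^ (N + 2)) (φ u) =
      Ideal.Quotient.mk (maximalIdeal A ^ (N + 2)) (φ' u) := DFunLike.congr_fun key u
  rw [← sub_eq_zero, ← map_sub, Ideal.Quotient.eq_zero_iff_mem] at h1
  exact h1

end TowerSetup

end Fermat.Agent.S53
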