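import Fermat.Agent.S53.Setup
import Fermat.Agent.S53.UnivRep
import Fermat.Agent.S53.Hom
import Fermat.Agent.S53.GoodA
import Fermat.Agent.S53.GoodB
import Fermat.Agent.S53.AbsIrr
import Fermat.Agent.S53.TangentBound

/-!
# S53: final assembly
-/

set_option autoImplicit false

open IsLocalRing GaloisRep MvPolynomial

namespace Fermat.Agent.S53

section Setup

variable {𝒪 : Type} [CommRing 𝒪] [IsLocalRing 𝒪] {ρbar : ResidualGaloisRep (ResidueField 𝒪)}
  {𝒟 : ∀ ⦃A : Type⦄ [CommRing A] [IsLocalRing A] [Algebra 𝒪 A], GaloisRepAdic A → Prop}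

theorem mk_comp_algebraMap_surjective (D : ResData 𝒪 ρbar) :
    Function.Surjective ((Ideal.Quotient.mk (maxId D)).comp (algebraMap 𝒪 (PolyRing 𝒪))) := by
  intro x
  obtain ⟨p, rfl⟩ := Ideal.Quotient.mk_surjective x
  obtain ⟨a, ha⟩ := residue_surjective (resPt D p)
  refine ⟨a, ?_⟩
  rw [RingHom.comp_apply, MvPolynomial.algebraMap_eq, Ideal.Quotient.eq, mem_maxId, map_sub,
    resPt_C, ha, sub_self]

theorem nonempty_towerSetup (h𝒟 : IsDeformationCondition 𝒪 𝒟) [IsNoetherianRing 𝒪]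
    [Finite (ResidueField 𝒪)] (ϖ : 𝒪) (hϖ : maximalIdeal 𝒪 = Ideal.span {ϖ})
    (habs : ρbar.IsAbsolutelyIrreducible)
    (hbar : 𝒟 (GaloisRepAdic.ofResidualGaloisRep ρbar))
    (hfin : GaloisRep.TangentFinite 𝒪 ρbar 𝒟) : Nonempty (TowerSetup 𝒪 ρbar 𝒟) := by
  obtain ⟨D⟩ := nonempty_resData 𝒪 ρbar habs
  obtain ⟨N₀, hN₀⟩ := tangent_bound 𝒪 ρbar 𝒟 hfin
  have hex : ∀ n : ℕ, ∃ I : Ideal (PolyRing 𝒪), IsGood D 𝒟 (n + 2) I ∧
      ∀ J, IsGood D 𝒟 (n + 2) J → I ≤ J :=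
    fun n => exists_minimal_isGood h𝒟 ϖ hϖ hN₀ hbar (n + 2) (by omega)
  choose Imin hgood hmin using hex
  have hmono : ∀ n, Imin (n + 1) ≤ Imin n := fun n =>
    hmin (n + 1) _ ((hgood n).mono (by omega))
  have hstep : ∀ n, Imin n = Imin (n + 1) ⊔ maxId D ^ (n + 2) := by
    intro n
    refine le_antisymm ?_ (sup_le (hmono n) (hgood n).pow_le)
    refine hmin n _ ((hgood (n + 1)).of_le h𝒟 le_sup_left
      (sup_le (hgood (n + 1)).le (Ideal.pow_le_self (by omega))) le_sup_right)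
  haveI := (hgood 0).isLocalRing
  obtain ⟨f₀, hf₀, hf₀X⟩ := (hgood 0).exists_surjective h𝒟 ϖ hϖ hN₀
  obtain ⟨T⟩ := nonempty_towerOut 𝒪 ϖ hϖ N₀ (PolyRing 𝒪) (maxId D) inferInstance
    (mk_comp_algebraMap_surjective D) Imin hmono hstep (fun n => (hgood n).le) f₀ hf₀ hf₀X
  exact ⟨⟨D, Imin, hgood, hmin, hmono, T⟩⟩

end Setup

section Main

theorem type_of_isEquiv_complete {𝒪 : Type} [CommRing 𝒪] [IsLocalRing 𝒪]
    {𝒟 : ∀ ⦃A : Type⦄ [CommRing A] [IsLocalRing A] [Algebra 𝒪 A], GaloisRepAdic A → Prop}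
    (h𝒟 : IsDeformationCondition 𝒪 𝒟)
    {A : Type} [CommRing A] [IsLocalRing A] [IsNoetherianRing A]
    [IsAdicComplete (maximalIdeal A) A] [Algebra 𝒪 A]
    (hloc : IsLocalHom (algebraMap 𝒪 A))
    (hres : Function.Surjective (residue A ∘ algebraMap 𝒪 A))
    {ρ ρ' : GaloisRepAdic A} (e : ρ.IsEquiv ρ') (h : 𝒟 ρ) : 𝒟 ρ' := by
  rw [h𝒟.iff_forall_surjective hloc hres] at h ⊢
  intro B _ _ _ hB q hq hsurj
  exact h𝒟.of_isEquiv hB (isEquiv_baseChangeAlong _ hq e) (h hB q hq hsurj)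

theorem main (𝒪 : Type) [CommRing 𝒪] [IsDomain 𝒪] [IsDiscreteValuationRing 𝒪]
    [IsAdicComplete (IsLocalRing.maximalIdeal 𝒪) 𝒪] [Finite (IsLocalRing.ResidueField 𝒪)]
    (ρbar : ResidualGaloisRep (IsLocalRing.ResidueField 𝒪))
    (𝒟 : ∀ ⦃A : Type⦄ [CommRing A] [IsLocalRing A] [Algebra 𝒪 A], GaloisRepAdic A → Prop)
    (habs : ρbar.IsAbsolutelyIrreducible)
    (h𝒟 : GaloisRep.IsDeformationCondition 𝒪 𝒟)
    (hbar : 𝒟 (GaloisRepAdic.ofResidualGaloisRep ρbar))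
    (hfin : GaloisRep.TangentFinite 𝒪 ρbar 𝒟) :
    Nonempty (GaloisRep.DeformationRingData 𝒪 ρbar 𝒟) := by
  obtain ⟨ϖ, hirr⟩ := IsDiscreteValuationRing.exists_irreducible 𝒪
  obtain ⟨X⟩ := nonempty_towerSetup h𝒟 ϖ hirr.maximalIdeal_eq habs hbar hfin
  obtain ⟨rU, hU⟩ := X.exists_isUnivRep
  have hc := hU.matCont
  have hlocR := X.T.isLocalHom
  refine ⟨{ R := X.T.R
            instIsLocalHom := X.T.isLocalHom
            residue_surjective := X.T.residue_surjective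
            absIrr := habs
            ρ := ofMat rU hc
            isOfType := hU.type h𝒟 hc
            residual_isEquiv := ?_
            universal := ?_ }⟩
  · exact residual_isEquiv_of_strict X.D (ResidueField.map (algebraMap 𝒪 X.T.R))
      (fun a => ResidueField.map_residue _ a) rU hc hU.strict
  · intro A _ _ _ _ _ hlocA hresA ρA hρA hresid
    obtain ⟨r, h, hs, hrig, e⟩ := exists_rigid_of_residual_isEquiv X.D
      (ResidueField.map (algebraMap 𝒪 A)) (fun a => ResidueField.map_residue _ a) ρA hresid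
    have hr : IsDef X.D 𝒟 r := ⟨h, hs, hrig, type_of_isEquiv_complete h𝒟 hlocA hresA e hρA⟩
    obtain ⟨φ, hφ, hφr⟩ := hU.exists_algHom h𝒟 hlocA hresA r hr
    refine ⟨φ, ⟨hφ, ?_⟩, ?_⟩
    · have h1 := ofMat_baseChangeAlong_isEquiv (φ : X.T.R →+* A) hφ rU hc
        (matCont_mapRep _ hφ hc)
      have h2 : (ofMat (mapRep (φ : X.T.R →+* A) rU) (matCont_mapRep _ hφ hc)).IsEquiv
          (ofMat r h) := by
        subst hφr
        exact isEquiv_refl _
      exact isEquiv_trans h1 (isEquiv_trans h2 (isEquiv_symm e))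
    · rintro φ' ⟨hφ', e'⟩
      have h1 := ofMat_baseChangeAlong_isEquiv (φ' : X.T.R →+* A) hφ' rU hc
        (matCont_mapRep _ hφ' hc)
      have h2 : (ofMat (mapRep (φ' : X.T.R →+* A) rU) (matCont_mapRep _ hφ' hc)).IsEquiv
          (ofMat r h) := isEquiv_trans (isEquiv_symm h1) (isEquiv_trans e' e)
      have h3 : mapRep (φ' : X.T.R →+* A) rU = r :=
        rigid_eq_of_isEquiv X.D _ _ _ h (hU.strict.map X.D φ' hφ') hs (hU.rigid.map X.D φ')
          hrig h2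
      refine hU.algHom_ext_of_isLocalHom φ' φ hφ' hφ fun σ i j => ?_
      have h4 := congrArg (fun ρ : GQ →* M2 A => ρ σ i j) (h3.trans hφr.symm)
      exact h4

end Main

end Fermat.Agent.S53
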