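import Mathlib
import Fermat.Prelude.Def_GaloisRep_DeformationRingData
import Fermat.Prelude.Def_GaloisRep_DeformationCondition

/-!
# S53: core definitions shared by all helper modules

Matrix-valued Galois representations `GQ →* M2 A` and their relation to `GaloisRepAdic`.
-/

set_option autoImplicit false

open IsLocalRing

namespace Fermat.Agent.S53

/-- The absolute Galois group of `ℚ`. -/
abbrev GQ : Type := AlgebraicClosure ℚ ≃ₐ[ℚ] AlgebraicClosure ℚ

/-- `2 × 2` matrices. -/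
abbrev M2 (A : Type) : Type := Matrix (Fin 2) (Fin 2) A

/-- Adic continuity of a matrix-valued representation. -/
def MatCont {A : Type} [CommRing A] [IsLocalRing A] (r : GQ →* M2 A) : Prop :=
  ∀ n : ℕ, ∃ L : IntermediateField ℚ (AlgebraicClosure ℚ), FiniteDimensional ℚ L ∧
    ∀ σ : GQ, (∀ x ∈ L, σ x = x) → ∀ i j, (r σ - 1) i j ∈ maximalIdeal A ^ n

theorem mem_pow_smul_top_of_forall {A : Type} [CommRing A] (I : Ideal A) (w : Fin 2 → A)
    (hw : ∀ i, w i ∈ I) : w ∈ I • (⊤ : Submodule A (Fin 2 → A)) := by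
  have : w = ∑ i, w i • (Pi.single i (1 : A) : Fin 2 → A) := by
    funext j
    simp [Finset.sum_apply, Pi.single_apply]
  rw [this]
  exact Submodule.sum_mem _ fun i _ => Submodule.smul_mem_smul (hw i) Submodule.mem_top

/-- The `GaloisRepAdic` attached to a continuous matrix-valued representation:
the module is `Fin 2 → A` and `σ` acts by `Matrix.toLin' (r σ)`. -/
noncomputable def ofMat {A : Type} [CommRing A] [IsLocalRing A] (r : GQ →* M2 A)
    (h : MatCont r) : GaloisRepAdic A where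
  V := Fin 2 → A
  finrank_eq := by simp
  ρ :=
    { toFun := fun σ => Matrix.toLin' (r σ)
      map_one' := by rw [map_one, Matrix.toLin'_one]; rfl
      map_mul' := fun σ τ => by rw [map_mul, Matrix.toLin'_mul]; rfl }
  isAdicContinuous := by
    intro n
    obtain ⟨L, hL, hσ⟩ := h n
    refine ⟨L, hL, fun σ hσL v => ?_⟩
    apply mem_pow_smul_top_of_forall
    intro i
    have h1 : (Matrix.toLin' (r σ) v - v) i = ∑ j, (r σ - 1) i j * v j := by
      have h2 : ∑ j, (1 : M2 A) i j * v j = v i := by simp [Matrix.one_apply]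
      have h3 : ∑ j, (r σ - 1) i j * v j = ∑ j, r σ i j * v j - ∑ j, (1 : M2 A) i j * v j := by
        rw [← Finset.sum_sub_distrib]
        exact Finset.sum_congr rfl fun j _ => by rw [Matrix.sub_apply, sub_mul]
      rw [h3, h2, Pi.sub_apply, Matrix.toLin'_apply]
      rfl
    show (Matrix.toLin' (r σ) v - v) i ∈ _
    rw [h1]
    exact Ideal.sum_mem _ fun j _ => Ideal.mul_mem_right _ _ (hσ σ hσL i j)

@[simp] theorem ofMat_ρ_apply {A : Type} [CommRing A] [IsLocalRing A] (r : GQ →* M2 A)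
    (h : MatCont r) (σ : GQ) : (ofMat r h).ρ σ = Matrix.toLin' (r σ) := rfl


section IsEquivLemmas

variable {A : Type} [CommRing A] [IsLocalRing A]

theorem isEquiv_refl (ρ : GaloisRepAdic A) : ρ.IsEquiv ρ := ⟨GaloisRepAdic.Equiv.refl ρ⟩

theorem isEquiv_symm {ρ₁ ρ₂ : GaloisRepAdic A} (h : ρ₁.IsEquiv ρ₂) : ρ₂.IsEquiv ρ₁ :=
  h.elim fun e => ⟨e.symm⟩

theorem isEquiv_trans {ρ₁ ρ₂ ρ₃ : GaloisRepAdic A} (h : ρ₁.IsEquiv ρ₂) (h' : ρ₂.IsEquiv ρ₃) :
    ρ₁.IsEquiv ρ₃ :=
  h.elim fun e => h'.elim fun e' => ⟨e.trans e'⟩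

theorem isEquiv_baseChangeAlong {B : Type} [CommRing B] [IsLocalRing B] (φ : A →+* B)
    (hφ : IsLocalHom φ) {ρ₁ ρ₂ : GaloisRepAdic A} (h : ρ₁.IsEquiv ρ₂) :
    (ρ₁.baseChangeAlong φ hφ).IsEquiv (ρ₂.baseChangeAlong φ hφ) :=
  h.elim fun e => ⟨e.baseChangeAlong φ hφ⟩

theorem ofMat_congr {r r' : GQ →* M2 A} (h : MatCont r) (hrr : r = r') :
    ofMat r h = ofMat r' (hrr ▸ h) := by
  subst hrr; rfl

end IsEquivLemmas

/-- Push a matrix-valued representation forward along a ring homomorphism. -/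
noncomputable def mapRep {A B : Type} [CommRing A] [CommRing B] (φ : A →+* B) (r : GQ →* M2 A) : GQ →* M2 B :=
  (φ.mapMatrix : M2 A →+* M2 B).toMonoidHom.comp r

@[simp] theorem mapRep_apply {A B : Type} [CommRing A] [CommRing B] (φ : A →+* B)
    (r : GQ →* M2 A) (σ : GQ) : mapRep φ r σ = (r σ).map φ := rfl

theorem mapRep_apply_apply {A B : Type} [CommRing A] [CommRing B] (φ : A →+* B)
    (r : GQ →* M2 A) (σ : GQ) (i j : Fin 2) : mapRep φ r σ i j = φ (r σ i j) := rfl

/-- The matrix representation of a residual representation in a basis. -/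
noncomputable def resMat {k : Type} [Field k] (ρbar : ResidualGaloisRep k)
    (b : Module.Basis (Fin 2) k ρbar.V) : GQ →* M2 k where
  toFun σ := LinearMap.toMatrix b b (ρbar.ρ σ)
  map_one' := by rw [map_one]; exact LinearMap.toMatrix_one b
  map_mul' σ τ := by rw [map_mul]; exact LinearMap.toMatrix_mul b _ _

@[simp] theorem resMat_apply {k : Type} [Field k] (ρbar : ResidualGaloisRep k)
    (b : Module.Basis (Fin 2) k ρbar.V) (σ : GQ) :
    resMat ρbar b σ = LinearMap.toMatrix b b (ρbar.ρ σ) := rfl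

/-- The residual data extracted from an absolutely irreducible residual representation:
a basis `b`, a set-theoretic lift `c` of the matrix entries to `𝒪`, two group elements
`g₀ g₁` and an index pair `(i₀, j₀)` such that `ρbar g₀` is a companion matrix in the basis `b`
and the `(i₀, j₀)` entry of the commutator of the lifts of `ρbar g₀`, `ρbar g₁` is a unit. -/
structure ResData (𝒪 : Type) [CommRing 𝒪] [IsLocalRing 𝒪]
    (ρbar : ResidualGaloisRep (ResidueField 𝒪)) : Type where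
  b : Module.Basis (Fin 2) (ResidueField 𝒪) ρbar.V
  c : GQ → M2 𝒪
  g₀ : GQ
  g₁ : GQ
  i₀ : Fin 2
  j₀ : Fin 2
  hc : ∀ σ i j, residue 𝒪 (c σ i j) = resMat ρbar b σ i j
  hc00 : c g₀ 0 0 = 0
  hc10 : c g₀ 1 0 = 1
  hunit : IsUnit ((c g₀ * c g₁ - c g₁ * c g₀) i₀ j₀)

section Lift

variable {𝒪 : Type} [CommRing 𝒪] [IsLocalRing 𝒪] {ρbar : ResidualGaloisRep (ResidueField 𝒪)}

/-- `r` is a strict lift of the residual representation: entrywise congruent to the chosen
lifts `D.c` modulo the maximal ideal. -/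
def IsStrictLift (D : ResData 𝒪 ρbar) {A : Type} [CommRing A] [IsLocalRing A] [Algebra 𝒪 A]
    (r : GQ →* M2 A) : Prop :=
  ∀ σ i j, r σ i j - algebraMap 𝒪 A (D.c σ i j) ∈ maximalIdeal A

/-- `r` is rigid: `r g₀` has first column `(0, 1)` and the `(i₀, j₀)` entry of `r g₁` is the
image of the chosen lift. -/
def IsRigid (D : ResData 𝒪 ρbar) {A : Type} [CommRing A] [Algebra 𝒪 A]
    (r : GQ →* M2 A) : Prop :=
  r D.g₀ 0 0 = 0 ∧ r D.g₀ 1 0 = 1 ∧ r D.g₁ D.i₀ D.j₀ = algebraMap 𝒪 A (D.c D.g₁ D.i₀ D.j₀)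

/-- `r` is a rigid strict lift of type `𝒟`. -/
structure IsDef (D : ResData 𝒪 ρbar)
    (𝒟 : ∀ ⦃A : Type⦄ [CommRing A] [IsLocalRing A] [Algebra 𝒪 A], GaloisRepAdic A → Prop)
    {A : Type} [CommRing A] [IsLocalRing A] [Algebra 𝒪 A] (r : GQ →* M2 A) : Prop where
  cont : MatCont r
  strict : IsStrictLift D r
  rigid : IsRigid D r
  type : 𝒟 (ofMat r cont)

end Lift

/-- The `𝒪`-algebra structure on the dual numbers over the residue field used in
`GaloisRep.TangentFinite`. -/
@[reducible] noncomputable def dualAlgebra (𝒪 : Type) [CommRing 𝒪] [IsLocalRing 𝒪] :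
    Algebra 𝒪 (DualNumber (ResidueField 𝒪)) :=
  ((algebraMap (ResidueField 𝒪) (DualNumber (ResidueField 𝒪))).comp
    (algebraMap 𝒪 (ResidueField 𝒪))).toAlgebra

end Fermat.Agent.S53
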