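import Fermat.Agent.S53.Core

/-!
# S53: dictionary between `GaloisRepAdic` and matrix-valued representations
-/

set_option autoImplicit false

open IsLocalRing
open scoped TensorProduct

namespace Fermat.Agent.S53

/-- Core dictionary lemma: two families of endomorphisms are intertwined by a linear equivalence
iff their matrices in given bases are conjugate by an invertible matrix. -/
theorem dict_core {K : Type} [CommRing K] {V₁ V₂ : Type} [AddCommGroup V₁] [Module K V₁]
    [AddCommGroup V₂] [Module K V₂] (B₁ : Module.Basis (Fin 2) K V₁)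
    (B₂ : Module.Basis (Fin 2) K V₂) (T₁ : GQ → Module.End K V₁) (T₂ : GQ → Module.End K V₂) :
    (∃ e : V₁ ≃ₗ[K] V₂, ∀ σ x, e (T₁ σ x) = T₂ σ (e x)) ↔
      ∃ g : M2 K, IsUnit g.det ∧
        ∀ σ, g * LinearMap.toMatrix B₁ B₁ (T₁ σ) = LinearMap.toMatrix B₂ B₂ (T₂ σ) * g := by
  constructor
  · rintro ⟨e, he⟩
    refine ⟨LinearMap.toMatrix B₁ B₂ e.toLinearMap, ?_, fun σ => ?_⟩
    · have h1 : LinearMap.toMatrix B₁ B₂ e.toLinearMap *
          LinearMap.toMatrix B₂ B₁ e.symm.toLinearMap = 1 := by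
        rw [← LinearMap.toMatrix_comp, LinearEquiv.comp_symm, LinearMap.toMatrix_id]
      exact Matrix.isUnit_det_of_right_inverse h1
    · rw [← LinearMap.toMatrix_comp, ← LinearMap.toMatrix_comp]
      congr 1
      ext x
      exact he σ x
  · rintro ⟨g, hg, hcomm⟩
    have hg' : IsUnit g := (Matrix.isUnit_iff_isUnit_det g).mpr hg
    obtain ⟨u, rfl⟩ := hg'
    have h1 : (u : M2 K) * ((u⁻¹ : (M2 K)ˣ) : M2 K) = 1 := u.mul_inv
    have h2 : ((u⁻¹ : (M2 K)ˣ) : M2 K) * (u : M2 K) = 1 := u.inv_mul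
    refine ⟨Matrix.toLinOfInv B₁ B₂ h1 h2, fun σ x => ?_⟩
    show Matrix.toLin B₁ B₂ (u : M2 K) (T₁ σ x) = T₂ σ (Matrix.toLin B₁ B₂ (u : M2 K) x)
    have h3 : (Matrix.toLin B₁ B₂ (u : M2 K)).comp (T₁ σ) =
        (T₂ σ).comp (Matrix.toLin B₁ B₂ (u : M2 K)) := by
      apply (LinearMap.toMatrix B₁ B₂).injective
      rw [LinearMap.toMatrix_comp B₁ B₁ B₂, LinearMap.toMatrix_comp B₁ B₂ B₂,
        LinearMap.toMatrix_toLin]
      exact hcomm σ
    exact LinearMap.congr_fun h3 x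

/-- Coordinates of an element of `I • ⊤` lie in `I`. -/
theorem dict_repr_mem {K : Type} [CommRing K] {V : Type} [AddCommGroup V] [Module K V]
    (b : Module.Basis (Fin 2) K V) (I : Ideal K) {w : V}
    (hw : w ∈ I • (⊤ : Submodule K V)) (i : Fin 2) : b.repr w i ∈ I := by
  refine Submodule.smul_induction_on (p := fun w => b.repr w i ∈ I) hw ?_ ?_
  · intro a ha v _
    rw [map_smul, Finsupp.smul_apply, smul_eq_mul]
    exact Ideal.mul_mem_right _ _ ha
  · intro x y hx hy
    rw [map_add, Finsupp.add_apply]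
    exact Ideal.add_mem _ hx hy

/-- Base-change version of the core lemma, for two modules over possibly different base rings. -/
theorem dict_baseChange_iff {R S K : Type} [CommRing R] [CommRing S] [CommRing K] [Algebra R K]
    [Algebra S K] {V₁ V₂ : Type} [AddCommGroup V₁] [Module R V₁] [AddCommGroup V₂] [Module S V₂]
    (b₁ : Module.Basis (Fin 2) R V₁) (b₂ : Module.Basis (Fin 2) S V₂)
    (T₁ : GQ → Module.End R V₁) (T₂ : GQ → Module.End S V₂) :
    (∃ e : K ⊗[R] V₁ ≃ₗ[K] K ⊗[S] V₂,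
        ∀ σ x, e ((T₁ σ).baseChange K x) = (T₂ σ).baseChange K (e x)) ↔
      ∃ g : M2 K, IsUnit g.det ∧
        ∀ σ, g * (LinearMap.toMatrix b₁ b₁ (T₁ σ)).map (algebraMap R K) =
          (LinearMap.toMatrix b₂ b₂ (T₂ σ)).map (algebraMap S K) * g := by
  have key := dict_core (Algebra.TensorProduct.basis K b₁) (Algebra.TensorProduct.basis K b₂)
    (fun σ => (T₁ σ).baseChange K) (fun σ => (T₂ σ).baseChange K)
  simp only [LinearMap.toMatrix_baseChange] at key
  exact key

/-- The base change of the standard representation attached to a family of matrices is the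
standard representation attached to the mapped matrices. -/
theorem dict_baseChange_std {R K : Type} [CommRing R] [CommRing K] [Algebra R K]
    (T : GQ → M2 R) (T' : GQ → M2 K) (hT : ∀ σ, T' σ = (T σ).map (algebraMap R K)) :
    ∃ e : K ⊗[R] (Fin 2 → R) ≃ₗ[K] (Fin 2 → K),
      ∀ σ x, e ((Matrix.toLin' (T σ)).baseChange K x) = Matrix.toLin' (T' σ) (e x) := by
  have key := dict_core (Algebra.TensorProduct.basis K (Pi.basisFun R (Fin 2)))
    (Pi.basisFun K (Fin 2))
    (fun σ => (Matrix.toLin' (T σ)).baseChange K) (fun σ => Matrix.toLin' (T' σ))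
  simp only [LinearMap.toMatrix_baseChange, LinearMap.toMatrix_eq_toMatrix',
    LinearMap.toMatrix'_toLin'] at key
  rw [key]
  exact ⟨1, by rw [Matrix.det_one]; exact isUnit_one, fun σ => by rw [one_mul, mul_one, hT σ]⟩

section

variable {A : Type} [CommRing A] [IsLocalRing A]

theorem matCont_mapRep {B : Type} [CommRing B] [IsLocalRing B] (φ : A →+* B)
    (hφ : IsLocalHom φ) {r : GQ →* M2 A} (h : MatCont r) : MatCont (mapRep φ r) := by
  intro n
  obtain ⟨L, hL, hσ⟩ := h n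
  refine ⟨L, hL, fun σ hσL i j => ?_⟩
  have hmap : (maximalIdeal A ^ n).map φ ≤ maximalIdeal B ^ n := by
    rw [Ideal.map_pow]
    exact Ideal.pow_right_mono (Ideal.map_le_iff_le_comap.mpr fun a ha =>
      Ideal.mem_comap.mpr (haveI := hφ; map_nonunit φ a ha)) n
  have h1 : (mapRep φ r σ - 1) i j = φ ((r σ - 1) i j) := by
    rw [Matrix.sub_apply, Matrix.sub_apply, map_sub, mapRep_apply_apply]
    congr 1
    by_cases hij : i = j
    · subst hij
      rw [Matrix.one_apply_eq, Matrix.one_apply_eq, map_one]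
    · rw [Matrix.one_apply_ne hij, Matrix.one_apply_ne hij, map_zero]
  rw [h1]
  exact hmap (Ideal.mem_map_of_mem φ (hσ σ hσL i j))

theorem ofMat_baseChangeAlong_isEquiv {B : Type} [CommRing B] [IsLocalRing B] (φ : A →+* B)
    (hφ : IsLocalHom φ) (r : GQ →* M2 A) (h : MatCont r) (h' : MatCont (mapRep φ r)) :
    ((ofMat r h).baseChangeAlong φ hφ).IsEquiv (ofMat (mapRep φ r) h') := by
  obtain ⟨e, he⟩ := @dict_baseChange_std A B _ _ φ.toAlgebra (fun σ => r σ)
    (fun σ => mapRep φ r σ) (fun σ => rfl)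
  exact ⟨⟨e, he⟩⟩

theorem ofMat_isEquiv_iff (r r' : GQ →* M2 A) (h : MatCont r) (h' : MatCont r') :
    (ofMat r h).IsEquiv (ofMat r' h') ↔
      ∃ g : M2 A, IsUnit g.det ∧ ∀ σ, g * r σ = r' σ * g := by
  have key := dict_core (Pi.basisFun A (Fin 2)) (Pi.basisFun A (Fin 2))
    (fun σ => Matrix.toLin' (r σ)) (fun σ => Matrix.toLin' (r' σ))
  simp only [LinearMap.toMatrix_eq_toMatrix', LinearMap.toMatrix'_toLin'] at key
  rw [← key]
  constructor
  · rintro ⟨e⟩
    exact ⟨e.toLinearEquiv, e.map_apply⟩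
  · rintro ⟨e, he⟩
    exact ⟨⟨e, he⟩⟩

theorem exists_isEquiv_ofMat (ρ : GaloisRepAdic A) :
    ∃ (r : GQ →* M2 A) (h : MatCont r), ρ.IsEquiv (ofMat r h) := by
  let b : Module.Basis (Fin 2) A ρ.V := Module.finBasisOfFinrankEq A ρ.V ρ.finrank_eq
  let r : GQ →* M2 A :=
    { toFun := fun σ => LinearMap.toMatrix b b (ρ.ρ σ)
      map_one' := by rw [map_one]; exact LinearMap.toMatrix_one b
      map_mul' := fun σ τ => by rw [map_mul]; exact LinearMap.toMatrix_mul b _ _ }
  have hr : MatCont r := by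
    intro n
    obtain ⟨L, hL, hσ⟩ := ρ.isAdicContinuous n
    refine ⟨L, hL, fun σ hσL i j => ?_⟩
    have h1 : (r σ - 1) i j = b.repr (ρ.ρ σ (b j) - b j) i := by
      have h2 : (1 : M2 A) i j = b.repr (b j) i := by
        rw [← LinearMap.toMatrix_one b, LinearMap.toMatrix_apply, Module.End.one_apply]
      rw [Matrix.sub_apply, h2, map_sub, Finsupp.sub_apply]
      congr 1
      exact LinearMap.toMatrix_apply b b (ρ.ρ σ) i j
    rw [h1]
    exact dict_repr_mem b _ (hσ σ hσL (b j)) i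
  refine ⟨r, hr, ⟨⟨b.equivFun, fun σ x => ?_⟩⟩⟩
  show b.equivFun (ρ.ρ σ x) = Matrix.toLin' (LinearMap.toMatrix b b (ρ.ρ σ)) (b.equivFun x)
  rw [Matrix.toLin'_apply]
  exact (LinearMap.toMatrix_mulVec_repr b b (ρ.ρ σ) x).symm

theorem ofMat_residual_isEquiv_iff {k : Type} [Field k] (ρbar : ResidualGaloisRep k)
    (b : Module.Basis (Fin 2) k ρbar.V) (ψ : k →+* ResidueField A) (r : GQ →* M2 A)
    (h : MatCont r) :
    (ofMat r h).residual.IsEquiv (ρbar.baseChangeAlong ψ) ↔
      ∃ g : M2 (ResidueField A), IsUnit g.det ∧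
        ∀ σ, g * (r σ).map (residue A) = (resMat ρbar b σ).map ψ * g := by
  have key := @dict_baseChange_iff A k (ResidueField A) _ _ _ _ ψ.toAlgebra _ _ _ _ _ _
    (Pi.basisFun A (Fin 2)) b (fun σ => Matrix.toLin' (r σ)) (fun σ => ρbar.ρ σ)
  simp only [LinearMap.toMatrix_eq_toMatrix', LinearMap.toMatrix'_toLin'] at key
  refine Iff.trans ?_ key
  constructor
  · rintro ⟨e⟩
    exact ⟨e.toLinearEquiv, e.map_apply⟩
  · rintro ⟨e, he⟩
    exact ⟨⟨e, he⟩⟩

end

theorem matCont_resMat {k : Type} [Field k] (ρbar : ResidualGaloisRep k)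
    (b : Module.Basis (Fin 2) k ρbar.V) : MatCont (resMat ρbar b) := by
  intro n
  obtain ⟨L, hL, h1⟩ := ρbar.factorsThroughFiniteLevel
  refine ⟨L, hL, fun σ hσ i j => ?_⟩
  rw [resMat_apply, h1 σ hσ, LinearMap.toMatrix_one, sub_self]
  exact Ideal.zero_mem _

theorem ofResidualGaloisRep_isEquiv_ofMat {k : Type} [Field k] (ρbar : ResidualGaloisRep k)
    (b : Module.Basis (Fin 2) k ρbar.V) (h : MatCont (resMat ρbar b)) :
    (GaloisRepAdic.ofResidualGaloisRep ρbar).IsEquiv (ofMat (resMat ρbar b) h) := by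
  refine ⟨⟨b.equivFun, fun σ x => ?_⟩⟩
  show b.equivFun (ρbar.ρ σ x) =
    Matrix.toLin' (LinearMap.toMatrix b b (ρbar.ρ σ)) (b.equivFun x)
  rw [Matrix.toLin'_apply]
  exact (LinearMap.toMatrix_mulVec_repr b b (ρbar.ρ σ) x).symm

end Fermat.Agent.S53
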