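import Fermat.Agent.S53.Core

/-!
# S53: rigidification of strict lifts (matrix algebra over local rings + Hensel)
-/

set_option autoImplicit false

open IsLocalRing

namespace Fermat.Agent.S53

variable {𝒪 : Type} [CommRing 𝒪] [IsLocalRing 𝒪] {ρbar : ResidualGaloisRep (ResidueField 𝒪)}

/-! ### Matrices with entries in an ideal, conjugation -/

section Basic

variable {A : Type} [CommRing A]

/-- A matrix has all its entries in `I` iff it maps to zero modulo `I`. -/
theorem rigid_map_eq_zero_iff (I : Ideal A) (X : M2 A) :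
    (Ideal.Quotient.mk I).mapMatrix X = 0 ↔ ∀ i j, X i j ∈ I := by
  constructor
  · intro h i j
    have h1 := congrFun (congrFun h i) j
    rw [RingHom.mapMatrix_apply, Matrix.map_apply, Matrix.zero_apply] at h1
    exact Ideal.Quotient.eq_zero_iff_mem.mp h1
  · intro h
    ext i j
    rw [RingHom.mapMatrix_apply, Matrix.map_apply, Matrix.zero_apply]
    exact Ideal.Quotient.eq_zero_iff_mem.mpr (h i j)

/-- Entrywise criterion for `g - 1` to have entries in `I`. -/
theorem rigid_sub_one_mem (I : Ideal A) (g : M2 A) (h00 : g 0 0 - 1 ∈ I) (h01 : g 0 1 ∈ I)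
    (h10 : g 1 0 ∈ I) (h11 : g 1 1 - 1 ∈ I) : ∀ i j, (g - 1) i j ∈ I := by
  intro i j
  fin_cases i <;> fin_cases j
  · simpa using h00
  · simpa using h01
  · simpa using h10
  · simpa using h11

/-- Conjugating by a matrix congruent to `1` modulo `I` does not change a matrix modulo `I`. -/
theorem rigid_conj_sub_mem (I : Ideal A) (g h X : M2 A) (hgh : g * h = 1)
    (hg1 : ∀ i j, (g - 1) i j ∈ I) : ∀ i j, (g * X * h - X) i j ∈ I := by
  rw [← rigid_map_eq_zero_iff] at hg1 ⊢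
  rw [map_sub, map_one, sub_eq_zero] at hg1
  have hh : (Ideal.Quotient.mk I).mapMatrix h = 1 := by
    have h2 := congrArg (Ideal.Quotient.mk I).mapMatrix hgh
    rwa [map_mul, hg1, one_mul, map_one] at h2
  rw [map_sub, map_mul, map_mul, hg1, hh, one_mul, mul_one, sub_self]

/-- Conjugation preserves congruence to `1` modulo `I`. -/
theorem rigid_conj_sub_one_mem (I : Ideal A) (g h X : M2 A) (hgh : g * h = 1)
    (hX : ∀ i j, (X - 1) i j ∈ I) : ∀ i j, (g * X * h - 1) i j ∈ I := by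
  rw [← rigid_map_eq_zero_iff] at hX ⊢
  rw [map_sub, map_one, sub_eq_zero] at hX
  rw [map_sub, map_mul, map_mul, hX, mul_one, ← map_mul, hgh, map_one, sub_self]

/-- The conjugate `σ ↦ g * r σ * h` of a matrix representation, where `h` is inverse to `g`. -/
noncomputable def rigid_conj (g h : M2 A) (hgh : g * h = 1) (hhg : h * g = 1) (r : GQ →* M2 A) :
    GQ →* M2 A where
  toFun σ := g * r σ * h
  map_one' := by rw [map_one, mul_one, hgh]
  map_mul' σ τ := by
    rw [map_mul]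
    calc g * (r σ * r τ) * h = g * r σ * (1 : M2 A) * (r τ * h) := by
          simp only [mul_one, mul_assoc]
      _ = g * r σ * h * (g * r τ * h) := by rw [← hhg]; simp only [mul_assoc]

theorem rigid_conj_apply (g h : M2 A) (hgh : g * h = 1) (hhg : h * g = 1) (r : GQ →* M2 A)
    (σ : GQ) : rigid_conj g h hgh hhg r σ = g * r σ * h := rfl

theorem rigid_conj_comm (g h : M2 A) (hgh : g * h = 1) (hhg : h * g = 1) (r : GQ →* M2 A)
    (σ : GQ) : g * r σ = rigid_conj g h hgh hhg r σ * g := by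
  rw [rigid_conj_apply, mul_assoc, hhg, mul_one]

theorem rigid_isUnit_det_of_mul_eq_one (g h : M2 A) (hgh : g * h = 1) : IsUnit g.det := by
  apply IsUnit.of_mul_eq_one (Matrix.det h)
  rw [← Matrix.det_mul, hgh, Matrix.det_one]

end Basic

/-! ### `2 × 2` matrix algebra -/

section Mat

variable {A : Type} [CommRing A]

/-- Key polynomial identity for the conjugate of `N` by `1 + t • M`. -/
theorem rigid_key (M N : M2 A) (t cc : A) (i j : Fin 2) :
    ((1 + t • M) * N * Matrix.adjugate (1 + t • M) : M2 A) i j - cc * Matrix.det (1 + t • M) =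
      (N i j - cc) + ((M * N - N * M : M2 A) i j + Matrix.trace M * (N i j - cc)) * t +
        ((M * N * Matrix.adjugate M : M2 A) i j - cc * Matrix.det M) * t ^ 2 := by
  fin_cases i <;> fin_cases j <;>
    simp [Matrix.adjugate_fin_two, Matrix.det_fin_two, Matrix.trace_fin_two, Matrix.mul_apply,
      Fin.sum_univ_two] <;> ring

theorem rigid_det_one_add_smul (M : M2 A) (t : A) :
    Matrix.det (1 + t • M) = 1 + t * (Matrix.trace M + t * Matrix.det M) := by
  simp [Matrix.det_fin_two, Matrix.trace_fin_two]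
  ring

theorem rigid_one_add_smul_comm (M : M2 A) (t : A) : (1 + t • M) * M = M * (1 + t • M) := by
  rw [add_mul, mul_add, one_mul, mul_one, smul_mul_assoc, mul_smul_comm]

/-- Two conjugate matrices with first column `(0, 1)` are equal. -/
theorem rigid_companion_eq (M M' g : M2 A) (hg : IsUnit g.det) (hconj : g * M = M' * g)
    (h00 : M 0 0 = 0) (h10 : M 1 0 = 1) (h00' : M' 0 0 = 0) (h10' : M' 1 0 = 1) : M' = M := by
  have hdet : Matrix.det M' = Matrix.det M := by
    have h1 : g.det * M.det = g.det * M'.det := by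
      rw [← Matrix.det_mul, hconj, Matrix.det_mul, mul_comm]
    exact (hg.mul_left_cancel h1).symm
  have htr : Matrix.trace M' = Matrix.trace M := by
    have h1 : g.det * Matrix.trace M = g.det * Matrix.trace M' := by
      have e1 : Matrix.trace (Matrix.adjugate g * (g * M)) = g.det * Matrix.trace M := by
        rw [← mul_assoc, Matrix.adjugate_mul, Matrix.smul_mul, one_mul, Matrix.trace_smul,
          smul_eq_mul]
      have e2 : Matrix.trace (Matrix.adjugate g * (M' * g)) = g.det * Matrix.trace M' := by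
        rw [Matrix.trace_mul_comm, mul_assoc, Matrix.mul_adjugate, Matrix.mul_smul, mul_one,
          Matrix.trace_smul, smul_eq_mul]
      rw [← e1, ← e2, hconj]
    exact (hg.mul_left_cancel h1).symm
  rw [Matrix.det_fin_two, Matrix.det_fin_two, h00, h10, h00', h10'] at hdet
  rw [Matrix.trace_fin_two, Matrix.trace_fin_two, h00, h00'] at htr
  ext i j
  fin_cases i <;> fin_cases j
  · exact h00'.trans h00.symm
  · show M' 0 1 = M 0 1
    linear_combination -hdet
  · exact h10'.trans h10.symm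
  · show M' 1 1 = M 1 1
    linear_combination htr

/-- A matrix commuting with a matrix `M` with first column `(0, 1)` is of the form `x + y M`. -/
theorem rigid_commute_form (M g : M2 A) (h00 : M 0 0 = 0) (h10 : M 1 0 = 1)
    (hcomm : g * M = M * g) : g = g 0 0 • (1 : M2 A) + g 1 0 • M := by
  have e0 := congrFun (congrFun hcomm 0) 0
  have e1 := congrFun (congrFun hcomm 1) 0
  simp only [Matrix.mul_apply, Fin.sum_univ_two, h00, h10] at e0 e1
  ext i j
  fin_cases i <;> fin_cases j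
  · simp [h00]
  · simp; linear_combination e0
  · simp [h10]
  · simp; linear_combination e1

/-- If `x + y M` intertwines `N` and `N'`, then `x (N - N') = y (N' M - M N)`. -/
theorem rigid_intertwine (M N N' : M2 A) (x y : A)
    (h : (x • (1 : M2 A) + y • M) * N = N' * (x • (1 : M2 A) + y • M)) (i j : Fin 2) :
    x * (N i j - N' i j) = y * (N' * M - M * N) i j := by
  have h1 : x • (N - N') = y • (N' * M - M * N) := by
    rw [add_mul, mul_add, smul_mul_assoc, smul_mul_assoc, mul_smul_comm, mul_smul_comm,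
      one_mul, mul_one] at h
    rw [smul_sub, smul_sub, sub_eq_sub_iff_add_eq_add, h, add_comm]
  have h2 := congrFun (congrFun h1 i) j
  simpa using h2

/-- The explicit inverse pair used to put `r g₀` in companion form. -/
theorem rigid_step1_mul (a b b' : A) (hb : b * b' = 1) :
    (!![1, -a * b'; 0, b'] : M2 A) * !![1, a; 0, b] = 1 ∧
      (!![1, a; 0, b] : M2 A) * !![1, -a * b'; 0, b'] = 1 := by
  have e1 : (1 : A) * 1 + -a * b' * 0 = 1 := by ring
  have e2 : 1 * a + -a * b' * b = 0 := by linear_combination (-a) * hb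
  have e3 : (0 : A) * 1 + b' * 0 = 0 := by ring
  have e4 : 0 * a + b' * b = 1 := by linear_combination hb
  have h1 : (!![1, -a * b'; 0, b'] : M2 A) * !![1, a; 0, b] = 1 := by
    rw [Matrix.mul_fin_two, Matrix.one_fin_two, e1, e2, e3, e4]
  exact ⟨h1, mul_eq_one_comm.mp h1⟩

/-- After conjugation, the first column of `M` becomes `(0, 1)`. -/
theorem rigid_step1_col (g M h : M2 A) (b' : A) (hb : M 1 0 * b' = 1)
    (g00 : g 0 0 = 1) (g01 : g 0 1 = -(M 0 0) * b') (g10 : g 1 0 = 0) (g11 : g 1 1 = b')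
    (h00 : h 0 0 = 1) (h10 : h 1 0 = 0) :
    (g * M * h) 0 0 = 0 ∧ (g * M * h) 1 0 = 1 := by
  constructor
  · simp only [Matrix.mul_apply, Fin.sum_univ_two, g00, g01, h00, h10]
    linear_combination (-(M 0 0)) * hb
  · simp only [Matrix.mul_apply, Fin.sum_univ_two, g10, g11, h00, h10]
    linear_combination hb

end Mat

/-! ### Local rings: units and Hensel's lemma -/

section Local

variable {A : Type} [CommRing A] [IsLocalRing A]

/-- In a local ring, an element congruent to a unit modulo the maximal ideal is a unit. -/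
theorem rigid_isUnit_of_sub_mem {u x : A} (hu : IsUnit u) (hx : x - u ∈ maximalIdeal A) :
    IsUnit x := by
  by_contra hx'
  have h1 : x ∈ maximalIdeal A := by
    by_contra h2
    exact hx' (notMem_maximalIdeal.mp h2)
  have h3 : u ∈ maximalIdeal A := by
    have : u = x - (x - u) := by ring
    rw [this]
    exact Ideal.sub_mem _ h1 hx
  exact (notMem_maximalIdeal.mpr hu) h3

/-- Hensel: for `e` in the maximal ideal, `z^2 - z + e` has a root congruent to `1`. -/
theorem rigid_hensel_aux [IsAdicComplete (maximalIdeal A) A] (e : A) (he : e ∈ maximalIdeal A) :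
    ∃ z : A, z ^ 2 + (-1 * z + e) = 0 ∧ z - 1 ∈ maximalIdeal A := by
  have hmonic : (Polynomial.X ^ 2 + (Polynomial.C (-1) * Polynomial.X +
      Polynomial.C e) : Polynomial A).Monic :=
    Polynomial.monic_X_pow_add Polynomial.degree_linear_lt
  have heval : (Polynomial.X ^ 2 + (Polynomial.C (-1) * Polynomial.X +
      Polynomial.C e) : Polynomial A).eval 1 ∈ maximalIdeal A := by
    have : (Polynomial.X ^ 2 + (Polynomial.C (-1) * Polynomial.X +
      Polynomial.C e) : Polynomial A).eval 1 = e := by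
      simp
    rw [this]
    exact he
  have hder : IsUnit (Ideal.Quotient.mk (maximalIdeal A)
      ((Polynomial.derivative (Polynomial.X ^ 2 + (Polynomial.C (-1) * Polynomial.X +
      Polynomial.C e) : Polynomial A)).eval 1)) := by
    have : (Polynomial.derivative (Polynomial.X ^ 2 + (Polynomial.C (-1) * Polynomial.X +
      Polynomial.C e) : Polynomial A)).eval 1 = 1 := by
      simp
    rw [this, map_one]
    exact isUnit_one
  obtain ⟨z, hz, hz1⟩ := HenselianRing.is_henselian _ hmonic 1 heval hder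
  refine ⟨z, ?_, hz1⟩
  simpa [Polynomial.IsRoot.def] using hz

/-- Hensel: a quadratic `c0 + c1 t + c2 t^2` with `c0` in the maximal ideal and `c1` a unit
has a root in the maximal ideal. -/
theorem rigid_quadratic_root [IsAdicComplete (maximalIdeal A) A]
    (c0 c1 c2 : A) (h0 : c0 ∈ maximalIdeal A) (h1 : IsUnit c1) :
    ∃ t ∈ maximalIdeal A, c0 + c1 * t + c2 * t ^ 2 = 0 := by
  obtain ⟨v, hv⟩ := h1.exists_right_inv
  have he : c0 * c2 * v ^ 2 ∈ maximalIdeal A :=
    Ideal.mul_mem_right _ _ (Ideal.mul_mem_right _ _ h0)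
  obtain ⟨z, h3, hz1⟩ := rigid_hensel_aux _ he
  have hzu : IsUnit z := rigid_isUnit_of_sub_mem isUnit_one hz1
  obtain ⟨z', hz'⟩ := hzu.exists_right_inv
  refine ⟨-c0 * v * z', ?_, ?_⟩
  · have : -c0 * v * z' = c0 * (-v * z') := by ring
    rw [this]
    exact Ideal.mul_mem_right _ _ h0
  · linear_combination (-c0 * z') * hv + (c0 * z' ^ 2) * h3 -
      (c0 * (1 + z * z') - c0 * z') * hz'

theorem rigid_conj_cont (g h : M2 A) (hgh : g * h = 1) (hhg : h * g = 1) (r : GQ →* M2 A) :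
    MatCont r → MatCont (rigid_conj g h hgh hhg r) := by
  intro hc n
  obtain ⟨L, hL, hσ⟩ := hc n
  refine ⟨L, hL, fun σ hσL => ?_⟩
  rw [rigid_conj_apply]
  exact rigid_conj_sub_one_mem _ g h (r σ) hgh (hσ σ hσL)

end Local

/-! ### Strict lifts -/

section Strict

variable {A : Type} [CommRing A] [IsLocalRing A] [Algebra 𝒪 A]

theorem rigid_conj_strict (D : ResData 𝒪 ρbar) (r : GQ →* M2 A) (hs : IsStrictLift D r)
    (g h : M2 A) (hgh : g * h = 1) (hhg : h * g = 1)
    (hg1 : ∀ i j, (g - 1) i j ∈ maximalIdeal A) :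
    IsStrictLift D (rigid_conj g h hgh hhg r) := by
  intro σ i j
  have h1 := rigid_conj_sub_mem _ g h (r σ) hgh hg1 i j
  have h2 := hs σ i j
  have h3 : rigid_conj g h hgh hhg r σ i j - algebraMap 𝒪 A (D.c σ i j) =
      (g * r σ * h - r σ) i j + (r σ i j - algebraMap 𝒪 A (D.c σ i j)) := by
    rw [rigid_conj_apply, Matrix.sub_apply]; ring
  rw [h3]
  exact Ideal.add_mem _ h1 h2

/-- Strict lifts agree modulo the maximal ideal with the image of the chosen lifts. -/
theorem rigid_strict_map (D : ResData 𝒪 ρbar) (r : GQ →* M2 A) (hs : IsStrictLift D r) (σ : GQ) :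
    (Ideal.Quotient.mk (maximalIdeal A)).mapMatrix (r σ) =
      ((Ideal.Quotient.mk (maximalIdeal A)).comp (algebraMap 𝒪 A)).mapMatrix (D.c σ) := by
  ext i j
  rw [RingHom.mapMatrix_apply, RingHom.mapMatrix_apply, Matrix.map_apply, Matrix.map_apply,
    RingHom.comp_apply]
  exact (Ideal.Quotient.mk_eq_mk_iff_sub_mem _ _).mpr (hs σ i j)

/-- Fact U: the `(i₀, j₀)` entry of the commutator of `r g₀`, `r g₁` is a unit. -/
theorem rigid_comm_isUnit (D : ResData 𝒪 ρbar) (r : GQ →* M2 A) (hs : IsStrictLift D r) :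
    IsUnit ((r D.g₀ * r D.g₁ - r D.g₁ * r D.g₀) D.i₀ D.j₀) := by
  have hu : IsUnit (algebraMap 𝒪 A ((D.c D.g₀ * D.c D.g₁ - D.c D.g₁ * D.c D.g₀) D.i₀ D.j₀)) :=
    D.hunit.map _
  refine rigid_isUnit_of_sub_mem hu ?_
  have h1 : (Ideal.Quotient.mk (maximalIdeal A)).mapMatrix (r D.g₀ * r D.g₁ - r D.g₁ * r D.g₀) =
      ((Ideal.Quotient.mk (maximalIdeal A)).comp (algebraMap 𝒪 A)).mapMatrix
        (D.c D.g₀ * D.c D.g₁ - D.c D.g₁ * D.c D.g₀) := by
    simp only [map_sub, map_mul, rigid_strict_map D r hs]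
  have h2 := congrFun (congrFun h1 D.i₀) D.j₀
  rw [RingHom.mapMatrix_apply, RingHom.mapMatrix_apply, Matrix.map_apply, Matrix.map_apply,
    RingHom.comp_apply] at h2
  exact (Ideal.Quotient.mk_eq_mk_iff_sub_mem _ _).mp h2

/-- A variant of fact U mixing two strict lifts. -/
theorem rigid_cross_isUnit (D : ResData 𝒪 ρbar) (r r' : GQ →* M2 A) (hs : IsStrictLift D r)
    (hs' : IsStrictLift D r') :
    IsUnit ((r' D.g₁ * r D.g₀ - r D.g₀ * r D.g₁) D.i₀ D.j₀) := by
  have hu := (rigid_comm_isUnit D r hs).neg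
  refine rigid_isUnit_of_sub_mem hu ?_
  have h1 : (Ideal.Quotient.mk (maximalIdeal A)).mapMatrix
      (r' D.g₁ * r D.g₀ - r D.g₀ * r D.g₁ + (r D.g₀ * r D.g₁ - r D.g₁ * r D.g₀)) = 0 := by
    simp only [map_add, map_sub, map_mul, rigid_strict_map D r hs, rigid_strict_map D r' hs']
    abel
  have h2 := (rigid_map_eq_zero_iff _ _).mp h1 D.i₀ D.j₀
  have h3 : (r' D.g₁ * r D.g₀ - r D.g₀ * r D.g₁) D.i₀ D.j₀ -
      -(r D.g₀ * r D.g₁ - r D.g₁ * r D.g₀) D.i₀ D.j₀ =
      (r' D.g₁ * r D.g₀ - r D.g₀ * r D.g₁ + (r D.g₀ * r D.g₁ - r D.g₁ * r D.g₀)) D.i₀ D.j₀ := by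
    rw [Matrix.add_apply]; ring
  rw [h3]
  exact h2

/-- Step 1: conjugate a strict lift so that `r g₀` has first column `(0, 1)`. -/
theorem rigid_step1 (D : ResData 𝒪 ρbar) (r : GQ →* M2 A) (hs : IsStrictLift D r) :
    ∃ r' : GQ →* M2 A, r' D.g₀ 0 0 = 0 ∧ r' D.g₀ 1 0 = 1 ∧ IsStrictLift D r' ∧
      (MatCont r → MatCont r') ∧ ∃ g : M2 A, IsUnit g.det ∧ ∀ σ, g * r σ = r' σ * g := by
  have ha : r D.g₀ 0 0 ∈ maximalIdeal A := by
    have := hs D.g₀ 0 0
    rwa [D.hc00, map_zero, sub_zero] at this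
  have hb : r D.g₀ 1 0 - 1 ∈ maximalIdeal A := by
    have := hs D.g₀ 1 0
    rwa [D.hc10, map_one] at this
  have hbu : IsUnit (r D.g₀ 1 0) := rigid_isUnit_of_sub_mem isUnit_one hb
  obtain ⟨b', hb'⟩ := hbu.exists_right_inv
  obtain ⟨hgh, hhg⟩ := rigid_step1_mul (r D.g₀ 0 0) (r D.g₀ 1 0) b' hb'
  have hg1 : ∀ i j, ((!![1, -(r D.g₀ 0 0) * b'; 0, b'] : M2 A) - 1) i j ∈ maximalIdeal A := by
    refine rigid_sub_one_mem _ _ ?_ ?_ ?_ ?_
    · show (1 : A) - 1 ∈ maximalIdeal A
      rw [sub_self]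
      exact zero_mem _
    · show -(r D.g₀ 0 0) * b' ∈ maximalIdeal A
      exact Ideal.mul_mem_right _ _ (neg_mem ha)
    · show (0 : A) ∈ maximalIdeal A
      exact zero_mem _
    · show b' - 1 ∈ maximalIdeal A
      have : b' - 1 = -(r D.g₀ 1 0 - 1) * b' := by linear_combination hb'
      rw [this]
      exact Ideal.mul_mem_right _ _ (neg_mem hb)
  have hcol := rigid_step1_col (!![1, -(r D.g₀ 0 0) * b'; 0, b'] : M2 A) (r D.g₀)
    (!![1, r D.g₀ 0 0; 0, r D.g₀ 1 0] : M2 A) b' hb' rfl rfl rfl rfl rfl rfl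
  exact ⟨rigid_conj _ _ hgh hhg r, hcol.1, hcol.2, rigid_conj_strict D r hs _ _ hgh hhg hg1,
    rigid_conj_cont _ _ hgh hhg r, _, rigid_isUnit_det_of_mul_eq_one _ _ hgh,
    rigid_conj_comm _ _ hgh hhg r⟩

/-- Step 2: conjugate a strict lift by `1 + t • r g₀` to normalise the `(i₀, j₀)` entry of
`r g₁`, keeping `r g₀` unchanged. -/
theorem rigid_step2 [IsAdicComplete (maximalIdeal A) A] (D : ResData 𝒪 ρbar) (r : GQ →* M2 A)
    (hs : IsStrictLift D r) :
    ∃ r' : GQ →* M2 A, r' D.g₀ = r D.g₀ ∧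
      r' D.g₁ D.i₀ D.j₀ = algebraMap 𝒪 A (D.c D.g₁ D.i₀ D.j₀) ∧ IsStrictLift D r' ∧
      (MatCont r → MatCont r') ∧ ∃ g : M2 A, IsUnit g.det ∧ ∀ σ, g * r σ = r' σ * g := by
  have h0 : r D.g₁ D.i₀ D.j₀ - algebraMap 𝒪 A (D.c D.g₁ D.i₀ D.j₀) ∈ maximalIdeal A :=
    hs D.g₁ D.i₀ D.j₀
  have hu : IsUnit ((r D.g₀ * r D.g₁ - r D.g₁ * r D.g₀) D.i₀ D.j₀) := rigid_comm_isUnit D r hs
  have h1 : IsUnit ((r D.g₀ * r D.g₁ - r D.g₁ * r D.g₀) D.i₀ D.j₀ + Matrix.trace (r D.g₀) *
      (r D.g₁ D.i₀ D.j₀ - algebraMap 𝒪 A (D.c D.g₁ D.i₀ D.j₀))) := by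
    refine rigid_isUnit_of_sub_mem hu ?_
    rw [add_sub_cancel_left]
    exact Ideal.mul_mem_left _ _ h0
  obtain ⟨t, ht, hroot⟩ := rigid_quadratic_root
    (r D.g₁ D.i₀ D.j₀ - algebraMap 𝒪 A (D.c D.g₁ D.i₀ D.j₀)) _
    ((r D.g₀ * r D.g₁ * Matrix.adjugate (r D.g₀) : M2 A) D.i₀ D.j₀ -
      algebraMap 𝒪 A (D.c D.g₁ D.i₀ D.j₀) * Matrix.det (r D.g₀)) h0 h1
  have hkey := rigid_key (r D.g₀) (r D.g₁) t (algebraMap 𝒪 A (D.c D.g₁ D.i₀ D.j₀)) D.i₀ D.j₀
  have hdet : IsUnit (Matrix.det (1 + t • r D.g₀)) := by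
    rw [rigid_det_one_add_smul]
    refine rigid_isUnit_of_sub_mem isUnit_one ?_
    rw [add_sub_cancel_left]
    exact Ideal.mul_mem_right _ _ ht
  obtain ⟨δ', hδ'⟩ := hdet.exists_right_inv
  have hgh : (1 + t • r D.g₀) * (δ' • Matrix.adjugate (1 + t • r D.g₀)) = 1 := by
    rw [Matrix.mul_smul, Matrix.mul_adjugate, smul_smul, mul_comm, hδ', one_smul]
  have hhg : (δ' • Matrix.adjugate (1 + t • r D.g₀)) * (1 + t • r D.g₀) = 1 := by
    rw [Matrix.smul_mul, Matrix.adjugate_mul, smul_smul, mul_comm, hδ', one_smul]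
  have hg1 : ∀ i j, ((1 + t • r D.g₀ : M2 A) - 1) i j ∈ maximalIdeal A := by
    intro i j
    rw [add_sub_cancel_left, Matrix.smul_apply, smul_eq_mul]
    exact Ideal.mul_mem_right _ _ ht
  refine ⟨rigid_conj _ _ hgh hhg r, ?_, ?_, rigid_conj_strict D r hs _ _ hgh hhg hg1,
    rigid_conj_cont _ _ hgh hhg r, _, hdet, rigid_conj_comm _ _ hgh hhg r⟩
  · rw [rigid_conj_apply, rigid_one_add_smul_comm, mul_assoc, hgh, mul_one]
  · rw [rigid_conj_apply, Matrix.mul_smul, Matrix.smul_apply, smul_eq_mul]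
    have h5 : ((1 + t • r D.g₀) * r D.g₁ * Matrix.adjugate (1 + t • r D.g₀) : M2 A) D.i₀ D.j₀ =
        algebraMap 𝒪 A (D.c D.g₁ D.i₀ D.j₀) * Matrix.det (1 + t • r D.g₀) := by
      linear_combination hkey + hroot
    rw [h5]
    linear_combination algebraMap 𝒪 A (D.c D.g₁ D.i₀ D.j₀) * hδ'

end Strict

/-- Two rigid strict lifts that are conjugate by an invertible matrix are equal. -/
theorem rigid_unique (D : ResData 𝒪 ρbar) {A : Type} [CommRing A] [IsLocalRing A] [Algebra 𝒪 A]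
    (r r' : GQ →* M2 A) (hs : IsStrictLift D r) (hs' : IsStrictLift D r')
    (hr : IsRigid D r) (hr' : IsRigid D r')
    (g : M2 A) (hg : IsUnit g.det) (hconj : ∀ σ, g * r σ = r' σ * g) : r = r' := by
  obtain ⟨h00, h10, hN⟩ := hr
  obtain ⟨h00', h10', hN'⟩ := hr'
  have hM : r' D.g₀ = r D.g₀ :=
    rigid_companion_eq (r D.g₀) (r' D.g₀) g hg (hconj D.g₀) h00 h10 h00' h10'
  have hcomm : g * r D.g₀ = r D.g₀ * g := by rw [hconj D.g₀, hM]
  obtain ⟨x, y, hform⟩ : ∃ x y : A, g = x • (1 : M2 A) + y • r D.g₀ :=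
    ⟨_, _, rigid_commute_form (r D.g₀) g h00 h10 hcomm⟩
  subst hform
  have h2 := rigid_intertwine (r D.g₀) (r D.g₁) (r' D.g₁) x y (hconj D.g₁) D.i₀ D.j₀
  rw [hN, hN', sub_self, mul_zero] at h2
  have hy : y = 0 := (rigid_cross_isUnit D r r' hs hs').mul_left_eq_zero.mp h2.symm
  subst hy
  have hx : IsUnit x := by
    rw [zero_smul, add_zero, Matrix.det_smul, Matrix.det_one, mul_one] at hg
    exact (isUnit_pow_iff (Fintype.card_ne_zero)).mp hg
  refine MonoidHom.ext fun σ => ?_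
  have h3 := hconj σ
  rw [zero_smul, add_zero, smul_mul_assoc, one_mul, mul_smul_comm, mul_one] at h3
  ext i j
  have h4 := congrFun (congrFun h3 i) j
  rw [Matrix.smul_apply, Matrix.smul_apply, smul_eq_mul, smul_eq_mul] at h4
  exact hx.mul_left_cancel h4

/-- Every strict lift over a complete local ring is conjugate to a rigid strict lift. -/
theorem rigid_exists (D : ResData 𝒪 ρbar) {A : Type} [CommRing A] [IsLocalRing A] [Algebra 𝒪 A]
    [IsAdicComplete (maximalIdeal A) A]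
    (r : GQ →* M2 A) (hs : IsStrictLift D r) :
    ∃ r' : GQ →* M2 A, IsRigid D r' ∧ IsStrictLift D r' ∧ (MatCont r → MatCont r') ∧
      ∃ g : M2 A, IsUnit g.det ∧ ∀ σ, g * r σ = r' σ * g := by
  obtain ⟨r₁, h00, h10, hs₁, hc₁, g₁, hg₁, hconj₁⟩ := rigid_step1 D r hs
  obtain ⟨r₂, hM, hN, hs₂, hc₂, g₂, hg₂, hconj₂⟩ := rigid_step2 D r₁ hs₁
  refine ⟨r₂, ⟨?_, ?_, hN⟩, hs₂, fun h => hc₂ (hc₁ h), g₂ * g₁, ?_, fun σ => ?_⟩
  · rw [hM]; exact h00
  · rw [hM]; exact h10
  · rw [Matrix.det_mul]; exact hg₂.mul hg₁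
  · rw [mul_assoc, hconj₁, ← mul_assoc, hconj₂, mul_assoc]

end Fermat.Agent.S53
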