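import Fermat.Agent.S53.Core
import Fermat.Agent.S53.Dict
import Fermat.Agent.S53.Rigid

/-!
# S53: generic lemmas on rigid strict lifts of type `𝒟`
-/

set_option autoImplicit false

open IsLocalRing GaloisRep

namespace Fermat.Agent.S53

/-- Finite test algebras: finite local `𝒪`-algebras with local structure map and residue field
generated by `𝒪`. -/
structure IsTestAlg (𝒪 : Type) [CommRing 𝒪] (A : Type) [CommRing A] [IsLocalRing A]
    [Algebra 𝒪 A] : Prop where
  fin : Finite A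
  isLocalHom : IsLocalHom (algebraMap 𝒪 A)
  residue_surjective : Function.Surjective (residue A ∘ algebraMap 𝒪 A)

section TestAlg

variable {𝒪 : Type} [CommRing 𝒪] {A : Type} [CommRing A] [IsLocalRing A] [Algebra 𝒪 A]

theorem IsTestAlg.isArtinianTestAlgebra (h : IsTestAlg 𝒪 A) : IsArtinianTestAlgebra 𝒪 A :=
  haveI := h.fin
  ⟨h.isLocalHom, h.residue_surjective, inferInstance⟩

theorem exists_maximalIdeal_pow_eq_bot_of_finite [Finite A] : ∃ n, maximalIdeal A ^ n = ⊥ := by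
  obtain ⟨n, hn⟩ := IsArtinianRing.isNilpotent_jacobson_bot (R := A)
  rw [jacobson_eq_maximalIdeal _ bot_ne_top] at hn
  exact ⟨n, hn⟩

/-- A ring hom out of a local ring with nilpotent maximal ideal into a nontrivial ring is local. -/
theorem isLocalHom_of_nilpotent {B : Type} [CommRing B] [Nontrivial B] (φ : A →+* B) (n : ℕ)
    (hn : maximalIdeal A ^ n = ⊥) : IsLocalHom φ := by
  refine ⟨fun a ha => ?_⟩
  by_contra hna
  have hmem : a ∈ maximalIdeal A := hna
  have h0 : a ^ n = 0 := by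
    have := Ideal.pow_mem_pow hmem n
    rwa [hn, Ideal.mem_bot] at this
  have h1 : IsUnit (φ a ^ n) := ha.pow n
  rw [← map_pow, h0, map_zero] at h1
  exact not_isUnit_zero h1

theorem map_mem_maximalIdeal {B : Type} [CommRing B] [IsLocalRing B] (φ : A →+* B)
    (hφ : IsLocalHom φ) {a : A} (ha : a ∈ maximalIdeal A) : φ a ∈ maximalIdeal B :=
  haveI := hφ
  map_nonunit φ a ha

theorem mem_maximalIdeal_of_map_mem {B : Type} [CommRing B] [IsLocalRing B] (φ : A →+* B)
    {a : A} (ha : φ a ∈ maximalIdeal B) : a ∈ maximalIdeal A := by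
  rw [mem_maximalIdeal, mem_nonunits_iff] at ha ⊢
  exact fun h => ha (h.map φ)

end TestAlg

section Strict

variable {𝒪 : Type} [CommRing 𝒪] [IsLocalRing 𝒪] {ρbar : ResidualGaloisRep (ResidueField 𝒪)}
  (D : ResData 𝒪 ρbar)

theorem IsStrictLift.map {A B : Type} [CommRing A] [IsLocalRing A] [Algebra 𝒪 A] [CommRing B]
    [IsLocalRing B] [Algebra 𝒪 B] (φ : A →ₐ[𝒪] B) (hφ : IsLocalHom (φ : A →+* B))
    {r : GQ →* M2 A} (hr : IsStrictLift D r) : IsStrictLift D (mapRep (φ : A →+* B) r) := by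
  intro σ i j
  have := map_mem_maximalIdeal (φ : A →+* B) hφ (hr σ i j)
  rwa [map_sub, AlgHom.coe_toRingHom, AlgHom.commutes] at this

theorem IsStrictLift.of_map {A B : Type} [CommRing A] [IsLocalRing A] [Algebra 𝒪 A] [CommRing B]
    [IsLocalRing B] [Algebra 𝒪 B] (φ : A →ₐ[𝒪] B)
    {r : GQ →* M2 A} (hr : IsStrictLift D (mapRep (φ : A →+* B) r)) : IsStrictLift D r := by
  intro σ i j
  apply mem_maximalIdeal_of_map_mem (φ : A →+* B)
  have := hr σ i j
  rwa [map_sub, AlgHom.coe_toRingHom, AlgHom.commutes]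

theorem IsRigid.map {A B : Type} [CommRing A] [Algebra 𝒪 A] [CommRing B] [Algebra 𝒪 B]
    (φ : A →ₐ[𝒪] B) {r : GQ →* M2 A} (hr : IsRigid D r) :
    IsRigid D (mapRep (φ : A →+* B) r) := by
  obtain ⟨h1, h2, h3⟩ := hr
  refine ⟨?_, ?_, ?_⟩
  · rw [mapRep_apply_apply, h1, map_zero]
  · rw [mapRep_apply_apply, h2, map_one]
  · rw [mapRep_apply_apply, h3, AlgHom.coe_toRingHom, AlgHom.commutes]

theorem IsRigid.of_map {A B : Type} [CommRing A] [Algebra 𝒪 A] [CommRing B] [Algebra 𝒪 B]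
    (φ : A →ₐ[𝒪] B) (hφ : Function.Injective φ) {r : GQ →* M2 A}
    (hr : IsRigid D (mapRep (φ : A →+* B) r)) : IsRigid D r := by
  obtain ⟨h1, h2, h3⟩ := hr
  refine ⟨hφ ?_, hφ ?_, hφ ?_⟩
  · rw [map_zero]; exact h1
  · rw [map_one]; exact h2
  · rw [AlgHom.commutes]; exact h3

/-- The residual representation of a strict lift is the base change of `ρbar`. -/
theorem residual_isEquiv_of_strict {A : Type} [CommRing A] [IsLocalRing A] [Algebra 𝒪 A]
    (ψ : ResidueField 𝒪 →+* ResidueField A)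
    (hψ : ∀ a : 𝒪, ψ (residue 𝒪 a) = residue A (algebraMap 𝒪 A a))
    (r : GQ →* M2 A) (h : MatCont r) (hs : IsStrictLift D r) :
    (ofMat r h).residual.IsEquiv (ρbar.baseChangeAlong ψ) := by
  rw [ofMat_residual_isEquiv_iff ρbar D.b ψ r h]
  refine ⟨1, by simp, fun σ => ?_⟩
  rw [one_mul, mul_one]
  ext i j
  rw [Matrix.map_apply, Matrix.map_apply, ← D.hc σ i j, hψ, ← sub_eq_zero, ← map_sub,
    residue_eq_zero_iff]
  exact hs σ i j

/-- Two rigid strict lifts with equivalent associated representations are equal. -/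
theorem rigid_eq_of_isEquiv {A : Type} [CommRing A] [IsLocalRing A] [Algebra 𝒪 A]
    (r r' : GQ →* M2 A) (h : MatCont r) (h' : MatCont r') (hs : IsStrictLift D r)
    (hs' : IsStrictLift D r') (hr : IsRigid D r) (hr' : IsRigid D r')
    (e : (ofMat r h).IsEquiv (ofMat r' h')) : r = r' := by
  obtain ⟨g, hg, hconj⟩ := (ofMat_isEquiv_iff r r' h h').mp e
  exact rigid_unique D r r' hs hs' hr hr' g hg hconj

theorem entries_mul_mem {A : Type} [CommRing A] (I : Ideal A) (g X h : M2 A)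
    (hX : ∀ i j, X i j ∈ I) : ∀ i j, (g * X * h) i j ∈ I := by
  intro i j
  rw [Matrix.mul_apply]
  refine Ideal.sum_mem _ fun l _ => Ideal.mul_mem_right _ _ ?_
  rw [Matrix.mul_apply]
  exact Ideal.sum_mem _ fun l' _ => Ideal.mul_mem_left _ _ (hX l' l)

/-- Conjugate of a matrix representation by an invertible matrix. -/
noncomputable def conjRep {A : Type} [CommRing A] (g : (M2 A)ˣ) (r : GQ →* M2 A) : GQ →* M2 A where
  toFun σ := (g : M2 A) * r σ * ((g⁻¹ : (M2 A)ˣ) : M2 A)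
  map_one' := by rw [map_one, mul_one, Units.mul_inv]
  map_mul' σ τ := by
    have h : ((g⁻¹ : (M2 A)ˣ) : M2 A) * (g : M2 A) = 1 := Units.inv_mul g
    rw [map_mul]
    calc (g : M2 A) * (r σ * r τ) * ((g⁻¹ : (M2 A)ˣ) : M2 A)
        = (g : M2 A) * r σ * 1 * r τ * ((g⁻¹ : (M2 A)ˣ) : M2 A) := by
          simp only [mul_one, mul_assoc]
      _ = _ := by rw [← h]; simp only [mul_assoc]

theorem conjRep_apply {A : Type} [CommRing A] (g : (M2 A)ˣ) (r : GQ →* M2 A) (σ : GQ) :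
    conjRep g r σ = (g : M2 A) * r σ * ((g⁻¹ : (M2 A)ˣ) : M2 A) := rfl

theorem conjRep_mul {A : Type} [CommRing A] (g : (M2 A)ˣ) (r : GQ →* M2 A) (σ : GQ) :
    (g : M2 A) * r σ = conjRep g r σ * (g : M2 A) := by
  rw [conjRep_apply, mul_assoc, Units.inv_mul, mul_one]

theorem matCont_conjRep {A : Type} [CommRing A] [IsLocalRing A] (g : (M2 A)ˣ) {r : GQ →* M2 A}
    (h : MatCont r) : MatCont (conjRep g r) := by
  intro n
  obtain ⟨L, hL, hσ⟩ := h n
  refine ⟨L, hL, fun σ hσL => ?_⟩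
  have : conjRep g r σ - 1 = (g : M2 A) * (r σ - 1) * ((g⁻¹ : (M2 A)ˣ) : M2 A) := by
    rw [conjRep_apply, mul_sub, sub_mul, mul_one, Units.mul_inv]
  rw [this]
  exact entries_mul_mem _ _ _ _ (hσ σ hσL)

theorem ofMat_isEquiv_conjRep {A : Type} [CommRing A] [IsLocalRing A] (g : (M2 A)ˣ)
    (r : GQ →* M2 A) (h : MatCont r) (h' : MatCont (conjRep g r)) :
    (ofMat r h).IsEquiv (ofMat (conjRep g r) h') :=
  (ofMat_isEquiv_iff r (conjRep g r) h h').mpr
    ⟨g, (Matrix.isUnit_iff_isUnit_det _).mp g.isUnit, fun σ => conjRep_mul g r σ⟩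

/-- Every representation over a complete local `𝒪`-algebra whose residual representation is the
base change of `ρbar` is equivalent to `ofMat r` for a rigid strict lift `r`. -/
theorem exists_rigid_of_residual_isEquiv {A : Type} [CommRing A] [IsLocalRing A] [Algebra 𝒪 A]
    [IsAdicComplete (maximalIdeal A) A]
    (ψ : ResidueField 𝒪 →+* ResidueField A)
    (hψ : ∀ a : 𝒪, ψ (residue 𝒪 a) = residue A (algebraMap 𝒪 A a))
    (ρ : GaloisRepAdic A) (hρ : ρ.residual.IsEquiv (ρbar.baseChangeAlong ψ)) :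
    ∃ (r : GQ →* M2 A) (h : MatCont r), IsStrictLift D r ∧ IsRigid D r ∧ ρ.IsEquiv (ofMat r h) := by
  obtain ⟨r₁, h₁, e₁⟩ := exists_isEquiv_ofMat ρ
  have hρ' : (ofMat r₁ h₁).residual.IsEquiv (ρbar.baseChangeAlong ψ) :=
    e₁.elim fun e => hρ.elim fun e' => ⟨(e.symm.residual).trans e'⟩
  obtain ⟨gbar, hgbar, hconj⟩ := (ofMat_residual_isEquiv_iff ρbar D.b ψ r₁ h₁).mp hρ'
  -- lift `gbar` to `A`
  let g₀ : M2 A := Matrix.of fun i j => Classical.choose (residue_surjective (gbar i j))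
  have hg₀ : g₀.map (residue A) = gbar := by
    ext i j
    exact Classical.choose_spec (residue_surjective (gbar i j))
  have hdet : IsUnit g₀.det := by
    have h1 : residue A g₀.det = gbar.det := by
      rw [RingHom.map_det, RingHom.mapMatrix_apply, hg₀]
    have h2 : IsUnit (residue A g₀.det) := h1 ▸ hgbar
    exact isUnit_of_map_unit (residue A) _ h2
  let g : (M2 A)ˣ := ((Matrix.isUnit_iff_isUnit_det _).mpr hdet).unit
  have hgcoe : (g : M2 A) = g₀ := rfl
  let r₂ := conjRep g r₁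
  have h₂ : MatCont r₂ := matCont_conjRep g h₁
  have hs₂ : IsStrictLift D r₂ := by
    intro σ i j
    rw [← residue_eq_zero_iff, map_sub, sub_eq_zero, ← hψ, D.hc σ i j]
    have hφ : (residue A).mapMatrix (r₂ σ) = (resMat ρbar D.b σ).map ψ := by
      have e1 : (residue A).mapMatrix (g : M2 A) * (residue A).mapMatrix (r₁ σ) =
          (resMat ρbar D.b σ).map ψ * (residue A).mapMatrix (g : M2 A) := by
        rw [RingHom.mapMatrix_apply, RingHom.mapMatrix_apply, hgcoe, hg₀]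
        exact hconj σ
      show (residue A).mapMatrix (conjRep g r₁ σ) = _
      rw [conjRep_apply, map_mul, map_mul, e1, mul_assoc, ← map_mul, Units.mul_inv, map_one,
        mul_one]
    have := congrFun (congrFun hφ i) j
    rw [RingHom.mapMatrix_apply, Matrix.map_apply, Matrix.map_apply] at this
    exact this
  obtain ⟨r₃, hr₃, hs₃, hc₃, g', hg', hconj'⟩ := rigid_exists D r₂ hs₂
  refine ⟨r₃, hc₃ h₂, hs₃, hr₃, ?_⟩
  refine isEquiv_trans e₁ (isEquiv_trans (ofMat_isEquiv_conjRep g r₁ h₁ h₂) ?_)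
  exact (ofMat_isEquiv_iff r₂ r₃ h₂ (hc₃ h₂)).mpr ⟨g', hg', hconj'⟩

end Strict

section DefType

variable {𝒪 : Type} [CommRing 𝒪] [IsLocalRing 𝒪] {ρbar : ResidualGaloisRep (ResidueField 𝒪)}
  (D : ResData 𝒪 ρbar)
  {𝒟 : ∀ ⦃A : Type⦄ [CommRing A] [IsLocalRing A] [Algebra 𝒪 A], GaloisRepAdic A → Prop}
  (h𝒟 : IsDeformationCondition 𝒪 𝒟)
  {A B : Type} [CommRing A] [IsLocalRing A] [Algebra 𝒪 A] [CommRing B] [IsLocalRing B] [Algebra 𝒪 B]

include h𝒟 in
theorem IsDef.map (hA : IsTestAlg 𝒪 A) (hB : IsTestAlg 𝒪 B) (φ : A →ₐ[𝒪] B)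
    (hφ : IsLocalHom (φ : A →+* B)) {r : GQ →* M2 A} (hr : IsDef D 𝒟 r) :
    IsDef D 𝒟 (mapRep (φ : A →+* B) r) :=
  { cont := matCont_mapRep _ hφ hr.cont
    strict := hr.strict.map D φ hφ
    rigid := hr.rigid.map D φ
    type := h𝒟.of_isEquiv hB.isArtinianTestAlgebra
      (ofMat_baseChangeAlong_isEquiv _ hφ r hr.cont _)
      (h𝒟.baseChangeAlong hA.isArtinianTestAlgebra hB.isArtinianTestAlgebra φ hφ hr.type) }

include h𝒟 in
theorem IsDef.of_map_injective (hA : IsTestAlg 𝒪 A) (hB : IsTestAlg 𝒪 B) (φ : A →ₐ[𝒪] B)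
    (hφ : IsLocalHom (φ : A →+* B)) (hinj : Function.Injective φ) {r : GQ →* M2 A}
    (hc : MatCont r) (hr : IsDef D 𝒟 (mapRep (φ : A →+* B) r)) : IsDef D 𝒟 r :=
  { cont := hc
    strict := IsStrictLift.of_map D φ hr.strict
    rigid := IsRigid.of_map D φ hinj hr.rigid
    type := h𝒟.of_baseChangeAlong_injective hA.isArtinianTestAlgebra hB.isArtinianTestAlgebra φ hφ
      hinj (h𝒟.of_isEquiv hB.isArtinianTestAlgebra
        (isEquiv_symm (ofMat_baseChangeAlong_isEquiv _ hφ r hc hr.cont)) hr.type) }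

end DefType

end Fermat.Agent.S53
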