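import Fermat.Agent.S53.Core
import Fermat.Agent.S53.Deform

/-!
# S53: the polynomial ring on matrix entries, its residual maximal ideal and tautological
representations over its quotients
-/

set_option autoImplicit false

open IsLocalRing GaloisRep MvPolynomial

namespace Fermat.Agent.S53

/-- The polynomial ring on the matrix entries `X (σ, i, j)`. -/
abbrev PolyRing (𝒪 : Type) [CommRing 𝒪] : Type := MvPolynomial (GQ × Fin 2 × Fin 2) 𝒪

section Ev

variable {𝒪 : Type} [CommRing 𝒪]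

/-- Evaluation of the polynomial ring at a matrix-valued function. -/
noncomputable def evRep {A : Type} [CommRing A] [Algebra 𝒪 A] (r : GQ → M2 A) :
    PolyRing 𝒪 →ₐ[𝒪] A :=
  MvPolynomial.aeval fun x => r x.1 x.2.1 x.2.2

@[simp] theorem evRep_X {A : Type} [CommRing A] [Algebra 𝒪 A] (r : GQ → M2 A) (σ : GQ)
    (i j : Fin 2) : evRep (𝒪 := 𝒪) r (X (σ, i, j)) = r σ i j := by
  rw [evRep, aeval_X]

theorem algebraMap_quot (I : Ideal (PolyRing 𝒪)) (a : 𝒪) :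
    algebraMap 𝒪 (PolyRing 𝒪 ⧸ I) a = Ideal.Quotient.mk I (C a) := rfl

theorem polyRing_algHom_ext {A : Type} [CommRing A] [Algebra 𝒪 A] {f g : PolyRing 𝒪 →ₐ[𝒪] A}
    (h : ∀ σ i j, f (X (σ, i, j)) = g (X (σ, i, j))) : f = g :=
  MvPolynomial.algHom_ext fun x => h x.1 x.2.1 x.2.2

theorem quot_algHom_ext {A : Type} [CommRing A] [Algebra 𝒪 A] {I : Ideal (PolyRing 𝒪)}
    {f g : (PolyRing 𝒪 ⧸ I) →ₐ[𝒪] A}
    (h : ∀ σ i j, f (Ideal.Quotient.mk I (X (σ, i, j))) = g (Ideal.Quotient.mk I (X (σ, i, j)))) :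
    f = g := by
  apply Ideal.Quotient.algHom_ext
  exact polyRing_algHom_ext fun σ i j => h σ i j

end Ev

section Res

variable {𝒪 : Type} [CommRing 𝒪] [IsLocalRing 𝒪] {ρbar : ResidualGaloisRep (ResidueField 𝒪)}
  (D : ResData 𝒪 ρbar)

/-- The residual point of the polynomial ring. -/
noncomputable def resPt : PolyRing 𝒪 →ₐ[𝒪] ResidueField 𝒪 :=
  evRep fun σ => (D.c σ).map (residue 𝒪)

theorem resPt_X (σ : GQ) (i j : Fin 2) : resPt D (X (σ, i, j)) = resMat ρbar D.b σ i j := by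
  rw [resPt, evRep_X, Matrix.map_apply, D.hc]

theorem resPt_C (a : 𝒪) : resPt D (C a) = residue 𝒪 a := by
  rw [resPt, evRep, aeval_C]; rfl

theorem resPt_surjective : Function.Surjective (resPt D) := fun x => by
  obtain ⟨a, rfl⟩ := residue_surjective x
  exact ⟨C a, resPt_C D a⟩

/-- The maximal ideal of the polynomial ring at the residual point. -/
noncomputable def maxId : Ideal (PolyRing 𝒪) := RingHom.ker (resPt D : PolyRing 𝒪 →+* ResidueField 𝒪)

instance maxId_isMaximal : (maxId D).IsMaximal :=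
  RingHom.ker_isMaximal_of_surjective _ (resPt_surjective D)

theorem mem_maxId {p : PolyRing 𝒪} : p ∈ maxId D ↔ resPt D p = 0 := Iff.rfl

theorem X_sub_C_mem_maxId (σ : GQ) (i j : Fin 2) :
    (X (σ, i, j) - C (D.c σ i j) : PolyRing 𝒪) ∈ maxId D := by
  rw [mem_maxId, map_sub, resPt_X, resPt_C, D.hc, sub_self]

/-- For a strict lift, the evaluation map is compatible with the residual point. -/
theorem residue_evRep {A : Type} [CommRing A] [IsLocalRing A] [Algebra 𝒪 A]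
    [hloc : IsLocalHom (algebraMap 𝒪 A)] {r : GQ →* M2 A} (hs : IsStrictLift D r)
    (p : PolyRing 𝒪) :
    residue A (evRep (𝒪 := 𝒪) r p) = ResidueField.map (algebraMap 𝒪 A) (resPt D p) := by
  have : ((residue A).comp (evRep (𝒪 := 𝒪) r : PolyRing 𝒪 →+* A)) =
      (ResidueField.map (algebraMap 𝒪 A)).comp (resPt D : PolyRing 𝒪 →+* ResidueField 𝒪) := by
    apply MvPolynomial.ringHom_ext
    · intro a
      simp only [RingHom.comp_apply, AlgHom.coe_toRingHom, RingHom.coe_coe]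
      rw [resPt_C, ResidueField.map_residue, ← MvPolynomial.algebraMap_eq, AlgHom.commutes]
    · rintro ⟨σ, i, j⟩
      simp only [RingHom.comp_apply, RingHom.coe_coe]
      rw [evRep_X, resPt, evRep_X, Matrix.map_apply, ResidueField.map_residue, ← sub_eq_zero,
        ← map_sub, residue_eq_zero_iff]
      exact hs σ i j
  exact congrFun (congrArg DFunLike.coe this) p

theorem evRep_mem_maximalIdeal_iff {A : Type} [CommRing A] [IsLocalRing A] [Algebra 𝒪 A]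
    [hloc : IsLocalHom (algebraMap 𝒪 A)] {r : GQ →* M2 A} (hs : IsStrictLift D r)
    (p : PolyRing 𝒪) : evRep (𝒪 := 𝒪) r p ∈ maximalIdeal A ↔ p ∈ maxId D := by
  rw [← residue_eq_zero_iff, residue_evRep D hs, mem_maxId, map_eq_zero]

end Res

section QuotLocal

variable {P : Type} [CommRing P] (𝔐 : Ideal P) [h𝔐 : 𝔐.IsMaximal]

theorem quot_isMaximal_map {I : Ideal P} (h2 : I ≤ 𝔐) :
    (𝔐.map (Ideal.Quotient.mk I)).IsMaximal := by
  refine (Ideal.map_eq_top_or_isMaximal_of_surjective _ Ideal.Quotient.mk_surjective h𝔐).resolve_left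
    fun htop => ?_
  have h := Ideal.comap_map_of_surjective (Ideal.Quotient.mk I) Ideal.Quotient.mk_surjective 𝔐
  rw [htop, Ideal.comap_top, ← RingHom.ker_eq_comap_bot, Ideal.mk_ker, sup_eq_left.mpr h2] at h
  exact h𝔐.ne_top h.symm

theorem quot_maximal_unique {I : Ideal P} {n : ℕ} (h1 : 𝔐 ^ n ≤ I)
    (𝔫 : Ideal (P ⧸ I)) (h𝔫 : 𝔫.IsMaximal) : 𝔫 = 𝔐.map (Ideal.Quotient.mk I) := by
  have hc : (𝔫.comap (Ideal.Quotient.mk I)).IsMaximal :=
    Ideal.comap_isMaximal_of_surjective _ Ideal.Quotient.mk_surjective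
  have hI : I ≤ 𝔫.comap (Ideal.Quotient.mk I) := by
    intro x hx
    rw [Ideal.mem_comap, Ideal.Quotient.eq_zero_iff_mem.mpr hx]
    exact 𝔫.zero_mem
  have hle : 𝔐 ≤ 𝔫.comap (Ideal.Quotient.mk I) :=
    Ideal.IsPrime.le_of_pow_le (hP := hc.isPrime) (h1.trans hI)
  have heq : 𝔐 = 𝔫.comap (Ideal.Quotient.mk I) := h𝔐.eq_of_le hc.ne_top hle
  rw [heq, Ideal.map_comap_of_surjective _ Ideal.Quotient.mk_surjective]

theorem isLocalRing_quot {I : Ideal P} {n : ℕ} (h1 : 𝔐 ^ n ≤ I) (h2 : I ≤ 𝔐) :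
    IsLocalRing (P ⧸ I) :=
  IsLocalRing.of_unique_max_ideal
    ⟨𝔐.map (Ideal.Quotient.mk I), quot_isMaximal_map 𝔐 h2,
      fun 𝔫 h𝔫 => quot_maximal_unique 𝔐 h1 𝔫 h𝔫⟩

theorem maximalIdeal_quot {I : Ideal P} {n : ℕ} (h1 : 𝔐 ^ n ≤ I) [IsLocalRing (P ⧸ I)] :
    maximalIdeal (P ⧸ I) = 𝔐.map (Ideal.Quotient.mk I) :=
  quot_maximal_unique 𝔐 h1 _ (maximalIdeal.isMaximal _)

theorem mk_mem_maximalIdeal_quot_iff {I : Ideal P} {n : ℕ} (h1 : 𝔐 ^ n ≤ I) (h2 : I ≤ 𝔐)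
    [IsLocalRing (P ⧸ I)] (p : P) :
    Ideal.Quotient.mk I p ∈ maximalIdeal (P ⧸ I) ↔ p ∈ 𝔐 := by
  rw [maximalIdeal_quot 𝔐 h1, ← Ideal.mem_comap,
    Ideal.comap_map_of_surjective _ Ideal.Quotient.mk_surjective, ← RingHom.ker_eq_comap_bot,
    Ideal.mk_ker, sup_eq_left.mpr h2]

theorem maximalIdeal_quot_pow {I : Ideal P} {n : ℕ} (h1 : 𝔐 ^ n ≤ I) [IsLocalRing (P ⧸ I)] :
    maximalIdeal (P ⧸ I) ^ n = ⊥ := by
  rw [maximalIdeal_quot 𝔐 h1, ← Ideal.map_pow, Ideal.map_eq_bot_iff_le_ker, Ideal.mk_ker]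
  exact h1

end QuotLocal

section Taut

variable {𝒪 : Type} [CommRing 𝒪] [IsLocalRing 𝒪] {ρbar : ResidualGaloisRep (ResidueField 𝒪)}
  (D : ResData 𝒪 ρbar)

/-- The relations making the tautological matrices a rigid representation. -/
def relSet : Set (PolyRing 𝒪) :=
  {p | (∃ i j, p = X (1, i, j) - C (if i = j then 1 else 0)) ∨
    (∃ σ τ i j, p = X (σ * τ, i, j) - ∑ l, X (σ, i, l) * X (τ, l, j)) ∨
    p = X (D.g₀, 0, 0) ∨ p = X (D.g₀, 1, 0) - 1 ∨
    p = X (D.g₁, D.i₀, D.j₀) - C (D.c D.g₁ D.i₀ D.j₀)}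

/-- The ideal generated by the relations. -/
noncomputable def relIdeal : Ideal (PolyRing 𝒪) := Ideal.span (relSet D)

/-- The tautological representation over a quotient of the polynomial ring in which the
relations hold. -/
noncomputable def tautRep (I : Ideal (PolyRing 𝒪)) (h : relIdeal D ≤ I) :
    GQ →* M2 (PolyRing 𝒪 ⧸ I) where
  toFun σ := Matrix.of fun i j => Ideal.Quotient.mk I (X (σ, i, j))
  map_one' := by
    ext i j
    have : (X (1, i, j) - C (if i = j then 1 else 0) : PolyRing 𝒪) ∈ I :=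
      h (Ideal.subset_span (Or.inl ⟨i, j, rfl⟩))
    rw [← Ideal.Quotient.eq_zero_iff_mem, map_sub, sub_eq_zero] at this
    rw [Matrix.of_apply, Matrix.one_apply, this]
    split_ifs <;> simp
  map_mul' σ τ := by
    ext i j
    have : (X (σ * τ, i, j) - ∑ l, X (σ, i, l) * X (τ, l, j) : PolyRing 𝒪) ∈ I :=
      h (Ideal.subset_span (Or.inr (Or.inl ⟨σ, τ, i, j, rfl⟩)))
    rw [← Ideal.Quotient.eq_zero_iff_mem, map_sub, sub_eq_zero] at this
    rw [Matrix.of_apply, this, Matrix.mul_apply, map_sum]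
    exact Finset.sum_congr rfl fun l _ => by rw [map_mul]; rfl

theorem tautRep_apply (I : Ideal (PolyRing 𝒪)) (h : relIdeal D ≤ I) (σ : GQ) (i j : Fin 2) :
    tautRep D I h σ i j = Ideal.Quotient.mk I (X (σ, i, j)) := rfl

theorem tautRep_rigid (I : Ideal (PolyRing 𝒪)) (h : relIdeal D ≤ I) :
    IsRigid D (tautRep D I h) := by
  refine ⟨?_, ?_, ?_⟩
  · rw [tautRep_apply, Ideal.Quotient.eq_zero_iff_mem]
    exact h (Ideal.subset_span (Or.inr (Or.inr (Or.inl rfl))))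
  · rw [tautRep_apply, ← sub_eq_zero, ← map_one (Ideal.Quotient.mk I), ← map_sub,
      Ideal.Quotient.eq_zero_iff_mem]
    exact h (Ideal.subset_span (Or.inr (Or.inr (Or.inr (Or.inl rfl)))))
  · rw [tautRep_apply, ← sub_eq_zero, algebraMap_quot, ← map_sub, Ideal.Quotient.eq_zero_iff_mem]
    exact h (Ideal.subset_span (Or.inr (Or.inr (Or.inr (Or.inr rfl)))))

theorem relIdeal_le_ker_evRep {A : Type} [CommRing A] [Algebra 𝒪 A] (r : GQ →* M2 A)
    (hr : IsRigid D r) : relIdeal D ≤ RingHom.ker (evRep (𝒪 := 𝒪) r : PolyRing 𝒪 →+* A) := by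
  rw [relIdeal, Ideal.span_le]
  rintro p (⟨i, j, rfl⟩ | ⟨σ, τ, i, j, rfl⟩ | rfl | rfl | rfl)
  · rw [SetLike.mem_coe, RingHom.mem_ker, RingHom.coe_coe, map_sub, evRep_X, map_one,
      ← MvPolynomial.algebraMap_eq, AlgHom.commutes, Matrix.one_apply]
    split_ifs <;> simp
  · rw [SetLike.mem_coe, RingHom.mem_ker, RingHom.coe_coe, map_sub, evRep_X, map_mul,
      Matrix.mul_apply, map_sum, sub_eq_zero]
    exact Finset.sum_congr rfl fun l _ => by rw [map_mul, evRep_X, evRep_X]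
  · rw [SetLike.mem_coe, RingHom.mem_ker, RingHom.coe_coe, evRep_X]
    exact hr.1
  · rw [SetLike.mem_coe, RingHom.mem_ker, RingHom.coe_coe, map_sub, evRep_X, map_one, hr.2.1,
      sub_self]
  · rw [SetLike.mem_coe, RingHom.mem_ker, RingHom.coe_coe, map_sub, evRep_X,
      ← MvPolynomial.algebraMap_eq, AlgHom.commutes, hr.2.2, sub_self]

theorem mapRep_factor_tautRep {I J : Ideal (PolyRing 𝒪)} (h : relIdeal D ≤ I) (hIJ : I ≤ J) :
    mapRep (Ideal.Quotient.factor hIJ) (tautRep D I h) = tautRep D J (h.trans hIJ) := by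
  ext σ i j
  rfl

theorem tautRep_strict {I : Ideal (PolyRing 𝒪)} (h : relIdeal D ≤ I) {n : ℕ}
    (h1 : maxId D ^ n ≤ I) (h2 : I ≤ maxId D) [IsLocalRing (PolyRing 𝒪 ⧸ I)] :
    IsStrictLift D (tautRep D I h) := by
  intro σ i j
  rw [tautRep_apply, algebraMap_quot, ← map_sub, mk_mem_maximalIdeal_quot_iff (maxId D) h1 h2]
  exact X_sub_C_mem_maxId D σ i j

/-- Finite level: the tautological matrices are trivial on an open subgroup modulo `I`. -/
def FiniteLevel (I : Ideal (PolyRing 𝒪)) : Prop :=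
  ∃ L : IntermediateField ℚ (AlgebraicClosure ℚ), FiniteDimensional ℚ L ∧
    ∀ σ : GQ, (∀ x ∈ L, σ x = x) → ∀ i j,
      (X (σ, i, j) - C (if i = j then 1 else 0) : PolyRing 𝒪) ∈ I

theorem FiniteLevel.mono {I J : Ideal (PolyRing 𝒪)} (h : FiniteLevel I) (hIJ : I ≤ J) :
    FiniteLevel J := by
  obtain ⟨L, hL, hσ⟩ := h
  exact ⟨L, hL, fun σ hσL i j => hIJ (hσ σ hσL i j)⟩

theorem FiniteLevel.inf {I J : Ideal (PolyRing 𝒪)} (hI : FiniteLevel I) (hJ : FiniteLevel J) :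
    FiniteLevel (I ⊓ J) := by
  obtain ⟨L, hL, hσ⟩ := hI
  obtain ⟨L', hL', hσ'⟩ := hJ
  refine ⟨L ⊔ L', inferInstance, fun σ hσL i j => ⟨hσ σ (fun x hx => hσL x ?_) i j,
    hσ' σ (fun x hx => hσL x ?_) i j⟩⟩
  · exact (le_sup_left : L ≤ L ⊔ L') hx
  · exact (le_sup_right : L' ≤ L ⊔ L') hx

theorem tautRep_sub_one_eq_zero {I : Ideal (PolyRing 𝒪)} (h : relIdeal D ≤ I) {σ : GQ}
    (hσ : ∀ i j, (X (σ, i, j) - C (if i = j then 1 else 0) : PolyRing 𝒪) ∈ I) :
    tautRep D I h σ = 1 := by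
  ext i j
  have := hσ i j
  rw [← Ideal.Quotient.eq_zero_iff_mem, map_sub, sub_eq_zero] at this
  rw [tautRep_apply, this, Matrix.one_apply]
  split_ifs <;> simp

theorem matCont_tautRep {I : Ideal (PolyRing 𝒪)} (h : relIdeal D ≤ I) (hI : FiniteLevel I)
    [IsLocalRing (PolyRing 𝒪 ⧸ I)] : MatCont (tautRep D I h) := by
  intro n
  obtain ⟨L, hL, hσ⟩ := hI
  refine ⟨L, hL, fun σ hσL i j => ?_⟩
  rw [tautRep_sub_one_eq_zero D h (hσ σ hσL), sub_self]
  exact Ideal.zero_mem _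

theorem finiteLevel_ker_evRep {A : Type} [CommRing A] [IsLocalRing A] [Algebra 𝒪 A]
    (r : GQ →* M2 A) (hc : MatCont r) {n : ℕ} (hn : maximalIdeal A ^ n = ⊥) :
    FiniteLevel (RingHom.ker (evRep (𝒪 := 𝒪) r : PolyRing 𝒪 →+* A)) := by
  obtain ⟨L, hL, hσ⟩ := hc n
  refine ⟨L, hL, fun σ hσL i j => ?_⟩
  have := hσ σ hσL i j
  rw [hn, Ideal.mem_bot, Matrix.sub_apply, Matrix.one_apply] at this
  rw [RingHom.mem_ker, RingHom.coe_coe, map_sub, evRep_X, ← MvPolynomial.algebraMap_eq,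
    AlgHom.commutes, ← this]
  split_ifs <;> simp

end Taut

end Fermat.Agent.S53
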