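import Fermat.Agent.S53.Core
import Fermat.Agent.S53.Deform
import Fermat.Agent.S53.Quot

/-!
# S53: good ideals of the polynomial ring (quotients carrying a rigid strict lift of type `𝒟`)
-/

set_option autoImplicit false

open IsLocalRing GaloisRep MvPolynomial

namespace Fermat.Agent.S53

section Defs

variable {𝒪 : Type} [CommRing 𝒪] [IsLocalRing 𝒪] {ρbar : ResidualGaloisRep (ResidueField 𝒪)}
  (D : ResData 𝒪 ρbar)
  (𝒟 : ∀ ⦃A : Type⦄ [CommRing A] [IsLocalRing A] [Algebra 𝒪 A], GaloisRepAdic A → Prop)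

/-- An ideal `I` of the polynomial ring is good of level `n` if `P ⧸ I` is a finite local ring
whose maximal ideal (the image of `maxId D`) has vanishing `n`-th power, and the tautological
matrices define a rigid strict lift of type `𝒟` over it. -/
def IsGood (n : ℕ) (I : Ideal (PolyRing 𝒪)) : Prop :=
  maxId D ^ n ≤ I ∧ I ≤ maxId D ∧ Finite (PolyRing 𝒪 ⧸ I) ∧ FiniteLevel I ∧
    ∃ h : relIdeal D ≤ I, ∀ [IsLocalRing (PolyRing 𝒪 ⧸ I)] (hc : MatCont (tautRep D I h)),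
      𝒟 (ofMat (tautRep D I h) hc)

variable {D 𝒟}

theorem IsGood.pow_le {n : ℕ} {I : Ideal (PolyRing 𝒪)} (h : IsGood D 𝒟 n I) :
    maxId D ^ n ≤ I := h.1

theorem IsGood.le {n : ℕ} {I : Ideal (PolyRing 𝒪)} (h : IsGood D 𝒟 n I) : I ≤ maxId D := h.2.1

theorem IsGood.finite {n : ℕ} {I : Ideal (PolyRing 𝒪)} (h : IsGood D 𝒟 n I) :
    Finite (PolyRing 𝒪 ⧸ I) := h.2.2.1

theorem IsGood.finiteLevel {n : ℕ} {I : Ideal (PolyRing 𝒪)} (h : IsGood D 𝒟 n I) :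
    FiniteLevel I := h.2.2.2.1

theorem IsGood.rel {n : ℕ} {I : Ideal (PolyRing 𝒪)} (h : IsGood D 𝒟 n I) : relIdeal D ≤ I :=
  h.2.2.2.2.1

theorem IsGood.isLocalRing {n : ℕ} {I : Ideal (PolyRing 𝒪)} (h : IsGood D 𝒟 n I) :
    IsLocalRing (PolyRing 𝒪 ⧸ I) := isLocalRing_quot (maxId D) h.pow_le h.le

theorem IsGood.maximalIdeal_pow {n : ℕ} {I : Ideal (PolyRing 𝒪)} (h : IsGood D 𝒟 n I)
    [IsLocalRing (PolyRing 𝒪 ⧸ I)] : maximalIdeal (PolyRing 𝒪 ⧸ I) ^ n = ⊥ :=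
  maximalIdeal_quot_pow (maxId D) h.pow_le

variable (D) in
/-- Quotients of the polynomial ring by ideals between a power of `maxId D` and `maxId D` are
test algebras as soon as they are finite. -/
theorem isTestAlg_quot {n : ℕ} {I : Ideal (PolyRing 𝒪)} (h1 : maxId D ^ n ≤ I)
    (h2 : I ≤ maxId D) [Finite (PolyRing 𝒪 ⧸ I)] [IsLocalRing (PolyRing 𝒪 ⧸ I)] :
    IsTestAlg 𝒪 (PolyRing 𝒪 ⧸ I) := by
  refine ⟨inferInstance, ⟨fun a ha => ?_⟩, fun x => ?_⟩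
  · by_contra hna
    have hmem : a ∈ maximalIdeal 𝒪 := hna
    have h3 : (C a : PolyRing 𝒪) ∈ maxId D := by
      rw [mem_maxId, resPt_C, residue_eq_zero_iff]; exact hmem
    have h4 : algebraMap 𝒪 (PolyRing 𝒪 ⧸ I) a ∈ maximalIdeal (PolyRing 𝒪 ⧸ I) := by
      rw [algebraMap_quot, mk_mem_maximalIdeal_quot_iff (maxId D) h1 h2]; exact h3
    exact h4 ha
  · obtain ⟨y, rfl⟩ := residue_surjective x
    obtain ⟨p, rfl⟩ := Ideal.Quotient.mk_surjective y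
    obtain ⟨a, ha⟩ := residue_surjective (resPt D p)
    refine ⟨a, ?_⟩
    rw [Function.comp_apply, ← sub_eq_zero, ← map_sub, residue_eq_zero_iff, algebraMap_quot,
      ← map_sub, mk_mem_maximalIdeal_quot_iff (maxId D) h1 h2, mem_maxId, map_sub, resPt_C, ha,
      sub_self]

theorem IsGood.isTestAlg {n : ℕ} {I : Ideal (PolyRing 𝒪)} (h : IsGood D 𝒟 n I)
    [IsLocalRing (PolyRing 𝒪 ⧸ I)] : IsTestAlg 𝒪 (PolyRing 𝒪 ⧸ I) :=
  haveI := h.finite
  isTestAlg_quot D h.pow_le h.le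

theorem IsGood.matCont {n : ℕ} {I : Ideal (PolyRing 𝒪)} (h : IsGood D 𝒟 n I)
    [IsLocalRing (PolyRing 𝒪 ⧸ I)] : MatCont (tautRep D I h.rel) :=
  matCont_tautRep D h.rel h.finiteLevel

theorem IsGood.isDef {n : ℕ} {I : Ideal (PolyRing 𝒪)} (h : IsGood D 𝒟 n I)
    [IsLocalRing (PolyRing 𝒪 ⧸ I)] : IsDef D 𝒟 (tautRep D I h.rel) :=
  { cont := h.matCont
    strict := tautRep_strict D h.rel h.pow_le h.le
    rigid := tautRep_rigid D I h.rel
    type := h.2.2.2.2.2 h.matCont }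

theorem IsGood.mono {n m : ℕ} {I : Ideal (PolyRing 𝒪)} (h : IsGood D 𝒟 n I) (hnm : n ≤ m) :
    IsGood D 𝒟 m I :=
  ⟨(Ideal.pow_le_pow_right hnm).trans h.pow_le, h.le, h.finite, h.finiteLevel, h.2.2.2.2⟩

end Defs

end Fermat.Agent.S53
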