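import Fermat.Agent.S53.Core
import Fermat.Agent.S53.PowerSeries
import Fermat.Prelude.Thm_IsAdicComplete_of_module_finite

/-!
# S53: from a tower of Artinian quotients to a complete Noetherian local ring
-/

set_option autoImplicit false

open IsLocalRing

namespace Fermat.Agent.S53

/-- Output of the tower construction: a complete Noetherian local `𝒪`-algebra `R` whose
quotients `R ⧸ 𝔪 ^ (n+2)` are identified with the given tower `P ⧸ I n`. -/
structure TowerOut (𝒪 : Type) [CommRing 𝒪] [IsLocalRing 𝒪] (P : Type) [CommRing P] [Algebra 𝒪 P]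
    (I : ℕ → Ideal P) (hmono : ∀ n, I (n + 1) ≤ I n) : Type 1 where
  R : Type
  [instCommRing : CommRing R]
  [instIsLocalRing : IsLocalRing R]
  [instIsNoetherianRing : IsNoetherianRing R]
  [instIsAdicComplete : IsAdicComplete (maximalIdeal R) R]
  [instAlgebra : Algebra 𝒪 R]
  isLocalHom : IsLocalHom (algebraMap 𝒪 R)
  residue_surjective : Function.Surjective (residue R ∘ algebraMap 𝒪 R)
  p : ∀ n, R →ₐ[𝒪] P ⧸ I n
  p_surjective : ∀ n, Function.Surjective (p n)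
  ker_p : ∀ n, RingHom.ker (p n).toRingHom = maximalIdeal R ^ (n + 2)
  p_compat : ∀ n, (Ideal.Quotient.factorₐ 𝒪 (hmono n)).comp (p (n + 1)) = p n

attribute [instance] TowerOut.instCommRing TowerOut.instIsLocalRing
  TowerOut.instIsNoetherianRing TowerOut.instIsAdicComplete TowerOut.instAlgebra

/-! ### Step 0: the quotients `P ⧸ I` with `𝔐 ^ m ≤ I ≤ 𝔐` are local with nilpotent maximal ideal -/

section TowerQuot

variable {P : Type} [CommRing P] (𝔐 : Ideal P) (I : Ideal P)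

theorem tower_map_mk_isMaximal (h𝔐 : 𝔐.IsMaximal) (hle : I ≤ 𝔐) :
    (𝔐.map (Ideal.Quotient.mk I)).IsMaximal := by
  rcases Ideal.map_eq_top_or_isMaximal_of_surjective (Ideal.Quotient.mk I)
    Ideal.Quotient.mk_surjective h𝔐 with h | h
  · exfalso
    have h1 := Ideal.comap_map_of_surjective (Ideal.Quotient.mk I) Ideal.Quotient.mk_surjective 𝔐
    rw [h, Ideal.comap_top, ← RingHom.ker_eq_comap_bot, Ideal.mk_ker, sup_of_le_left hle] at h1
    exact h𝔐.ne_top h1.symm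
  · exact h

theorem tower_isLocalRing_quot (h𝔐 : 𝔐.IsMaximal) (m : ℕ) (hpow : 𝔐 ^ m ≤ I) (hle : I ≤ 𝔐) :
    IsLocalRing (P ⧸ I) := by
  apply IsLocalRing.of_unique_max_ideal
  refine ⟨𝔐.map (Ideal.Quotient.mk I), tower_map_mk_isMaximal 𝔐 I h𝔐 hle, ?_⟩
  intro 𝔫 h𝔫
  have h1 : (𝔫.comap (Ideal.Quotient.mk I)).IsMaximal :=
    Ideal.comap_isMaximal_of_surjective _ Ideal.Quotient.mk_surjective
  have h2 : 𝔐 ≤ 𝔫.comap (Ideal.Quotient.mk I) := by
    apply Ideal.IsPrime.le_of_pow_le (n := m)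
    refine hpow.trans ?_
    have h3 : I = Ideal.comap (Ideal.Quotient.mk I) ⊥ := by
      rw [← RingHom.ker_eq_comap_bot, Ideal.mk_ker]
    exact h3.le.trans (Ideal.comap_mono bot_le)
  have h3 := h𝔐.eq_of_le h1.ne_top h2
  rw [h3, Ideal.map_comap_of_surjective _ Ideal.Quotient.mk_surjective]

theorem tower_maximalIdeal_quot [IsLocalRing (P ⧸ I)] (h𝔐 : 𝔐.IsMaximal) (hle : I ≤ 𝔐) :
    maximalIdeal (P ⧸ I) = 𝔐.map (Ideal.Quotient.mk I) :=
  (IsLocalRing.eq_maximalIdeal (tower_map_mk_isMaximal 𝔐 I h𝔐 hle)).symm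

theorem tower_maximalIdeal_quot_pow [IsLocalRing (P ⧸ I)] (h𝔐 : 𝔐.IsMaximal) (m : ℕ)
    (hpow : 𝔐 ^ m ≤ I) (hle : I ≤ 𝔐) :
    maximalIdeal (P ⧸ I) ^ m = ⊥ := by
  rw [tower_maximalIdeal_quot 𝔐 I h𝔐 hle, ← Ideal.map_pow]
  exact Ideal.map_mk_eq_bot_of_le hpow

end TowerQuot

/-! ### Steps 1 and 2: lifting surjections from the power series ring along the tower -/

section TowerLift

variable {𝒪 : Type} [CommRing 𝒪] [IsLocalRing 𝒪]

theorem tower_X_mem_maximalIdeal (d : ℕ) (i : Fin (d + 1)) :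
    (MvPowerSeries.X i : MvPowerSeries (Fin (d + 1)) 𝒪) ∈
      maximalIdeal (MvPowerSeries (Fin (d + 1)) 𝒪) := by
  rw [mem_maximalIdeal, mem_nonunits_iff, MvPowerSeries.isUnit_iff_constantCoeff,
    MvPowerSeries.constantCoeff_X]
  exact not_isUnit_zero

theorem tower_lift_step (ϖ : 𝒪) (d : ℕ)
    {A B : Type} [CommRing A] [CommRing B] [Algebra 𝒪 A] [Algebra 𝒪 B] [IsLocalRing A]
    [IsLocalRing B] (π : A →ₐ[𝒪] B)
    (hker : RingHom.ker π.toRingHom ≤ maximalIdeal A ^ 2)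
    (mA mB : ℕ) (hA : maximalIdeal A ^ mA = ⊥) (hB : maximalIdeal B ^ mB = ⊥)
    (hresA : ∀ x : A, ∃ c : 𝒪, x - algebraMap 𝒪 A c ∈ maximalIdeal A)
    (hπ : Function.Surjective π)
    (f : MvPowerSeries (Fin (d + 1)) 𝒪 →ₐ[𝒪] B) (hf : Function.Surjective f)
    (hfX : f (MvPowerSeries.X 0) = algebraMap 𝒪 B ϖ) :
    ∃ f' : MvPowerSeries (Fin (d + 1)) 𝒪 →ₐ[𝒪] A, Function.Surjective f' ∧
      f' (MvPowerSeries.X 0) = algebraMap 𝒪 A ϖ ∧ π.comp f' = f := by
  classical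
  -- the images of the variables lie in the maximal ideal of `B`
  have hXB : ∀ i, f (MvPowerSeries.X i) ∈ maximalIdeal B := by
    intro i
    have h1 := map_maximalIdeal_of_surjective f.toRingHom hf
    rw [← h1]
    exact Ideal.mem_map_of_mem f.toRingHom (tower_X_mem_maximalIdeal d i)
  -- choose lifts of the images of the variables
  have hex : ∀ i : Fin (d + 1), ∃ b : A, π b = f (MvPowerSeries.X i) ∧
      (i = 0 → b = algebraMap 𝒪 A ϖ) := by
    intro i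
    by_cases hi : i = 0
    · refine ⟨algebraMap 𝒪 A ϖ, ?_, fun _ => rfl⟩
      rw [hi, hfX, AlgHom.commutes]
    · obtain ⟨b, hb⟩ := hπ (f (MvPowerSeries.X i))
      exact ⟨b, hb, fun h => absurd h hi⟩
  choose b hb1 hb2 using hex
  have hbmem : ∀ i, b i ∈ maximalIdeal A := by
    intro i
    rw [mem_maximalIdeal, mem_nonunits_iff]
    intro hu
    have h1 : IsUnit (π (b i)) := hu.map π
    have h2 := hXB i
    rw [← hb1 i, mem_maximalIdeal, mem_nonunits_iff] at h2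
    exact h2 h1
  obtain ⟨f', hf'⟩ := exists_algHom_X (𝒪 := 𝒪) b (maximalIdeal A) mA hA hbmem
  have hcomp : π.comp f' = f := by
    apply algHom_ext_of_X (π.comp f') f (maximalIdeal B) mB hB
    · intro i
      rw [AlgHom.comp_apply, hf' i, hb1 i]
      exact hXB i
    · intro i
      rw [AlgHom.comp_apply, hf' i, hb1 i]
  refine ⟨f', ?_, ?_, hcomp⟩
  · have hrange : f'.range = ⊤ := by
      apply subalgebra_eq_top_of_nilpotent f'.range mA hA
      · intro x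
        obtain ⟨c, hc⟩ := hresA x
        exact ⟨algebraMap 𝒪 A c, Subalgebra.algebraMap_mem _ c, hc⟩
      · intro x hx
        obtain ⟨s, hs⟩ := hf (π x)
        have h1 : x - f' s ∈ maximalIdeal A ^ 2 := by
          apply hker
          rw [RingHom.mem_ker]
          show π (x - f' s) = 0
          rw [map_sub, ← hs, ← hcomp, AlgHom.comp_apply, sub_self]
        refine ⟨f' s, AlgHom.mem_range_self f' s, ?_, h1⟩
        have h2 : x - f' s ∈ maximalIdeal A := Ideal.pow_le_self two_ne_zero h1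
        have h3 : f' s = x - (x - f' s) := by ring
        rw [h3]
        exact Ideal.sub_mem _ hx h2
    intro a
    have ha : a ∈ f'.range := by rw [hrange]; exact Algebra.mem_top
    exact ha
  · rw [hf' 0]
    exact hb2 0 rfl

theorem tower_exists_seq (ϖ : 𝒪) (d : ℕ)
    {P : Type} [CommRing P] [Algebra 𝒪 P] (I : ℕ → Ideal P) (hmono : ∀ n, I (n + 1) ≤ I n)
    [∀ n, IsLocalRing (P ⧸ I n)]
    (hker : ∀ n, RingHom.ker (Ideal.Quotient.factorₐ 𝒪 (hmono n)).toRingHom ≤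
      maximalIdeal (P ⧸ I (n + 1)) ^ 2)
    (hnil : ∀ n, maximalIdeal (P ⧸ I n) ^ (n + 2) = ⊥)
    (hres : ∀ n (x : P ⧸ I n), ∃ c : 𝒪, x - algebraMap 𝒪 (P ⧸ I n) c ∈ maximalIdeal (P ⧸ I n))
    (f₀ : MvPowerSeries (Fin (d + 1)) 𝒪 →ₐ[𝒪] P ⧸ I 0) (hf₀ : Function.Surjective f₀)
    (hf₀X : f₀ (MvPowerSeries.X 0) = algebraMap 𝒪 (P ⧸ I 0) ϖ) :
    ∃ f : ∀ n, MvPowerSeries (Fin (d + 1)) 𝒪 →ₐ[𝒪] P ⧸ I n,
      (∀ n, Function.Surjective (f n)) ∧
      (∀ n, f n (MvPowerSeries.X 0) = algebraMap 𝒪 (P ⧸ I n) ϖ) ∧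
      ∀ n, (Ideal.Quotient.factorₐ 𝒪 (hmono n)).comp (f (n + 1)) = f n := by
  classical
  have step : ∀ (n : ℕ) (g : {f : MvPowerSeries (Fin (d + 1)) 𝒪 →ₐ[𝒪] P ⧸ I n //
      Function.Surjective f ∧ f (MvPowerSeries.X 0) = algebraMap 𝒪 (P ⧸ I n) ϖ}),
      ∃ g' : {f : MvPowerSeries (Fin (d + 1)) 𝒪 →ₐ[𝒪] P ⧸ I (n + 1) //
        Function.Surjective f ∧ f (MvPowerSeries.X 0) = algebraMap 𝒪 (P ⧸ I (n + 1)) ϖ},
        (Ideal.Quotient.factorₐ 𝒪 (hmono n)).comp g'.1 = g.1 := by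
    intro n g
    obtain ⟨f', h1, h2, h3⟩ := tower_lift_step ϖ d (Ideal.Quotient.factorₐ 𝒪 (hmono n))
      (hker n) (n + 1 + 2) (n + 2) (hnil (n + 1)) (hnil n) (hres (n + 1))
      (Ideal.Quotient.factor_surjective (hmono n)) g.1 g.2.1 g.2.2
    exact ⟨⟨f', h1, h2⟩, h3⟩
  choose F hF using step
  let G : ∀ n, {f : MvPowerSeries (Fin (d + 1)) 𝒪 →ₐ[𝒪] P ⧸ I n //
      Function.Surjective f ∧ f (MvPowerSeries.X 0) = algebraMap 𝒪 (P ⧸ I n) ϖ} :=
    fun n => Nat.rec ⟨f₀, hf₀, hf₀X⟩ (fun n g => F n g) n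
  refine ⟨fun n => (G n).1, fun n => (G n).2.1, fun n => (G n).2.2, fun n => ?_⟩
  exact hF n (G n)

end TowerLift

/-! ### Step 4: the kernels of the maps `f n` -/

theorem tower_eq_iInf_sup {S : Type} [CommRing S] (𝔵 : Ideal S) [IsPrecomplete 𝔵 S]
    (K : ℕ → Ideal S) (hK : ∀ n, K n = K (n + 1) ⊔ 𝔵 ^ (n + 2)) (n : ℕ) :
    K n = (⨅ m, K m) ⊔ 𝔵 ^ (n + 2) := by
  have hanti : ∀ a b, a ≤ b → K b ≤ K a := by
    intro a b hab
    induction b, hab using Nat.le_induction with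
    | base => exact le_rfl
    | succ b hab ih => exact le_trans (by rw [hK b]; exact le_sup_left) ih
  have hpow : ∀ m, 𝔵 ^ (m + 2) ≤ K m := fun m => by rw [hK m]; exact le_sup_right
  apply le_antisymm
  · intro x hx
    have hstep : ∀ (k : ℕ) (y : S), ∃ a : S,
        y ∈ K k → (a ∈ K (k + 1) ∧ y - a ∈ 𝔵 ^ (k + 2)) := by
      intro k y
      by_cases hy : y ∈ K k
      · rw [hK k] at hy
        obtain ⟨a, ha, b, hb, hab⟩ := Submodule.mem_sup.mp hy
        refine ⟨a, fun _ => ⟨ha, ?_⟩⟩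
        have h1 : y - a = b := by rw [← hab]; ring
        rw [h1]; exact hb
      · exact ⟨0, fun h => absurd h hy⟩
    choose g hg using hstep
    let y : ℕ → S := fun k => Nat.rec x (fun k yk => g (n + k) yk) k
    have hy0 : y 0 = x := rfl
    have hysucc : ∀ k, y (k + 1) = g (n + k) (y k) := fun k => rfl
    have hymem : ∀ k, y k ∈ K (n + k) := by
      intro k
      induction k with
      | zero => exact hx
      | succ k ih => rw [hysucc]; exact (hg (n + k) (y k) ih).1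
    have hydiff : ∀ k, y k - y (k + 1) ∈ 𝔵 ^ (n + k + 2) := by
      intro k
      rw [hysucc]; exact (hg (n + k) (y k) (hymem k)).2
    have hcauchy : ∀ m k, m ≤ k → y m - y k ∈ 𝔵 ^ (n + m + 2) := by
      intro m k hmk
      induction k, hmk using Nat.le_induction with
      | base => rw [sub_self]; exact Ideal.zero_mem _
      | succ k hmk ih =>
        have h1 : y m - y (k + 1) = (y m - y k) + (y k - y (k + 1)) := by ring
        rw [h1]
        exact Ideal.add_mem _ ih (Ideal.pow_le_pow_right (by omega) (hydiff k))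
    obtain ⟨L, hL⟩ := IsPrecomplete.prec ‹IsPrecomplete 𝔵 S› (f := y) (by
      intro m k hmk
      rw [SModEq.sub_mem, smul_eq_mul, Ideal.mul_top]
      exact Ideal.pow_le_pow_right (by omega) (hcauchy m k hmk))
    have hL' : ∀ k, y k - L ∈ 𝔵 ^ k := by
      intro k
      have h1 := hL k
      rwa [SModEq.sub_mem, smul_eq_mul, Ideal.mul_top] at h1
    have hLmem : ∀ m, L ∈ K m := by
      intro m
      have h1 : y (m + 2) ∈ K m := hanti m (n + (m + 2)) (by omega) (hymem (m + 2))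
      have h2 : y (m + 2) - L ∈ K m := hpow m (hL' (m + 2))
      have h3 : L = y (m + 2) - (y (m + 2) - L) := by ring
      rw [h3]; exact Ideal.sub_mem _ h1 h2
    have hxL : x - L ∈ 𝔵 ^ (n + 2) := by
      have h1 : x - L = (y 0 - y (n + 2)) + (y (n + 2) - L) := by rw [hy0]; ring
      rw [h1]
      exact Ideal.add_mem _ (hcauchy 0 (n + 2) (by omega)) (hL' (n + 2))
    have h4 : x = L + (x - L) := by ring
    rw [h4]
    exact Ideal.add_mem _ (Ideal.mem_sup_left (Ideal.mem_iInf.mpr hLmem))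
      (Ideal.mem_sup_right hxL)
  · exact sup_le (iInf_le K n) (hpow n)

theorem tower_algHom_X_eq_C {𝒪 : Type} [CommRing 𝒪] (ϖ : 𝒪) (d : ℕ) {A : Type} [CommRing A]
    [Algebra 𝒪 A] (f : MvPowerSeries (Fin (d + 1)) 𝒪 →ₐ[𝒪] A)
    (hfX : f (MvPowerSeries.X 0) = algebraMap 𝒪 A ϖ) :
    f.toRingHom (MvPowerSeries.X 0) = f.toRingHom (MvPowerSeries.C ϖ) := by
  show f (MvPowerSeries.X 0) = f (MvPowerSeries.C ϖ)
  rw [hfX, MvPowerSeries.c_eq_algebraMap, AlgHom.commutes]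

section TowerKer

variable {𝒪 : Type} [CommRing 𝒪] [IsLocalRing 𝒪]

theorem tower_map_span_X (ϖ : 𝒪) (hϖ : maximalIdeal 𝒪 = Ideal.span {ϖ}) (d : ℕ)
    {A : Type} [CommRing A] [IsLocalRing A]
    (g : MvPowerSeries (Fin (d + 1)) 𝒪 →+* A) (hg : Function.Surjective g)
    (hg0 : g (MvPowerSeries.X 0) = g (MvPowerSeries.C ϖ)) :
    Ideal.map g (Ideal.span (Set.range
      (MvPowerSeries.X : Fin (d + 1) → MvPowerSeries (Fin (d + 1)) 𝒪))) = maximalIdeal A := by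
  rw [← map_maximalIdeal_of_surjective g hg, maximalIdeal_mvPowerSeries_eq ϖ hϖ, Ideal.map_sup]
  apply le_antisymm le_sup_left
  apply sup_le le_rfl
  rw [Ideal.map_span, Set.image_singleton, Ideal.span_le, Set.singleton_subset_iff, ← hg0]
  exact Ideal.mem_map_of_mem g (Ideal.subset_span ⟨0, rfl⟩)

theorem tower_ker_succ (ϖ : 𝒪) (hϖ : maximalIdeal 𝒪 = Ideal.span {ϖ}) (d : ℕ)
    {P : Type} [CommRing P] [Algebra 𝒪 P] (I : ℕ → Ideal P) (hmono : ∀ n, I (n + 1) ≤ I n)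
    [∀ n, IsLocalRing (P ⧸ I n)]
    (hker : ∀ n, RingHom.ker (Ideal.Quotient.factorₐ 𝒪 (hmono n)).toRingHom =
      maximalIdeal (P ⧸ I (n + 1)) ^ (n + 2))
    (f : ∀ n, MvPowerSeries (Fin (d + 1)) 𝒪 →ₐ[𝒪] P ⧸ I n)
    (hf : ∀ n, Function.Surjective (f n))
    (hfX : ∀ n, f n (MvPowerSeries.X 0) = algebraMap 𝒪 (P ⧸ I n) ϖ)
    (hcomp : ∀ n, (Ideal.Quotient.factorₐ 𝒪 (hmono n)).comp (f (n + 1)) = f n) (n : ℕ) :
    RingHom.ker (f n).toRingHom = RingHom.ker (f (n + 1)).toRingHom ⊔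
      (Ideal.span (Set.range
        (MvPowerSeries.X : Fin (d + 1) → MvPowerSeries (Fin (d + 1)) 𝒪))) ^ (n + 2) := by
  have h1 : (f n).toRingHom =
      (Ideal.Quotient.factorₐ 𝒪 (hmono n)).toRingHom.comp (f (n + 1)).toRingHom := by
    rw [← hcomp n]; rfl
  have h2 := tower_map_span_X ϖ hϖ d (f (n + 1)).toRingHom (hf (n + 1))
    (tower_algHom_X_eq_C ϖ d (f (n + 1)) (hfX (n + 1)))
  rw [h1, ← RingHom.comap_ker, hker n, ← h2, ← Ideal.map_pow,
    Ideal.comap_map_of_surjective (f (n + 1)).toRingHom (hf (n + 1)),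
    ← RingHom.ker_eq_comap_bot, sup_comm]

/-! ### Steps 3, 5, 6: the ring `R = S ⧸ ⨅ n, ker (f n)` -/

theorem tower_main [IsNoetherianRing 𝒪] (ϖ : 𝒪) (hϖ : maximalIdeal 𝒪 = Ideal.span {ϖ}) (d : ℕ)
    {P : Type} [CommRing P] [Algebra 𝒪 P] (I : ℕ → Ideal P) (hmono : ∀ n, I (n + 1) ≤ I n)
    [∀ n, IsLocalRing (P ⧸ I n)]
    (hker : ∀ n, RingHom.ker (Ideal.Quotient.factorₐ 𝒪 (hmono n)).toRingHom =
      maximalIdeal (P ⧸ I (n + 1)) ^ (n + 2))
    (f : ∀ n, MvPowerSeries (Fin (d + 1)) 𝒪 →ₐ[𝒪] P ⧸ I n)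
    (hf : ∀ n, Function.Surjective (f n))
    (hfX : ∀ n, f n (MvPowerSeries.X 0) = algebraMap 𝒪 (P ⧸ I n) ϖ)
    (hcomp : ∀ n, (Ideal.Quotient.factorₐ 𝒪 (hmono n)).comp (f (n + 1)) = f n) :
    Nonempty (TowerOut 𝒪 P I hmono) := by
  classical
  let S := MvPowerSeries (Fin (d + 1)) 𝒪
  let 𝔵 : Ideal S := Ideal.span (Set.range MvPowerSeries.X)
  let K : ℕ → Ideal S := fun n => RingHom.ker (f n).toRingHom
  let J : Ideal S := ⨅ n, K n
  have hKsucc : ∀ n, K n = K (n + 1) ⊔ 𝔵 ^ (n + 2) :=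
    tower_ker_succ ϖ hϖ d I hmono hker f hf hfX hcomp
  have hKJ : ∀ n, K n = J ⊔ 𝔵 ^ (n + 2) := tower_eq_iInf_sup 𝔵 K hKsucc
  have hJK : ∀ n, J ≤ K n := fun n => iInf_le K n
  have hJtop : J ≠ ⊤ := fun h =>
    RingHom.ker_ne_top (f 0).toRingHom (top_le_iff.mp (h ▸ hJK 0))
  have hnontriv : Nontrivial (S ⧸ J) := Ideal.Quotient.nontrivial_iff.mpr hJtop
  have hloc : IsLocalRing (S ⧸ J) :=
    IsLocalRing.of_surjective' (Ideal.Quotient.mk J) Ideal.Quotient.mk_surjective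
  have hX0 : (Ideal.Quotient.mk J) (MvPowerSeries.X 0) =
      (Ideal.Quotient.mk J) (MvPowerSeries.C ϖ) := by
    rw [Ideal.Quotient.eq, Ideal.mem_iInf]
    intro n
    rw [RingHom.mem_ker, map_sub, sub_eq_zero]
    exact tower_algHom_X_eq_C ϖ d (f n) (hfX n)
  have hmax : Ideal.map (Ideal.Quotient.mk J) 𝔵 = maximalIdeal (S ⧸ J) :=
    tower_map_span_X ϖ hϖ d (Ideal.Quotient.mk J) Ideal.Quotient.mk_surjective hX0
  have hcomplete : IsAdicComplete (maximalIdeal (S ⧸ J)) (S ⧸ J) := by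
    have h1 : IsAdicComplete 𝔵 (S ⧸ J) := IsAdicComplete.of_module_finite 𝔵 (S ⧸ J)
    have h2 := (IsAdicComplete.map_algebraMap_iff (S := S ⧸ J) 𝔵 (S ⧸ J)).mpr h1
    rw [← hmax]
    exact h2
  let p : ∀ n, S ⧸ J →ₐ[𝒪] P ⧸ I n := fun n =>
    Ideal.Quotient.liftₐ J (f n) (fun a ha => RingHom.mem_ker.mp (hJK n ha))
  refine ⟨{ R := S ⧸ J, isLocalHom := ?_, residue_surjective := ?_, p := p, p_surjective := ?_,
            ker_p := ?_, p_compat := ?_ }⟩
  · have h1 : IsLocalHom (algebraMap 𝒪 S) := isLocalHom_algebraMap_mvPowerSeries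
    have h2 : IsLocalHom (Ideal.Quotient.mk J) :=
      IsLocalHom.of_surjective _ Ideal.Quotient.mk_surjective
    have h3 : algebraMap 𝒪 (S ⧸ J) = (Ideal.Quotient.mk J).comp (algebraMap 𝒪 S) := rfl
    rw [h3]
    exact RingHom.isLocalHom_comp _ _
  · intro y
    obtain ⟨r, rfl⟩ := IsLocalRing.residue_surjective y
    obtain ⟨s, rfl⟩ := Ideal.Quotient.mk_surjective r
    obtain ⟨c, hc⟩ := residue_algebraMap_mvPowerSeries_surjective (𝒪 := 𝒪) (σ := Fin (d + 1))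
      (residue S s)
    refine ⟨c, ?_⟩
    simp only [Function.comp_apply] at hc ⊢
    rw [← sub_eq_zero, ← map_sub, residue_eq_zero_iff] at hc ⊢
    have h4 : algebraMap 𝒪 (S ⧸ J) c - Ideal.Quotient.mk J s =
        Ideal.Quotient.mk J (algebraMap 𝒪 S c - s) := by rw [map_sub]; rfl
    rw [h4, ← map_maximalIdeal_of_surjective (Ideal.Quotient.mk J) Ideal.Quotient.mk_surjective]
    exact Ideal.mem_map_of_mem _ hc
  · intro n q
    obtain ⟨s, rfl⟩ := hf n q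
    exact ⟨Ideal.Quotient.mk J s, rfl⟩
  · intro n
    have h5 : RingHom.ker (p n).toRingHom = Ideal.map (Ideal.Quotient.mk J) (K n) :=
      Ideal.ker_quotient_lift (f n).toRingHom _
    rw [h5, hKJ n, Ideal.map_sup, Ideal.map_mk_eq_bot_of_le le_rfl, bot_sup_eq, Ideal.map_pow,
      hmax]
  · intro n
    apply Ideal.Quotient.algHom_ext
    ext s
    exact DFunLike.congr_fun (hcomp n) s

end TowerKer

theorem nonempty_towerOut (𝒪 : Type) [CommRing 𝒪] [IsLocalRing 𝒪] [IsNoetherianRing 𝒪]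
    (ϖ : 𝒪) (hϖ : maximalIdeal 𝒪 = Ideal.span {ϖ}) (d : ℕ)
    (P : Type) [CommRing P] [Algebra 𝒪 P] (𝔐 : Ideal P) (h𝔐 : 𝔐.IsMaximal)
    (hres : Function.Surjective ((Ideal.Quotient.mk 𝔐).comp (algebraMap 𝒪 P)))
    (I : ℕ → Ideal P) (hmono : ∀ n, I (n + 1) ≤ I n)
    (hstep : ∀ n, I n = I (n + 1) ⊔ 𝔐 ^ (n + 2)) (hle : ∀ n, I n ≤ 𝔐)
    (f₀ : MvPowerSeries (Fin (d + 1)) 𝒪 →ₐ[𝒪] P ⧸ I 0) (hf₀ : Function.Surjective f₀)
    (hf₀X : f₀ (MvPowerSeries.X 0) = algebraMap 𝒪 (P ⧸ I 0) ϖ) :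
    Nonempty (TowerOut 𝒪 P I hmono) := by
  have hpow : ∀ n, 𝔐 ^ (n + 2) ≤ I n := fun n => le_sup_right.trans (hstep n).ge
  have hloc : ∀ n, IsLocalRing (P ⧸ I n) := fun n =>
    tower_isLocalRing_quot 𝔐 (I n) h𝔐 (n + 2) (hpow n) (hle n)
  have hmaxQ : ∀ n, maximalIdeal (P ⧸ I n) = 𝔐.map (Ideal.Quotient.mk (I n)) := fun n =>
    tower_maximalIdeal_quot 𝔐 (I n) h𝔐 (hle n)
  have hnil : ∀ n, maximalIdeal (P ⧸ I n) ^ (n + 2) = ⊥ := fun n =>
    tower_maximalIdeal_quot_pow 𝔐 (I n) h𝔐 (n + 2) (hpow n) (hle n)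
  have hker : ∀ n, RingHom.ker (Ideal.Quotient.factorₐ 𝒪 (hmono n)).toRingHom =
      maximalIdeal (P ⧸ I (n + 1)) ^ (n + 2) := by
    intro n
    have h1 : RingHom.ker (Ideal.Quotient.factorₐ 𝒪 (hmono n)).toRingHom =
        Ideal.map (Ideal.Quotient.mk (I (n + 1))) (I n) := by
      have h2 := Ideal.ker_quotient_lift (I := I (n + 1)) (Ideal.Quotient.mk (I n))
        (by rw [Ideal.mk_ker]; exact hmono n)
      exact h2.trans (congrArg (Ideal.map (Ideal.Quotient.mk (I (n + 1)))) Ideal.mk_ker)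
    rw [h1, hmaxQ (n + 1), ← Ideal.map_pow]
    conv_lhs => rw [hstep n]
    rw [Ideal.map_sup, Ideal.map_mk_eq_bot_of_le le_rfl, bot_sup_eq]
  have hresQ : ∀ n (x : P ⧸ I n), ∃ c : 𝒪,
      x - algebraMap 𝒪 (P ⧸ I n) c ∈ maximalIdeal (P ⧸ I n) := by
    intro n x
    obtain ⟨y, rfl⟩ := Ideal.Quotient.mk_surjective x
    obtain ⟨c, hc⟩ := hres (Ideal.Quotient.mk 𝔐 y)
    refine ⟨c, ?_⟩
    rw [hmaxQ n]
    have h1 : Ideal.Quotient.mk (I n) y - algebraMap 𝒪 (P ⧸ I n) c =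
        Ideal.Quotient.mk (I n) (y - algebraMap 𝒪 P c) := by rw [map_sub]; rfl
    rw [h1]
    apply Ideal.mem_map_of_mem
    rw [RingHom.comp_apply, Ideal.Quotient.eq] at hc
    have h2 : y - algebraMap 𝒪 P c = -(algebraMap 𝒪 P c - y) := by ring
    rw [h2]
    exact neg_mem hc
  obtain ⟨f, hf, hfX, hcomp⟩ := tower_exists_seq ϖ d I hmono
    (fun n => (hker n).le.trans (Ideal.pow_le_pow_right (by omega))) hnil hresQ f₀ hf₀ hf₀X
  exact tower_main ϖ hϖ d I hmono hker f hf hfX hcomp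

/-- Compatible families lift to `R` (a consequence of completeness, surjectivity of the `p n`
and the description of their kernels).  Auxiliary form of `TowerOut.exists_lift`. -/
theorem tower_exists_lift {𝒪 : Type} [CommRing 𝒪] [IsLocalRing 𝒪] {P : Type} [CommRing P]
    [Algebra 𝒪 P] {I : ℕ → Ideal P} {hmono : ∀ n, I (n + 1) ≤ I n} (T : TowerOut 𝒪 P I hmono)
    (x : ∀ n, P ⧸ I n) (hx : ∀ n, Ideal.Quotient.factor (hmono n) (x (n + 1)) = x n) :
    ∃ u : T.R, ∀ n, T.p n u = x n := by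
  have hex : ∀ n, ∃ u : T.R, T.p n u = x n := fun n => T.p_surjective n (x n)
  choose u hu using hex
  have hmemker : ∀ n (a : T.R), a ∈ maximalIdeal T.R ^ (n + 2) ↔ T.p n a = 0 := by
    intro n a
    rw [← T.ker_p n, RingHom.mem_ker]
    rfl
  have hcompat : ∀ n (a : T.R),
      Ideal.Quotient.factor (hmono n) (T.p (n + 1) a) = T.p n a := by
    intro n a
    exact DFunLike.congr_fun (T.p_compat n) a
  have hdiff : ∀ n, u n - u (n + 1) ∈ maximalIdeal T.R ^ (n + 2) := by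
    intro n
    rw [hmemker, map_sub, hu n, ← hcompat n, hu (n + 1), hx n, sub_self]
  have hcauchy : ∀ m n, m ≤ n → u m - u n ∈ maximalIdeal T.R ^ (m + 2) := by
    intro m n hmn
    induction n, hmn using Nat.le_induction with
    | base => rw [sub_self]; exact Ideal.zero_mem _
    | succ n hmn ih =>
      have h1 : u m - u (n + 1) = (u m - u n) + (u n - u (n + 1)) := by ring
      rw [h1]
      exact Ideal.add_mem _ ih (Ideal.pow_le_pow_right (by omega) (hdiff n))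
  obtain ⟨L, hL⟩ := IsPrecomplete.prec (T.instIsAdicComplete.toIsPrecomplete) (f := u) (by
    intro m n hmn
    rw [SModEq.sub_mem, smul_eq_mul, Ideal.mul_top]
    exact Ideal.pow_le_pow_right (by omega) (hcauchy m n hmn))
  have hL' : ∀ n, u n - L ∈ maximalIdeal T.R ^ n := by
    intro n
    have h1 := hL n
    rwa [SModEq.sub_mem, smul_eq_mul, Ideal.mul_top] at h1
  refine ⟨L, fun n => ?_⟩
  have h1 : T.p n (u (n + 2)) = T.p n L := by
    rw [← sub_eq_zero, ← map_sub, ← hmemker]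
    exact hL' (n + 2)
  have h2 : T.p n (u n) = T.p n (u (n + 2)) := by
    rw [← sub_eq_zero, ← map_sub, ← hmemker]
    exact hcauchy n (n + 2) (by omega)
  rw [← h1, ← h2, hu n]

end Fermat.Agent.S53
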