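import Fermat.Agent.S53.Tower

/-!
# S53: compatible families lift to the limit ring of a tower
-/

set_option autoImplicit false

open IsLocalRing

namespace Fermat.Agent.S53

/-- Compatible families lift to `R` (a consequence of completeness, surjectivity of the `p n`
and the description of their kernels). -/
theorem TowerOut.exists_lift {𝒪 : Type} [CommRing 𝒪] [IsLocalRing 𝒪] {P : Type} [CommRing P]
    [Algebra 𝒪 P] {I : ℕ → Ideal P} {hmono : ∀ n, I (n + 1) ≤ I n} (T : TowerOut 𝒪 P I hmono)
    (x : ∀ n, P ⧸ I n) (hx : ∀ n, Ideal.Quotient.factor (hmono n) (x (n + 1)) = x n) :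
    ∃ u : T.R, ∀ n, T.p n u = x n := by
  choose u hu using fun n => T.p_surjective n (x n)
  have hcompat : ∀ n (y : T.R),
      T.p n y = Ideal.Quotient.factor (hmono n) (T.p (n + 1) y) := by
    intro n y
    have h := DFunLike.congr_fun (T.p_compat n) y
    exact h.symm
  have hmem : ∀ n (y z : T.R), T.p n y = T.p n z → y - z ∈ maximalIdeal T.R ^ (n + 2) := by
    intro n y z h
    rw [← T.ker_p n, RingHom.mem_ker]
    show T.p n (y - z) = 0
    rw [map_sub, h, sub_self]
  have hker : ∀ n (y z : T.R), y - z ∈ maximalIdeal T.R ^ (n + 2) → T.p n y = T.p n z := by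
    intro n y z h
    rw [← T.ker_p n, RingHom.mem_ker] at h
    have h' : T.p n (y - z) = 0 := h
    rwa [map_sub, sub_eq_zero] at h'
  have hstep : ∀ n, u (n + 1) - u n ∈ maximalIdeal T.R ^ (n + 2) := by
    intro n
    apply hmem
    rw [hcompat n (u (n + 1)), hu (n + 1), hx n, hu n]
  have hcauchy : ∀ m j, u (m + j) - u m ∈ maximalIdeal T.R ^ (m + 2) := by
    intro m j
    induction j with
    | zero => simp
    | succ j ih =>
      have h1 : u (m + (j + 1)) - u (m + j) ∈ maximalIdeal T.R ^ (m + 2) :=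
        Ideal.pow_le_pow_right (by omega) (hstep (m + j))
      have h2 : u (m + (j + 1)) - u m
          = (u (m + (j + 1)) - u (m + j)) + (u (m + j) - u m) := by ring
      rw [h2]
      exact add_mem h1 ih
  have hprec : IsPrecomplete (maximalIdeal T.R) T.R := IsAdicComplete.toIsPrecomplete
  obtain ⟨L, hL⟩ := IsPrecomplete.prec hprec (f := u) (by
    intro m n hmn
    obtain ⟨j, rfl⟩ := Nat.exists_eq_add_of_le hmn
    rw [SModEq.sub_mem, smul_eq_mul, Ideal.mul_top]
    have h2 : u m - u (m + j) = -(u (m + j) - u m) := by ring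
    rw [h2]
    exact neg_mem (Ideal.pow_le_pow_right (by omega) (hcauchy m j)))
  refine ⟨L, fun n => ?_⟩
  have h1 := hL (n + 2)
  rw [SModEq.sub_mem, smul_eq_mul, Ideal.mul_top] at h1
  rw [← hker n _ _ h1, hker n _ _ (hcauchy n 2), hu]

end Fermat.Agent.S53
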