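import Fermat.Agent.S53.Good
import Fermat.Agent.S53.Tower
import Fermat.Agent.S53.TowerLift

/-!
# S53: the data of the tower of minimal good ideals together with its limit ring
-/

set_option autoImplicit false

open IsLocalRing GaloisRep MvPolynomial

namespace Fermat.Agent.S53

/-- The tower of minimal good ideals `Imin n` (of level `n + 2`) of the polynomial ring,
together with a complete Noetherian local ring `T.R` whose quotients by powers of the maximal
ideal are the quotients `PolyRing 𝒪 ⧸ Imin n`. -/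
structure TowerSetup (𝒪 : Type) [CommRing 𝒪] [IsLocalRing 𝒪]
    (ρbar : ResidualGaloisRep (ResidueField 𝒪))
    (𝒟 : ∀ ⦃A : Type⦄ [CommRing A] [IsLocalRing A] [Algebra 𝒪 A], GaloisRepAdic A → Prop) :
    Type 1 where
  D : ResData 𝒪 ρbar
  Imin : ℕ → Ideal (PolyRing 𝒪)
  good : ∀ n, IsGood D 𝒟 (n + 2) (Imin n)
  min : ∀ n J, IsGood D 𝒟 (n + 2) J → Imin n ≤ J
  mono : ∀ n, Imin (n + 1) ≤ Imin n
  T : TowerOut 𝒪 (PolyRing 𝒪) Imin mono

end Fermat.Agent.S53
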